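import Fermat.Agent.OrdinaryAtP.Flat.Small
import Fermat.Agent.Semistable.Classes

/-!
# Basic facts on Kummer functions with both reductions one
-/

set_option autoImplicit false
set_option linter.unusedSectionVars false

noncomputable section

namespace Fermat.Agent.OrdinaryAtP

open AlgebraicCurve ModularCurve Semistable
open Arith (QBar)

theorem exists_one_add_pow_prime {R : Type*} [CommRing R] {p : ℕ} (hp : p.Prime) (y : R) :
    ∃ r, (1 + y) ^ p = 1 + (p : R) * y + y ^ p + (p : R) * y ^ 2 * r := by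
  have hdvd : ∀ m ∈ Finset.Ico 2 p, (p : R) * y ^ 2 ∣ y ^ m * ((p.choose m : ℕ) : R) := by
    intro m hm
    rw [Finset.mem_Ico] at hm
    obtain ⟨c, hc⟩ := hp.dvd_choose_self (k := m) (by omega) hm.2
    obtain ⟨l, rfl⟩ := Nat.exists_eq_add_of_le hm.1
    exact ⟨(c : R) * y ^ l, by rw [hc]; push_cast; ring⟩
  obtain ⟨r, hr⟩ := Finset.dvd_sum hdvd
  refine ⟨r, ?_⟩
  rw [add_comm (1 : R) y, add_pow, Finset.sum_range_succ, Finset.range_eq_Ico,
    Finset.sum_eq_sum_Ico_succ_bot hp.pos, Finset.sum_eq_sum_Ico_succ_bot hp.one_lt]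
  simp only [one_pow, mul_one, pow_zero, Nat.choose_zero_right, Nat.cast_one,
    pow_one, Nat.choose_one_right, Nat.choose_self]
  rw [hr]
  ring

variable {A : ValuationSubring QBar} {q : ℕ} [hq : Fact q.Prime]

/-- The power of `1 + a u`. -/
theorem isSmall_one_add_pow {a : QBar} (ha : a ∈ A) {u : LSer} (hu : u ∈ locS A) :
    IsSmall A ((q : QBar) * a ^ 2) ((1 + algebraMap QBar LSer a * u) ^ q -
      (1 + algebraMap QBar LSer ((q : QBar) * a) * u + algebraMap QBar LSer (a ^ q) * u ^ q)) := by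
  obtain ⟨r, hr⟩ := exists_one_add_pow_prime hq.out
    ((⟨_, algebraMap_mem_locS ha⟩ * ⟨u, hu⟩ : locS A))
  refine ⟨u ^ 2 * (r : LSer), mul_mem (pow_mem hu 2) r.2, ?_⟩
  have h' := congrArg Subtype.val hr
  push_cast at h'
  rw [h', map_mul, map_mul, map_pow, map_pow, map_natCast, mul_pow, mul_pow]
  ring

theorem ne_zero_of_valuation_pow {lam : QBar}
    (hlam : A.valuation (lam ^ (q - 1)) = A.valuation (q : QBar)) : lam ≠ 0 := by
  rintro rfl
  rw [zero_pow (by have := hq.out.two_le; omega), map_zero, eq_comm, map_eq_zero] at hlam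
  exact hq.out.ne_zero (by exact_mod_cast hlam)

theorem mem_nonunits_of_valuation_pow (hA : A.LiesOverPrime q) {lam : QBar}
    (hlam : A.valuation (lam ^ (q - 1)) = A.valuation (q : QBar)) : lam ∈ A.nonunits := by
  rw [ValuationSubring.mem_nonunits_iff]
  by_contra! h
  have hq1 : A.valuation (q : QBar) < 1 := (ValuationSubring.mem_nonunits_iff A).mp hA
  rw [← hlam, map_pow] at hq1
  exact absurd hq1 (not_lt.mpr (one_le_pow₀ h))

theorem valuation_natCast_mul_eq {lam : QBar}
    (hlam : A.valuation (lam ^ (q - 1)) = A.valuation (q : QBar)) :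
    A.valuation ((q : QBar) * lam) = A.valuation (lam ^ q) := by
  rw [map_mul, ← hlam, ← map_mul, ← pow_succ, Nat.sub_add_cancel hq.out.pos]

variable {M : ℕ} [NeZero M] [CharP (Res A) q] [FF.IsFunctionField (Res A) (KM A M)]
  (h : Setup A M q)
include h

/-- A class with a Kummer function with both reductions one has trivial gluing. -/
theorem isGlue_one_of_hasUnitRed {D : Divisor QBar (FB (q * M))} {f : FB (q * M)}
    (hord : ∀ v, v.ord f = (q : ℤ) * D v) (hf : HasUnitRed A M q h.hqM f) : IsGlue h D 1 := by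
  obtain ⟨hfl, hfr⟩ := hf
  obtain ⟨c, hc, hca⟩ := h.exists_isGlue hq.out.ne_zero ⟨f, hfl⟩ hord (fun _ => 1)
    (fun _ => one_ne_zero) (fun s => by rw [hfr, Pi.one_apply, map_one])
  have : c = 1 := funext fun χ => by
    have h1 := hca χ
    rw [one_mul] at h1
    exact frobenius_inj (Res A) q (by rw [frobenius_def, frobenius_def, h1, Pi.one_apply, one_pow])
  exact this ▸ hc

/-- The reductions of the sections of a flat class are those of level `n`. -/
theorem exists_LD_eq {D : Divisor QBar (FB (q * M))} {f : FB (q * M)}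
    (hord : ∀ v, v.ord f = (q : ℤ) * D v) (hf : HasUnitRed A M q h.hqM f) :
    ∃ n₀ : ℕ, ∀ n, n₀ ≤ n →
      LD A h.hqM D n = glued h 1 n ∧ Bn A M q h.hqM n = glued h 1 n := by
  obtain ⟨n₁, hn₁⟩ := isGlue_one_of_hasUnitRed h hord hf
  obtain ⟨n₂, hn₂⟩ := h.exists_glued
  exact ⟨n₁ + n₂, fun n hn => ⟨hn₁ n (by omega), (hn₂ n (by omega)).2.symm⟩⟩

end Fermat.Agent.OrdinaryAtP

end
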