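import Fermat.Agent.OrdinaryAtP.Flat.Small
import Fermat.Agent.OrdinaryAtP.Flat.Basics
import Fermat.Agent.Semistable.RootLemmas
import Fermat.Agent.ModFun.HeckeRoots

/-!
# Approximate roots of flat new Kummer functions

If `f` has both reductions one and the norms of `f` and of `w f` to level `M` are `q`-th powers,
both expansions of `f` are `q`-th powers up to any prescribed error: an approximation `G` of the
second expansion gives, through the norm relation, an approximation of the first one with smaller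
error, and conversely.
-/

set_option autoImplicit false
set_option maxHeartbeats 800000

noncomputable section

namespace Fermat.Agent.OrdinaryAtP

open AlgebraicCurve ModularCurve Semistable
open NewformLocal.Toric (normUp qExpand_normUp twist_mem_intS twist_mem_locS)
open Arith (QBar)

variable {A : ValuationSubring QBar} {q : ℕ} [hq : Fact q.Prime] {ζ : QBarˣ}

/-- The product of the twists by the powers of `ζ`. -/
def twistProd (q : ℕ) (ζ : QBarˣ) : LSer →* LSer where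
  toFun x := ∏ i ∈ Finset.range q, ModFun.twist (ζ ^ i) x
  map_one' := by simp
  map_mul' x y := by simp [Finset.prod_mul_distrib]

theorem twistProd_apply (x : LSer) :
    twistProd q ζ x = ∏ i ∈ Finset.range q, ModFun.twist (ζ ^ i) x := rfl

theorem coeff_twistProd_eq_zero (hζ : IsPrimitiveRoot ζ q) (x : LSer) {n : ℤ}
    (hn : ¬ (q : ℤ) ∣ n) : (twistProd q ζ x).coeff n = 0 := by
  have hcomp : ∀ i : ℕ, ModFun.twist ζ (ModFun.twist (ζ ^ i) x) = ModFun.twist (ζ ^ (i + 1)) x :=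
    fun i => HahnSeries.ext (funext fun k => by
      simp only [ModFun.coeff_twist, pow_succ', mul_zpow, Units.val_mul, mul_assoc])
  have hinv : ModFun.twist ζ (twistProd q ζ x) = twistProd q ζ x := by
    rw [twistProd_apply, map_prod, Finset.prod_congr rfl fun i _ => hcomp i]
    obtain ⟨r, hr⟩ : ∃ r, q = r + 1 := ⟨q - 1, by have := hq.out.pos; omega⟩
    have hlast : ζ ^ (r + 1) = ζ ^ 0 := by rw [← hr, hζ.pow_eq_one, pow_zero]
    rw [hr, Finset.prod_range_succ, Finset.prod_range_succ', hlast]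
  have h := congrArg (fun s : LSer => s.coeff n) hinv
  simp only [ModFun.coeff_twist] at h
  by_contra hne
  have h1 : ((ζ ^ n : QBarˣ) : QBar) = 1 :=
    mul_right_cancel₀ hne (h.trans (one_mul _).symm)
  exact hn ((hζ.zpow_eq_one_iff_dvd n).mp (Units.ext h1))

/-- A series supported on multiples of `q` is an expansion in the `q`-th power. -/
theorem exists_preimage_qExpand {x : LSer} (hx : ∀ n, ¬ (q : ℤ) ∣ n → x.coeff n = 0) :
    ∃ y : LSer, qExpand QBar q y = x ∧ ∀ n, y.coeff n = x.coeff ((q : ℤ) * n) := by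
  have hb : BddBelow (Function.support fun n : ℤ => x.coeff ((q : ℤ) * n)) := by
    refine ⟨min x.order 0, fun n hn => ?_⟩
    have h1 : x.order ≤ (q : ℤ) * n := HahnSeries.order_le_of_coeff_ne_zero hn
    rcases le_or_gt 0 n with h | h
    · exact (min_le_right _ _).trans h
    · exact (min_le_left _ _).trans (h1.trans (by
        nlinarith [show (1 : ℤ) ≤ q by exact_mod_cast hq.out.one_le]))
  refine ⟨HahnSeries.ofSuppBddBelow _ hb, HahnSeries.ext (funext fun n => ?_), fun n => rfl⟩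
  by_cases hn : (q : ℤ) ∣ n
  · obtain ⟨k, rfl⟩ := hn
    rw [qExpand_coeff_mul]
    rfl
  · rw [qExpand_coeff_of_not_dvd q _ hn, hx n hn]

variable [CharP (Res A) q]

/-- The product of the twists of an integral series. -/
theorem exists_twistProd_intS (hζ : IsPrimitiveRoot ζ q) (a : intS A) :
    ∃ a' : intS A, qExpand QBar q (a' : LSer) = twistProd q ζ a ∧
      red A a' = coeffMap (frobenius (Res A) q) (red A a) := by
  have hu : ∀ i : ℕ, (ζ ^ i) ^ q = 1 := fun i => by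
    rw [← pow_mul, mul_comm, pow_mul, hζ.pow_eq_one, one_pow]
  choose h hr using fun i : ℕ => twist_mem_intS (ζ ^ i) (hu i) a
  set P : intS A := ∏ i ∈ Finset.range q, ⟨_, h i⟩ with hP
  have hPc : (P : LSer) = twistProd q ζ a := by
    rw [hP, SubmonoidClass.coe_finsetProd, twistProd_apply]
  obtain ⟨y, hy, hyc⟩ := exists_preimage_qExpand (q := q) (x := twistProd q ζ (a : LSer))
    fun n hn => coeff_twistProd_eq_zero hζ _ hn
  have hymem : y ∈ intS A := by
    obtain ⟨⟨L, hL, hLc⟩, hA'⟩ := mem_intS.mp P.2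
    refine mem_intS.mpr ⟨⟨L, hL, fun n => ?_⟩, fun n => ?_⟩ <;> rw [hyc, ← hPc]
    · exact hLc _
    · exact hA' _
  refine ⟨⟨y, hymem⟩, hy, qExpand_injective q ?_⟩
  have e : red A ⟨_, qExpand_mem_intS q hymem⟩ = red A P :=
    congrArg _ (Subtype.ext (hy.trans hPc.symm))
  rw [← red_qExpand q ⟨y, hymem⟩, e, hP, map_prod, Finset.prod_congr rfl fun i _ => hr i,
    Finset.prod_const, Finset.card_range, ← pow_char_eq_qExpand q]

/-- The product of the twists of a local series. -/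
theorem exists_twistProd_locS (hζ : IsPrimitiveRoot ζ q) (x : locS A) :
    ∃ u : locS A, qExpand QBar q (u : LSer) = twistProd q ζ x ∧
      redL A u = coeffMap (frobenius (Res A) q) (redL A x) := by
  obtain ⟨a, b, hb, hab⟩ := id x.2
  obtain ⟨a', ha', hra⟩ := exists_twistProd_intS hζ a
  obtain ⟨b', hb', hrb⟩ := exists_twistProd_intS hζ b
  have hb'0 : red A b' ≠ 0 := by rw [hrb]; exact (map_ne_zero _).mpr hb
  have hb'L : (b' : LSer) ≠ 0 := ne_zero_of_red_ne_zero hb'0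
  have hu : (a' : LSer) / b' ∈ locS A := ⟨a', b', hb'0, div_mul_cancel₀ _ hb'L⟩
  have hq0 : qExpand QBar q (b' : LSer) ≠ 0 := (map_ne_zero _).mpr hb'L
  refine ⟨⟨_, hu⟩, ?_, ?_⟩
  · rw [map_div₀, ha', div_eq_iff hq0, hb', ← map_mul, hab]
  · rw [redL_eq ⟨_, hu⟩ hb'0 (div_mul_cancel₀ _ hb'L), redL_eq x hb hab, hra, hrb, map_div₀]

omit [CharP (Res A) q] in
/-- Smallness descends along `qExpand`. -/
theorem IsSmall.of_qExpand (hA : A.LiesOverPrime q) {γ : QBar} {x : LSer} (hx : x ∈ fracS A)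
    (h : IsSmall A γ (qExpand QBar q x)) : IsSmall A γ x := by
  obtain ⟨z, hz, he⟩ := h
  rcases eq_or_ne x 0 with rfl | hx0
  · exact isSmall_zero γ
  have hγ : γ ≠ 0 := by
    rintro rfl
    rw [map_zero, zero_mul, map_eq_zero] at he
    exact hx0 he
  set y := algebraMap QBar LSer γ⁻¹ * x with hy
  have hyz : qExpand QBar q y = z := by
    rw [hy, map_mul, qExpand_const, he, ← mul_assoc, ← map_mul, inv_mul_cancel₀ hγ, map_one,
      one_mul]
  have hy0 : y ≠ 0 := mul_ne_zero ((map_ne_zero _).mpr (inv_ne_zero hγ)) hx0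
  obtain ⟨c, hc, hcy, hcr⟩ :=
    exists_scale hA hq.out (mul_mem (algebraMap_mem_fracS γ⁻¹) hx) hy0
  have hcA : c⁻¹ ∈ A := by
    by_contra hn
    have hcn : c ∈ A.nonunits := by
      rw [ValuationSubring.mem_nonunits_iff]
      have := mt (A.valuation_le_one_iff _).mp hn
      rw [not_le, map_inv₀] at this
      exact (one_lt_inv₀ (zero_lt_iff.mpr ((Valuation.ne_zero_iff _).mpr hc))).mp this
    obtain ⟨h1, h2⟩ := redL_const_mul (Arith.mem_of_mem_nonunits hcn) hz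
    refine hcr ((map_eq_zero (qExpand (Res A) q)).mp ?_)
    rw [← redL_qExpand q hcy, redL_congr _ h1 (by rw [map_mul, qExpand_const, hyz]), h2,
      (residue_eq_zero_iff _).mpr hcn, map_zero, zero_mul]
  refine ⟨y, ?_, by rw [hy, ← mul_assoc, ← map_mul, mul_inv_cancel₀ hγ, map_one, one_mul]⟩
  have := mul_mem (algebraMap_mem_locS hcA) hcy
  rwa [← mul_assoc, ← map_mul, inv_mul_cancel₀ hc, map_one, one_mul] at this

omit [CharP (Res A) q] in
theorem sum_twist_mem (hζ : IsPrimitiveRoot ζ q) {c : LSer} (hc : c ∈ intS A) :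
    IsSmall A (q : QBar) (∑ i ∈ Finset.range q, ModFun.twist (ζ ^ i) c) := by
  classical
  have hb : BddBelow (Function.support fun n : ℤ => if (q : ℤ) ∣ n then c.coeff n else 0) :=
    ⟨c.order, fun n hn => HahnSeries.order_le_of_coeff_ne_zero (by
      intro h0
      exact hn (by simp [h0]))⟩
  refine ⟨HahnSeries.ofSuppBddBelow _ hb, intS_le_locS ?_, HahnSeries.ext (funext fun n => ?_)⟩
  · obtain ⟨⟨L, hL, hLc⟩, hA'⟩ := mem_intS.mp hc
    refine mem_intS.mpr ⟨⟨L, hL, fun n => ?_⟩, fun n => ?_⟩ <;>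
      simp only [HahnSeries.coeff_ofSuppBddBelow] <;> split_ifs
    · exact hLc n
    · exact zero_mem L
    · exact hA' n
    · exact zero_mem A
  · rw [HahnSeries.coeff_sum, algebraMap_laurentSeries_eq_single,
      HahnSeries.coeff_single_zero_mul, HahnSeries.coeff_ofSuppBddBelow]
    simp only [ModFun.coeff_twist]
    rw [← Finset.sum_mul]
    have hz : ∀ i : ℕ, (((ζ ^ i) ^ n : QBarˣ) : QBar) = (((ζ ^ n : QBarˣ) : QBar)) ^ i := fun i => by
      rw [← Units.val_pow_eq_pow_val, ← zpow_natCast ζ i, ← zpow_mul, mul_comm, zpow_mul,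
        zpow_natCast]
    simp only [hz]
    split_ifs with hn
    · rw [(hζ.zpow_eq_one_iff_dvd n).mpr hn]
      simp
    · have h1 : ((ζ ^ n : QBarˣ) : QBar) ≠ 1 := fun h =>
        hn ((hζ.zpow_eq_one_iff_dvd n).mp (Units.ext h))
      have h2 : (ζ ^ n) ^ q = 1 := by
        rw [← zpow_natCast, ← zpow_mul, mul_comm n, zpow_mul, zpow_natCast, hζ.pow_eq_one, one_zpow]
      rw [geom_sum_eq h1, ← Units.val_pow_eq_pow_val, h2]
      simp

/-- The twists of a local series add up to a multiple of `q`. -/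
theorem sum_twist_locS (hζ : IsPrimitiveRoot ζ q) (e : locS A) :
    IsSmall A (q : QBar) (∑ i ∈ Finset.range q, ModFun.twist (ζ ^ i) (e : LSer)) := by
  obtain ⟨a, b, hb, hab⟩ := id e.2
  have hu : ∀ i : ℕ, (ζ ^ i) ^ q = 1 := fun i => by
    rw [← pow_mul, mul_comm, pow_mul, hζ.pow_eq_one, one_pow]
  choose h hr using fun i : ℕ => twist_mem_intS (ζ ^ i) (hu i) b
  obtain ⟨r, hrq⟩ : ∃ r, q = r + 1 := ⟨q - 1, by have := hq.out.pos; omega⟩
  set B : intS A := ∏ i ∈ Finset.range r, ⟨_, h (i + 1)⟩ with hB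
  set P : intS A := B * b with hP
  have hPc : (P : LSer) = twistProd q ζ b := by
    rw [hP, Subring.coe_mul, hB, SubmonoidClass.coe_finsetProd, twistProd_apply, hrq,
      Finset.prod_range_succ', pow_zero, ModFun.twist_one_apply]
  have hPr : red A P ≠ 0 := by
    rw [hP, hB, map_mul, map_prod, Finset.prod_congr rfl fun i _ => hr (i + 1)]
    exact mul_ne_zero (Finset.prod_ne_zero_iff.mpr fun _ _ => hb) hb
  have hPL : (P : LSer) ≠ 0 := ne_zero_of_red_ne_zero hPr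
  obtain ⟨hPi, -⟩ := inv_mem_locS (intS_le_locS P.2) (by rwa [redL_of_mem_intS])
  have he : (e : LSer) = ((a * B : intS A) : LSer) * (P : LSer)⁻¹ := by
    rw [eq_mul_inv_iff_mul_eq₀ hPL, hP, Subring.coe_mul, Subring.coe_mul, ← hab]
    ring
  have hfix : ∀ i : ℕ, ModFun.twist (ζ ^ i) (P : LSer) = P := fun i => by
    ext n
    rw [ModFun.coeff_twist]
    by_cases hn : (q : ℤ) ∣ n
    · obtain ⟨k, rfl⟩ := hn
      rw [zpow_mul, zpow_natCast, hu, one_zpow, Units.val_one, one_mul]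
    · rw [hPc, coeff_twistProd_eq_zero hζ _ hn, mul_zero]
  simp only [he, map_mul, map_inv₀, hfix, ← Finset.sum_mul]
  exact (sum_twist_mem hζ (a * B).2).mul_mem_locS hPi

/-- A product of `1 + γ e i` to first order. -/
theorem prod_one_add {R : Type*} [CommRing R] {κ : Type*} (s : Finset κ) (γ : R) (e : κ → R) :
    ∃ r, ∏ i ∈ s, (1 + γ * e i) = 1 + γ * ∑ i ∈ s, e i + γ ^ 2 * r := by
  classical
  induction s using Finset.induction with
  | empty => exact ⟨0, by simp⟩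
  | insert j t hj ih =>
    obtain ⟨r, hr⟩ := ih
    refine ⟨r + e j * ∑ i ∈ t, e i + γ * e j * r, ?_⟩
    rw [Finset.prod_insert hj, Finset.sum_insert hj, hr]
    ring

theorem isSmall_twistProd_one_add (hζ : IsPrimitiveRoot ζ q) {γ δ : QBar} (hγ : γ ∈ A)
    (hδ1 : A.valuation ((q : QBar) * γ) ≤ A.valuation δ) (hδ2 : A.valuation (γ ^ 2) ≤ A.valuation δ)
    (e : locS A) :
    IsSmall A δ (twistProd q ζ (1 + algebraMap QBar LSer γ * (e : LSer)) - 1) := by
  have hu : ∀ i : ℕ, (ζ ^ i) ^ q = 1 := fun i => by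
    rw [← pow_mul, mul_comm, pow_mul, hζ.pow_eq_one, one_pow]
  choose h _ using fun i : ℕ => twist_mem_locS (ζ ^ i) (hu i) e.2
  obtain ⟨r, hr⟩ := prod_one_add (Finset.range q) (⟨_, algebraMap_mem_locS hγ⟩ : locS A)
    fun i => ⟨_, h i⟩
  have hr' := congrArg Subtype.val hr
  push_cast at hr'
  have hconst : ∀ i : ℕ, ModFun.twist (ζ ^ i) (algebraMap QBar LSer γ) = algebraMap QBar LSer γ :=
    fun i => twist_const _ _
  rw [twistProd_apply]
  simp only [map_add, map_one, map_mul, hconst]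
  rw [hr']
  rw [show (1 : LSer) + algebraMap QBar LSer γ * ∑ i ∈ Finset.range q, ModFun.twist (ζ ^ i) (e : LSer)
      + algebraMap QBar LSer γ ^ 2 * (r : LSer) - 1 = algebraMap QBar LSer γ *
      ∑ i ∈ Finset.range q, ModFun.twist (ζ ^ i) (e : LSer) +
      algebraMap QBar LSer γ ^ 2 * (r : LSer) by ring, ← map_pow]
  exact (((sum_twist_locS hζ e).const_mul γ).mono (by rwa [mul_comm])).add
    ((show IsSmall A (γ ^ 2) _ from isSmall_mul_left r.2).mono hδ2)

theorem eq_one_of_pow_char {r : LaurentSeries (Res A)} (h : r ^ q = 1) : r = 1 := by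
  rw [pow_char_eq_qExpand q r, ← map_one (qExpand (Res A) q)] at h
  have h2 := qExpand_injective q h
  rw [← map_one (coeffMap (frobenius (Res A) q))] at h2
  exact coeffMap_injective _ h2

/-- One step of the iteration. -/
theorem exists_step (hA : A.LiesOverPrime q) (hζ : IsPrimitiveRoot ζ q) {γ δ : QBar}
    (hγ : γ ∈ A.nonunits) (hδ : δ ∈ A.nonunits) (hδ1 : A.valuation ((q : QBar) * γ) ≤ A.valuation δ)
    (hδ2 : A.valuation (γ ^ 2) ≤ A.valuation δ) {N F₀ F₁ y G₁ : LSer}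
    (hN : qExpand QBar q N = qExpand QBar q F₀ * twistProd q ζ F₁) (hyN : y ^ q = N)
    (hy : y ∈ locS A) (hy1 : redL A ⟨y, hy⟩ = 1) (hF₀ : F₀ ∈ locS A)
    (hG : G₁ ∈ locS A) (hG1 : redL A ⟨G₁, hG⟩ = 1) (hsm : IsSmall A γ (F₁ - G₁ ^ q)) :
    ∃ G₀, ∃ hG₀ : G₀ ∈ locS A, redL A ⟨G₀, hG₀⟩ = 1 ∧ IsSmall A δ (F₀ - G₀ ^ q) := by
  obtain ⟨z, hz, hze⟩ := hsm
  obtain ⟨u, hu, hur⟩ := exists_twistProd_locS hζ ⟨G₁, hG⟩
  rw [hG1, map_one] at hur
  obtain ⟨hGi, hGir⟩ := inv_mem_locS (pow_mem hG q) (by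
    rw [show (⟨G₁ ^ q, pow_mem hG q⟩ : locS A) = ⟨G₁, hG⟩ ^ q from rfl, map_pow, hG1, one_pow]
    exact one_ne_zero)
  obtain ⟨hui, huir⟩ := inv_mem_locS u.2 (by rw [show (⟨(u : LSer), u.2⟩ : locS A) = u from rfl, hur];
                                             exact one_ne_zero)
  have hG₀ : y * (u : LSer)⁻¹ ∈ locS A := mul_mem hy hui
  refine ⟨_, hG₀, ?_, ?_⟩
  · rw [show (⟨_, hG₀⟩ : locS A) = ⟨y, hy⟩ * ⟨_, hui⟩ from rfl, map_mul, hy1, huir,
      show (⟨(u : LSer), u.2⟩ : locS A) = u from rfl, hur, inv_one, mul_one]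
  set e : locS A := ⟨z, hz⟩ * ⟨_, hGi⟩ with he
  have hG0 : G₁ ≠ 0 := fun h0 => by
    rw [show (⟨G₁, hG⟩ : locS A) = 0 from Subtype.ext h0, map_zero] at hG1
    exact zero_ne_one hG1
  have hF₁ : F₁ = G₁ ^ q * (1 + algebraMap QBar LSer γ * (e : LSer)) := by
    rw [he, Subring.coe_mul, mul_add, mul_one, ← sub_eq_iff_eq_add', hze]
    field_simp
  set T := twistProd q ζ (1 + algebraMap QBar LSer γ * (e : LSer))
  have hT := isSmall_twistProd_one_add hζ (Arith.mem_of_mem_nonunits hγ) hδ1 hδ2 e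
  have hP : twistProd q ζ F₁ = qExpand QBar q (u : LSer) ^ q * T := by
    rw [hF₁, map_mul, map_pow, hu]
  have hu0 : (u : LSer) ≠ 0 := fun h0 => by
    rw [show u = 0 from Subtype.ext h0, map_zero] at hur
    exact zero_ne_one hur
  refine IsSmall.of_qExpand hA
    (sub_mem (locS_le_fracS hF₀) (pow_mem (locS_le_fracS hG₀) q)) ?_
  have hdiff : qExpand QBar q (F₀ - (y * (u : LSer)⁻¹) ^ q) =
      qExpand QBar q F₀ * -(T - 1) := by
    rw [mul_pow, inv_pow, map_sub, map_mul, hyN, hN, hP, map_inv₀, map_pow]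
    have := (map_ne_zero (qExpand QBar q)).mpr hu0
    field_simp
    ring
  rw [hdiff]
  exact hT.neg.mem_locS_mul (qExpand_mem_locS q hF₀)

variable {M : ℕ} [NeZero M] {hqM : ¬ q ∣ M}

omit [CharP (Res A) q] in
theorem qExpand_normUp_twistProd (hζ : IsPrimitiveRoot ζ q) (x : FB (q * M)) :
    qExpand QBar q (normUp q M x : LSer) =
      qExpand QBar q (x : LSer) * twistProd q ζ (wEquiv q M hqM x : LSer) := by
  rw [qExpand_normUp q M hqM hζ, twistProd_apply, Finset.prod_range]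

/-- **Approximate roots.** -/
theorem exists_approxRoot (hA : A.LiesOverPrime q) {f : FB (q * M)}
    (hf : HasUnitRed A M q hqM f) (hN : IsNormPow q M hqM q f) {γ : QBar} (hγ : γ ≠ 0) :
    ∃ G : Fin 2 → LSer, ∀ s, ∃ hG : G s ∈ locS A, redL A ⟨G s, hG⟩ = 1 ∧
      IsSmall A γ (iota2 M q hqM s f - G s ^ q) := by
  obtain ⟨ζ₀, hζ₀⟩ := HasEnoughRootsOfUnity.exists_primitiveRoot QBar q
  set ζ : QBarˣ := (hζ₀.isUnit hq.out.ne_zero).unit with hζdef
  have hζ : IsPrimitiveRoot ζ q := IsPrimitiveRoot.coe_units_iff.mp (by simpa [hζdef] using hζ₀)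
  obtain ⟨hfl, hfr⟩ := hf
  obtain ⟨⟨g, -, hg⟩, g', -, hg'⟩ := hN
  set F₀ : LSer := (f : LSer) with hF₀def
  set F₁ : LSer := (wEquiv q M hqM f : LSer) with hF₁def
  obtain ⟨h₀, h₁⟩ := (mem_loc2_iff M q hqM).mp hfl
  have r₀ : redL A ⟨F₀, h₀⟩ = 1 := by
    have := congrFun hfr 0
    rw [red2_apply, Pi.one_apply] at this
    rwa [← redL_congr h₀ _ (iota2_zero M q hqM f).symm] at this
  have r₁ : redL A ⟨F₁, h₁⟩ = 1 := by
    have := congrFun hfr 1
    rw [red2_apply, Pi.one_apply] at this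
    rwa [← redL_congr h₁ _ (iota2_one M q hqM f).symm] at this
  have hw : (wEquiv q M hqM (wEquiv q M hqM f) : LSer) = F₀ := by rw [wEquiv_wEquiv]
  have e₀ : qExpand QBar q (normUp q M f : LSer) = qExpand QBar q F₀ * twistProd q ζ F₁ :=
    qExpand_normUp_twistProd hζ f
  have e₁ : qExpand QBar q (normUp q M (wEquiv q M hqM f) : LSer) =
      qExpand QBar q F₁ * twistProd q ζ F₀ := by
    rw [qExpand_normUp_twistProd (hqM := hqM) hζ, hw]
  -- the roots of the norms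
  have root : ∀ {N : FB M} {g : FB M} {X Y : LSer} (hX : X ∈ locS A) (hY : Y ∈ locS A),
      redL A ⟨X, hX⟩ = 1 → redL A ⟨Y, hY⟩ = 1 → N = g ^ q →
      qExpand QBar q (N : LSer) = qExpand QBar q X * twistProd q ζ Y →
      ∃ h : (g : LSer) ∈ locS A, redL A ⟨_, h⟩ = 1 := by
    intro N g X Y hX hY rX rY hNg hNe
    obtain ⟨u, hu, hur⟩ := exists_twistProd_locS hζ ⟨Y, hY⟩
    rw [rY, map_one] at hur
    have hNX : (N : LSer) = X * u := qExpand_injective q (by rw [hNe, map_mul, hu])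
    have hgq : (g : LSer) ^ q = X * u := by rw [← hNX, hNg]; rfl
    have hmem : (g : LSer) ^ q ∈ locS A := hgq ▸ mul_mem hX u.2
    have hred : redL A ⟨_, hmem⟩ = 1 := by
      rw [redL_congr hmem (mul_mem hX u.2) hgq,
        show (⟨X * (u : LSer), mul_mem hX u.2⟩ : locS A) = ⟨X, hX⟩ * u from rfl, map_mul, rX, hur,
        mul_one]
    have hgl := mem_locS_of_pow hA hq.out (mem_fracS_of_mem g) hq.out.ne_zero hmem
      (by rw [hred]; exact one_ne_zero)
    refine ⟨hgl, eq_one_of_pow_char ?_⟩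
    rw [← map_pow, ← hred]
    rfl
  obtain ⟨hy, hy1⟩ := root h₀ h₁ r₀ r₁ hg e₀
  obtain ⟨hy', hy1'⟩ := root h₁ h₀ r₁ r₀ hg' e₁
  have ey : (g : LSer) ^ q = (normUp q M f : LSer) := by rw [hg]; rfl
  have ey' : (g' : LSer) ^ q = (normUp q M (wEquiv q M hqM f) : LSer) := by rw [hg']; rfl
  -- the first approximation
  have h10 : (1 : LSer) ∈ locS A := one_mem _
  obtain ⟨γ₀, hγ₀, hs₀⟩ := exists_isSmall_of_redL_eq_zero hA (sub_mem h₀ h10) (by
    rw [show (⟨F₀ - 1, sub_mem h₀ h10⟩ : locS A) = ⟨F₀, h₀⟩ - 1 from rfl, map_sub, r₀, map_one,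
      sub_self])
  obtain ⟨γ₁, hγ₁, hs₁⟩ := exists_isSmall_of_redL_eq_zero hA (sub_mem h₁ h10) (by
    rw [show (⟨F₁ - 1, sub_mem h₁ h10⟩ : locS A) = ⟨F₁, h₁⟩ - 1 from rfl, map_sub, r₁, map_one,
      sub_self])
  obtain ⟨π, hπ, hπ₀, hπ₁, hπq⟩ : ∃ π ∈ A.nonunits, A.valuation γ₀ ≤ A.valuation π ∧
      A.valuation γ₁ ≤ A.valuation π ∧ A.valuation (q : QBar) ≤ A.valuation π := by
    obtain ⟨π, hπ, hmax⟩ := ({γ₀, γ₁, (q : QBar)} : Finset QBar).exists_max_image
      (fun z => A.valuation z) ⟨γ₀, by simp⟩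
    refine ⟨π, ?_, hmax _ (by simp), hmax _ (by simp), hmax _ (by simp)⟩
    simp only [Finset.mem_insert, Finset.mem_singleton] at hπ
    rcases hπ with rfl | rfl | rfl
    exacts [hγ₀, hγ₁, hA]
  have hπA := (ValuationSubring.mem_nonunits_iff A).mp hπ
  have key : ∀ k : ℕ, ∃ G : Fin 2 → LSer,
      (∃ h : G 0 ∈ locS A, redL A ⟨_, h⟩ = 1 ∧ IsSmall A (π ^ (k + 1)) (F₀ - G 0 ^ q)) ∧
      ∃ h : G 1 ∈ locS A, redL A ⟨_, h⟩ = 1 ∧ IsSmall A (π ^ (k + 1)) (F₁ - G 1 ^ q) := by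
    intro k
    induction k with
    | zero =>
      refine ⟨fun _ => 1, ⟨h10, map_one _, ?_⟩, h10, map_one _, ?_⟩
      · rw [one_pow, pow_one]; exact hs₀.mono hπ₀
      · rw [one_pow, pow_one]; exact hs₁.mono hπ₁
    | succ k ih =>
      obtain ⟨G, ⟨a₀, b₀, c₀⟩, a₁, b₁, c₁⟩ := ih
      have hpn : ∀ j : ℕ, π ^ (j + 1) ∈ A.nonunits := fun j => by
        rw [ValuationSubring.mem_nonunits_iff, map_pow]
        exact pow_lt_one₀ zero_le hπA (Nat.succ_ne_zero j)
      have d1 : A.valuation ((q : QBar) * π ^ (k + 1)) ≤ A.valuation (π ^ (k + 1 + 1)) := by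
        rw [pow_succ' π (k + 1), map_mul, map_mul]
        exact mul_le_mul_left hπq _
      have d2 : A.valuation ((π ^ (k + 1)) ^ 2) ≤ A.valuation (π ^ (k + 1 + 1)) := by
        rw [← pow_mul, map_pow, map_pow]
        exact pow_le_pow_right_of_le_one' hπA.le (by omega)
      obtain ⟨G₀, m₀, n₀, o₀⟩ :=
        exists_step hA hζ (hpn k) (hpn (k + 1)) d1 d2 e₀ ey hy hy1 h₀ a₁ b₁ c₁
      obtain ⟨G₁, m₁, n₁, o₁⟩ :=
        exists_step hA hζ (hpn k) (hpn (k + 1)) d1 d2 e₁ ey' hy' hy1' h₁ a₀ b₀ c₀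
      exact ⟨![G₀, G₁], ⟨m₀, n₀, o₀⟩, m₁, n₁, o₁⟩
  obtain ⟨k, hk⟩ := exists_pow_valuation_lt hA hq.out hπ hγ
  obtain ⟨G, ⟨a₀, b₀, c₀⟩, a₁, b₁, c₁⟩ := key k
  have hle : A.valuation (π ^ (k + 1)) ≤ A.valuation γ := by
    refine le_trans ?_ hk.le
    rw [map_pow, map_pow]
    exact pow_le_pow_right_of_le_one' hπA.le (Nat.le_succ k)
  refine ⟨G, fun s => ?_⟩
  fin_cases s
  · exact ⟨a₀, b₀, c₀.mono hle⟩
  · exact ⟨a₁, b₁, c₁.mono hle⟩

end Fermat.Agent.OrdinaryAtP

end
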