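import Fermat.Agent.OrdinaryAtP.Statement
import Fermat.Agent.OrdinaryAtP.Collapse
import Fermat.Agent.OrdinaryAtP.Fixed
import Fermat.Agent.Mazur.Eisenstein.Inputs
import Fermat.Agent.Mazur.Eisenstein.Connected
import Fermat.Agent.EichlerShimura.Specialization

/-!
# No trivial quotient of the moved torsion at a good level

If `p` does not divide the level, the moved classes reduce to zero at `p`, so the functions of a
Galois order restricted to a stable group of them are congruent to their value at the origin.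
-/

set_option autoImplicit false
set_option linter.unusedSectionVars false

noncomputable section

namespace Fermat.Agent.OrdinaryAtP

open ModularCurve
open Arith (QBar GQ)
open Mazur.Eisenstein (OrderProperty)
open FiniteFlat (GalOrder Zl)

section Restriction

variable {A : ValuationSubring QBar} {p : ℕ} {X : Type} [AddCommGroup X] [DistribMulAction GQ X]
  (O : GalOrder p X) (G : AddSubgroup X)

/-- Restriction of functions to a subgroup. -/
def restrictFun : (X → QBar) →+* (G → QBar) where
  toFun f g := f g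
  map_one' := rfl
  map_mul' _ _ := rfl
  map_zero' := rfl
  map_add' _ _ := rfl

variable (A) in
/-- The span of the restricted order over the fixed ring. -/
def resSpan : Submodule (fixRing A) (G → QBar) :=
  Submodule.span (fixRing A) (restrictFun G '' (O.H : Set (X → QBar)))

variable (A) in
/-- The same span as an algebra. -/
def resAlg : Subalgebra (fixRing A) (G → QBar) :=
  (resSpan A O G).toSubalgebra
    (Submodule.subset_span ⟨1, one_mem _, map_one _⟩)
    (fun x y hx hy => by
      have h := Submodule.mul_mem_mul hx hy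
      rw [resSpan, Submodule.span_mul_span] at h
      refine Submodule.span_mono ?_ h
      rintro _ ⟨_, ⟨a, ha, rfl⟩, _, ⟨b, hb, rfl⟩, rfl⟩
      exact ⟨a * b, mul_mem ha hb, map_mul _ _ _⟩)

theorem mem_resAlg {f : G → QBar} : f ∈ resAlg A O G ↔ f ∈ resSpan A O G := Iff.rfl

theorem mem_of_fixed_zl (hA : A.LiesOverPrime p) (hp : p.Prime) (c : Zl p) :
    ((c : ℚ) : QBar) ∈ fixRing A :=
  (mem_fixRing (A := A)).mpr
    ⟨Mazur.Eisenstein.zl_mem hA hp c, fun τ _ => map_ratCast τ _⟩

theorem finite_resSpan (hA : A.LiesOverPrime p) (hp : p.Prime) :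
    (resSpan A O G).FG := by
  classical
  obtain ⟨s, hs⟩ := O.finite
  refine ⟨s.image fun f : O.H => restrictFun G (f : X → QBar), le_antisymm ?_ ?_⟩
  · rw [Finset.coe_image, resSpan]
    refine Submodule.span_mono ?_
    rintro _ ⟨f, -, rfl⟩
    exact ⟨f, f.2, rfl⟩
  · rw [resSpan, Submodule.span_le, Finset.coe_image]
    rintro _ ⟨f, hf, rfl⟩
    have hmem : (⟨f, hf⟩ : O.H) ∈ Submodule.span (Zl p) (s : Set O.H) := by
      rw [hs]; exact Submodule.mem_top
    suffices h : ∀ x ∈ Submodule.span (Zl p) (s : Set O.H), restrictFun G (x : X → QBar) ∈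
        Submodule.span (fixRing A) ((fun f : O.H => restrictFun G (f : X → QBar)) '' (s : Set O.H))
      from h _ hmem
    intro x hx
    induction hx using Submodule.span_induction with
    | mem x hx => exact Submodule.subset_span ⟨x, hx, rfl⟩
    | zero => rw [ZeroMemClass.coe_zero, map_zero]; exact zero_mem _
    | add x y _ _ h1 h2 => rw [AddMemClass.coe_add, map_add]; exact add_mem h1 h2
    | smul c x _ h1 =>
      have e : restrictFun G ((c • x : O.H) : X → QBar) =
          (⟨_, mem_of_fixed_zl hA hp c⟩ : fixRing A) • restrictFun G (x : X → QBar) := by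
        funext g
        exact FiniteFlat.zl_smul c _
      rw [e]
      exact Submodule.smul_mem _ _ h1

theorem value_mem (hA : A.LiesOverPrime p) (hp : p.Prime) {f : G → QBar}
    (hf : f ∈ resSpan A O G) (g : G) : f g ∈ A := by
  induction hf using Submodule.span_induction with
  | mem f hf =>
    obtain ⟨a, ha, rfl⟩ := hf
    have h1 : IsIntegral (Zl p) (⟨a, ha⟩ : O.H) := Algebra.IsIntegral.isIntegral _
    have h2 : IsIntegral (Zl p) (a (g : X)) :=
      h1.map ((Pi.evalAlgHom (Zl p) (fun _ : X => QBar) (g : X)).comp O.H.val)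
    exact Mazur.Eisenstein.mem_of_isIntegral_zl hA hp h2
  | zero => exact zero_mem _
  | add x y _ _ h1 h2 => exact add_mem h1 h2
  | smul c x _ h1 => exact mul_mem c.2.1 h1

variable (hstab : ∀ τ ∈ A.inertiaSubgroupIn ℚ, ∀ x ∈ G, τ • x ∈ G)

/-- Inertia acting on a stable subgroup. -/
def inertiaPerm (τ : A.inertiaSubgroupIn ℚ) : G ≃ G where
  toFun g := ⟨(τ : GQ) • (g : X), hstab τ τ.2 g g.2⟩
  invFun g := ⟨(τ⁻¹ : A.inertiaSubgroupIn ℚ) • (g : X),
    hstab (τ⁻¹ : A.inertiaSubgroupIn ℚ) (τ⁻¹).2 g g.2⟩
  left_inv g := Subtype.ext (by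
    show ((τ⁻¹ : A.inertiaSubgroupIn ℚ) : GQ) • (τ : GQ) • (g : X) = g
    rw [Subgroup.coe_inv, inv_smul_smul])
  right_inv g := Subtype.ext (by
    show (τ : GQ) • ((τ⁻¹ : A.inertiaSubgroupIn ℚ) : GQ) • (g : X) = g
    rw [Subgroup.coe_inv, smul_inv_smul])

/-- Restriction of an order to a stable group of congruent points. -/
def congruentRestrict (hA : A.LiesOverPrime p) (hp : p.Prime)
    (hcong : ∀ f ∈ O.H, ∀ x ∈ G, f x - f 0 ∈ A.nonunits) :
    CongruentAlgebra (fixRing A) (fun τ : A.inertiaSubgroupIn ℚ => (τ : GQ).toRingEquiv)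
      (inertiaPerm G hstab) p where
  H := resAlg A O G
  fin := Module.Finite.iff_fg.mpr (finite_resSpan O G hA hp)
  frac x hx := exists_mul_mem_fixRing hA hp fun τ hτ => hx ⟨τ, hτ⟩
  fixed w τ := fixed_apply w τ.2
  equivariant f hf τ m := by
    rw [mem_resAlg] at hf
    induction hf using Submodule.span_induction with
    | mem f hf =>
      obtain ⟨a, ha, rfl⟩ := hf
      exact O.equivariant a ha (τ : GQ) (m : X)
    | zero => exact (map_zero _).symm
    | add x y _ _ h1 h2 => rw [Pi.add_apply, Pi.add_apply, map_add, h1, h2]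
    | smul c x _ h1 =>
      show (c : QBar) * x _ = (τ : GQ) ((c : QBar) * x m)
      rw [map_mul, fixed_apply c τ.2, h1]
      rfl
  separates m m' hmm := Subtype.ext (O.separates _ _ fun a ha =>
    hmm (restrictFun G a) (Submodule.subset_span ⟨a, ha, rfl⟩))
  integral f hf m hm := (mem_fixRing (A := A)).mpr
    ⟨value_mem O G hA hp hf m, fun τ hτ => hm ⟨τ, hτ⟩⟩
  congr f hf m a b ha hb := by
    have key : f m - f 0 ∈ A.nonunits := by
      rw [mem_resAlg] at hf
      clear ha hb
      induction hf using Submodule.span_induction with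
      | mem f hf =>
        obtain ⟨u, hu, rfl⟩ := hf
        exact hcong u hu m m.2
      | zero => rw [Pi.zero_apply, Pi.zero_apply, sub_zero]; exact A.nonunits.zero_mem
      | add x y _ _ h1 h2 =>
        rw [Pi.add_apply, Pi.add_apply, add_sub_add_comm]
        exact Arith.nonunits_add h1 h2
      | smul c x _ h1 =>
        rw [show (c • x) m - (c • x) 0 = (c : QBar) * (x m - x 0) from (mul_sub _ _ _).symm]
        exact Arith.nonunits_mul_left c.2.1 h1
    refine natCast_dvd_of_resW_eq_zero hA hp (resW_eq_zero_iff.mpr ?_)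
    show ((a : QBar) - (b : QBar)) ∈ A.nonunits
    rw [← ha, ← hb]
    exact key
  comul f hf := by
    rw [mem_resAlg] at hf
    induction hf using Submodule.span_induction with
    | mem f hf =>
      obtain ⟨u, hu, rfl⟩ := hf
      obtain ⟨n, a, b, ha, hb, hab⟩ := O.comul u hu
      exact ⟨Fin n, inferInstance, fun i => restrictFun G (a i), fun i => restrictFun G (b i),
        fun i => Submodule.subset_span ⟨a i, ha i, rfl⟩,
        fun i => Submodule.subset_span ⟨b i, hb i, rfl⟩, fun x y => hab x y⟩
    | zero => exact ⟨Empty, inferInstance, Empty.elim, Empty.elim, fun k => k.elim,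
        fun k => k.elim, fun x y => by simp⟩
    | add x y _ _ h1 h2 =>
      obtain ⟨κ, _, a, b, ha, hb, hab⟩ := h1
      obtain ⟨κ', _, a', b', ha', hb', hab'⟩ := h2
      refine ⟨κ ⊕ κ', inferInstance, Sum.elim a a', Sum.elim b b', ?_, ?_, fun u v => ?_⟩
      · rintro (k | k)
        exacts [ha k, ha' k]
      · rintro (k | k)
        exacts [hb k, hb' k]
      · rw [Pi.add_apply, hab, hab', Fintype.sum_sum_type]
        rfl
    | smul c x _ h1 =>
      obtain ⟨κ, _, a, b, ha, hb, hab⟩ := h1
      refine ⟨κ, inferInstance, fun k => c • a k, b,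
        fun k => (resAlg A O G).smul_mem (ha k) c, hb, fun u v => ?_⟩
      show (c : QBar) * x (u + v) = _
      rw [hab, Finset.mul_sum]
      exact Finset.sum_congr rfl fun k _ => (mul_assoc _ _ _).symm

end Restriction

/-- Moved classes reduce to zero at a good place. -/
theorem reductionModL_movedGroup {A : ValuationSubring QBar} {M p : ℕ} [NeZero M]
    (hp : p.Prime) (hpM : ¬ p ∣ M) (hA : A.LiesOverPrime p) {y : JZero M}
    (hy : y ∈ movedGroup A M p) : reductionModL A M y = 0 := by
  have := Arith.residueField_isAlgClosed A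
  induction hy using AddSubgroup.closure_induction with
  | mem y hy =>
    obtain ⟨τ, hτ, x, n, -, rfl⟩ := hy
    rw [map_sub, EichlerShimura.reductionModL_inertia
      (EichlerShimura.natCast_ne_zero hp hpM hA) hτ, sub_self]
  | zero => exact map_zero _
  | add x y _ _ h1 h2 => rw [map_add, h1, h2, add_zero]
  | neg x _ h1 => rw [map_neg, h1, neg_zero]

/-- **No trivial quotient at a good level**, from the orders on the torsion. -/
theorem noTrivialQuotient_of_order {A : ValuationSubring QBar} {M p : ℕ} [NeZero M]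
    [Fact p.Prime] (hp3 : 3 ≤ p) (hord : OrderProperty M) (hpM : ¬ p ∣ M)
    (hA : A.LiesOverPrime p) : NoTrivialQuotient A M p := by
  have hp : p.Prime := Fact.out
  intro H hH hpH hstab π hπ
  obtain ⟨X, _, _, _, i, O, hinj, heq, hsurj, hcong⟩ := hord p hp hpM A hA 1
  have hGstab : ∀ τ ∈ A.inertiaSubgroupIn ℚ, ∀ x ∈ H.comap i, τ • x ∈ H.comap i :=
    fun τ hτ x hx => by
      rw [AddSubgroup.mem_comap, heq]
      exact hstab τ hτ _ hx
  have hC : ∀ f ∈ O.H, ∀ x ∈ H.comap i, f x - f 0 ∈ A.nonunits := fun f hf x hx =>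
    hcong f hf x (reductionModL_movedGroup hp hpM hA (hH hx))
  have := isPrincipalIdealRing_fixRing hA hp
  let j : H.comap i →+ H := (i.comp (H.comap i).subtype).codRestrict H fun x => x.2
  have h0 := (congruentRestrict O (H.comap i) hGstab hA hp hC).eq_zero_of_invariant hp3
    (natCast_fix_ne_zero hp) (not_isUnit_natCast hA) (π.comp j) fun τ m => by
      refine Eq.trans (congrArg π (Subtype.ext ?_)) (hπ τ τ.2 (j m))
      exact heq τ m
  refine AddMonoidHom.ext fun y => ?_
  obtain ⟨x, hx⟩ := hsurj (y : JZero M) (by rw [pow_one]; exact hpH y y.2)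
  have hxG : x ∈ H.comap i := by rw [AddSubgroup.mem_comap, hx]; exact y.2
  rw [show y = j ⟨x, hxG⟩ from Subtype.ext hx.symm]
  exact DFunLike.congr_fun h0 ⟨x, hxG⟩

end Fermat.Agent.OrdinaryAtP

end
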