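import Fermat.Agent.Semistable.Spaces

/-!
# Roots of inseparable degree of functions on the residual curve

A Laurent series whose `q`-th power lies in the residual function field lies in it: the field it
generates is separable over the line of `j`, since `j` is not a `q`-th power of a series.
-/

set_option autoImplicit false
set_option synthInstance.maxHeartbeats 400000
set_option maxHeartbeats 1000000

noncomputable section

namespace Fermat.Agent.OrdinaryAtP

open ModularCurve AlgebraicCurve Semistable IntermediateField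
open Arith (QBar)

/-- Over a perfect field of characteristic `p`, a function field inside a field in which its
parameter is not a `p`-th power contains the roots of order `p` of its elements. -/
theorem mem_of_pow_mem {K L : Type*} [Field K] [Field L] [Algebra K L] [PerfectField K] (p : ℕ)
    [Fact p.Prime] [CharP K p] (F : IntermediateField K L) (x : F) (hx : Transcendental K x)
    [FiniteDimensional K⟮x⟯ F] (hnp : ∀ y : L, y ^ p ≠ x) {z : L} (hz : z ^ p ∈ F) : z ∈ F := by
  have hint : IsIntegral F z :=
    IsIntegral.of_pow (Fact.out : p.Prime).pos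
      (isIntegral_algebraMap (R := F) (x := ⟨z ^ p, hz⟩))
  let E : IntermediateField F L := F⟮z⟯
  have : FiniteDimensional F E := adjoin.finiteDimensional hint
  let xE : E := algebraMap F E x
  have hxE : Transcendental K xE := fun h => hx
    ((isAlgebraic_algHom_iff (IsScalarTower.toAlgHom K F E) (algebraMap F E).injective).mp h)
  have : FiniteDimensional K⟮x⟯ E := Module.Finite.trans F E
  let φ : F →ₐ[K] E := IsScalarTower.toAlgHom K F E
  have hmap : (K⟮x⟯).map φ = K⟮xE⟯ := by
    rw [adjoin_map, Set.image_singleton]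
    rfl
  let e : K⟮x⟯ ≃ₐ[K] K⟮xE⟯ := ((K⟮x⟯).equivMap φ).trans (IntermediateField.equivOfEq hmap)
  have hcomp : (algebraMap K⟮xE⟯ E).comp e.toRingEquiv.toRingHom =
      (RingHom.id E).comp (algebraMap K⟮x⟯ E) := RingHom.ext fun _ => rfl
  have : FiniteDimensional K⟮xE⟯ E :=
    Module.Finite.of_equiv_equiv e.toRingEquiv (RingEquiv.refl E) hcomp
  have := FF.isFunctionField_of_finite hxE
  have : Algebra.IsSeparable K⟮xE⟯ E :=
    RedTorsion.isSeparable_of_not_pow p hxE fun y hy =>
      hnp y (by
        have := congrArg (fun w : E => (w : L)) hy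
        exact this)
  have : Algebra.IsSeparable K⟮x⟯ E :=
    Algebra.IsSeparable.of_equiv_equiv e.symm.toRingEquiv (RingEquiv.refl E)
      (RingHom.ext fun a => ((congrArg (algebraMap K⟮xE⟯ E) (e.apply_symm_apply a)).symm.trans
        (RingHom.congr_fun hcomp (e.symm a))).symm)
  have hsep' : IsSeparable F (⟨z, mem_adjoin_simple_self _ z⟩ : E) :=
    IsSeparable.tower_top (F := K⟮x⟯) (L := F) (Algebra.IsSeparable.isSeparable _ _)
  have hsep2 : IsSeparable F z := by
    have h1 := minpoly.algHom_eq E.val E.val.injective (⟨z, mem_adjoin_simple_self _ z⟩ : E)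
    unfold IsSeparable at hsep' ⊢
    rwa [← h1] at hsep'
  have : CharP F p := charP_of_injective_algebraMap (algebraMap K F).injective p
  have : ExpChar F p := ExpChar.prime (Fact.out : p.Prime)
  have hmem : F⟮z⟯ = F⟮z ^ p⟯ :=
    adjoin_simple_eq_adjoin_pow_expChar_of_isSeparable _ _ hsep2 p
  have hz' : z ∈ F⟮z ^ p⟯ := hmem ▸ mem_adjoin_simple_self _ z
  have hbot : F⟮z ^ p⟯ ≤ ⊥ :=
    adjoin_simple_le_iff.mpr (IntermediateField.mem_bot.mpr ⟨⟨z ^ p, hz⟩, rfl⟩)
  obtain ⟨w, rfl⟩ := IntermediateField.mem_bot.mp (hbot hz')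
  exact w.2

variable {A : ValuationSubring QBar} {M : ℕ} [NeZero M] {q : ℕ} [hq : Fact q.Prime]
  [CharP (Res A) q]

/-- A root of order `q` of an element of the residual function field lies in it. -/
theorem mem_KM_of_pow_mem (hM : (M : Res A) ≠ 0) {z : LaurentSeries (Res A)}
    (hz : z ^ q ∈ KM A M) : z ∈ KM A M := by
  have := Arith.residueField_isAlgClosed A
  have : FiniteDimensional (Res A)⟮jK A M⟯ (KM A M) :=
    RedTorsion.finiteDimensional_jF (F := KM A M) rfl hM
  refine mem_of_pow_mem q (KM A M) (jK A M) (jK_transcendental A M) (fun y hy => ?_) hz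
  have h1 := congrArg HahnSeries.order hy
  rw [coe_jK, HahnSeries.order_pow, Igusa.order_jqModC, nsmul_eq_mul] at h1
  have h3 : (q : ℤ) ∣ -1 := ⟨_, h1.symm⟩
  rw [dvd_neg] at h3
  exact hq.out.ne_one (by exact_mod_cast Int.eq_one_of_dvd_one (by positivity) h3)

/-- The same for roots of `q`-power order. -/
theorem mem_KM_of_pow_pow_mem (hM : (M : Res A) ≠ 0) :
    ∀ (k : ℕ) {z : LaurentSeries (Res A)}, z ^ q ^ k ∈ KM A M → z ∈ KM A M
  | 0, z, hz => by simpa using hz
  | k + 1, z, hz => mem_KM_of_pow_pow_mem hM k (mem_KM_of_pow_mem hM (by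
      rwa [← pow_mul, ← pow_succ]))

end Fermat.Agent.OrdinaryAtP

end
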