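import Fermat.Agent.OrdinaryAtP.Flat.Basics
import Fermat.Agent.Mazur.Eisenstein.CycInertia

/-!
# The threshold constant `ζ - 1` and its inertia character
-/

set_option autoImplicit false

noncomputable section

namespace Fermat.Agent.OrdinaryAtP

open ModularCurve Semistable
open Arith (QBar GQ)

variable {A : ValuationSubring QBar} {q : ℕ} [hq : Fact q.Prime]

theorem sub_one_mem_nonunits (hA : A.LiesOverPrime q) {ζ : QBar} (hζ : IsPrimitiveRoot ζ q) :
    ζ - 1 ∈ A.nonunits := by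
  have := Arith.residueField_charP hA hq.out
  have hζA : ζ ∈ A := Mazur.Eisenstein.primitive_mem hq.out.pos hζ
  refine (residue_eq_zero_iff (sub_mem hζA (one_mem A))).mp ?_
  have h1 : (IsLocalRing.residue A ⟨ζ, hζA⟩ : Res A) = 1 := by
    refine frobenius_inj (Res A) q ?_
    rw [frobenius_def, frobenius_def, one_pow, ← map_pow,
      show (⟨ζ, hζA⟩ : A) ^ q = 1 from Subtype.ext hζ.pow_eq_one, map_one]
  rw [show (⟨ζ - 1, sub_mem hζA (one_mem A)⟩ : A) = ⟨ζ, hζA⟩ - 1 from rfl, map_sub, h1, map_one,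
    sub_self]

/-- `|ζ - 1| ^ (q - 1) = |q|`. -/
theorem valuation_sub_one_pow {ζ : QBar} (hζ : IsPrimitiveRoot ζ q) :
    A.valuation ((ζ - 1) ^ (q - 1)) = A.valuation (q : QBar) := by
  classical
  have hk : 1 < q := hq.out.one_lt
  have hall : ∀ η ∈ primitiveRoots q QBar, A.valuation (1 - η) = A.valuation (1 - ζ) := by
    intro η hη
    have hη' := (mem_primitiveRoots hq.out.pos).mp hη
    obtain ⟨i, -, hi⟩ := hζ.eq_pow_of_pow_eq_one hη'.pow_eq_one
    obtain ⟨j, -, hj⟩ := hη'.eq_pow_of_pow_eq_one hζ.pow_eq_one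
    have h1 : 1 - η ≠ 0 := sub_ne_zero.mpr (Ne.symm (hη'.ne_one hk))
    have h2 : 1 - ζ ≠ 0 := sub_ne_zero.mpr (Ne.symm (hζ.ne_one hk))
    have e1 := (A.valuation_le_one_iff _).mpr
      (hi ▸ Mazur.Eisenstein.one_sub_pow_mem (Mazur.Eisenstein.primitive_mem hq.out.pos hζ) i
        (hζ.ne_one hk) : (1 - η) / (1 - ζ) ∈ A)
    have e2 := (A.valuation_le_one_iff _).mpr
      (hj ▸ Mazur.Eisenstein.one_sub_pow_mem (Mazur.Eisenstein.primitive_mem hq.out.pos hη') j
        (hη'.ne_one hk) : (1 - ζ) / (1 - η) ∈ A)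
    rw [map_div₀, div_le_one₀ (zero_lt_iff.mpr ((Valuation.ne_zero_iff _).mpr h2))] at e1
    rw [map_div₀, div_le_one₀ (zero_lt_iff.mpr ((Valuation.ne_zero_iff _).mpr h1))] at e2
    exact le_antisymm e1 e2
  have hprod : ∏ η ∈ primitiveRoots q QBar, (1 - η) = (q : QBar) := by
    have h := Polynomial.eval_one_cyclotomic_prime (R := QBar) (p := q)
    rw [Polynomial.cyclotomic_eq_prod_X_sub_primitiveRoots hζ, Polynomial.eval_prod] at h
    simpa using h
  rw [← hprod, map_prod, Finset.prod_congr rfl hall, Finset.prod_const, hζ.card_primitiveRoots,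
    Nat.totient_prime hq.out, map_pow, show ζ - 1 = -(1 - ζ) by ring, Valuation.map_neg]

/-- The character by which an element acts on the threshold constant. -/
theorem residue_apply_div (hA : A.LiesOverPrime q) {ζ : QBar} (hζ : IsPrimitiveRoot ζ q)
    {τ : GQ} {b : ℕ} (hb : τ ζ = ζ ^ b) :
    ∃ hu : τ (ζ - 1) / (ζ - 1) ∈ A, IsLocalRing.residue A ⟨_, hu⟩ = (b : Res A) := by
  have hζA : ζ ∈ A := Mazur.Eisenstein.primitive_mem hq.out.pos hζ
  have h1 : (IsLocalRing.residue A ⟨ζ, hζA⟩ : Res A) = 1 := by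
    rw [← sub_eq_zero, ← map_one (IsLocalRing.residue A), ← map_sub]
    exact (residue_eq_zero_iff (sub_mem hζA (one_mem A))).mpr (sub_one_mem_nonunits hA hζ)
  have e : τ (ζ - 1) / (ζ - 1) = ((∑ j ∈ Finset.range b, (⟨ζ, hζA⟩ : A) ^ j : A) : QBar) := by
    rw [map_sub, map_one, hb, div_eq_iff (sub_ne_zero.mpr (hζ.ne_one hq.out.one_lt))]
    push_cast
    exact (geom_sum_mul ζ b).symm
  refine ⟨e ▸ SetLike.coe_mem _, ?_⟩
  rw [show (⟨_, e ▸ SetLike.coe_mem _⟩ : A) = ∑ j ∈ Finset.range b, (⟨ζ, hζA⟩ : A) ^ j from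
    Subtype.ext e, map_sum]
  rw [Finset.sum_congr rfl fun j _ => show IsLocalRing.residue A ((⟨ζ, hζA⟩ : A) ^ j) = 1 by
    rw [map_pow, h1, one_pow]]
  rw [Finset.sum_const, Finset.card_range, nsmul_one]

/-- The threshold constant, and an inertia element acting on it by `-1`. -/
theorem exists_lam (hA : A.LiesOverPrime q) :
    ∃ lam : QBar, A.valuation (lam ^ (q - 1)) = A.valuation (q : QBar) ∧
      ∃ τ ∈ A.inertiaSubgroupIn ℚ,
        ∃ hu : τ lam / lam ∈ A, IsLocalRing.residue A ⟨_, hu⟩ = ((q - 1 : ℕ) : Res A) := by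
  obtain ⟨ζ, hζ⟩ := HasEnoughRootsOfUnity.exists_primitiveRoot QBar q
  obtain ⟨τ, hτ, hinv⟩ := Mazur.Eisenstein.exists_inertia_inv hA hq.out 1
  refine ⟨ζ - 1, valuation_sub_one_pow hζ, τ, hτ, residue_apply_div hA hζ ?_⟩
  rw [hinv ζ (by rw [pow_one]; exact hζ.pow_eq_one)]
  refine inv_eq_of_mul_eq_one_right ?_
  rw [← pow_succ', Nat.sub_add_cancel hq.out.pos, hζ.pow_eq_one]

end Fermat.Agent.OrdinaryAtP

end
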