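import Fermat.Agent.OrdinaryAtP.Basic
import Fermat.Agent.NewformLocal.Toric.NormRed

/-!
# The flat part of the new quotient of the torsion at level `q M`

A class is flat if it has a Kummer function with both reductions one, and flat new if moreover
the norms of this function and of its conjugate under `w` to level `M` are powers.
-/

set_option autoImplicit false

noncomputable section

namespace Fermat.Agent.OrdinaryAtP

open AlgebraicCurve ModularCurve Semistable JacTorsion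
open NewformLocal.Toric (normUp)
open Arith (QBar GQ)

variable (A : ValuationSubring QBar) (q M : ℕ) [hq : Fact q.Prime] [NeZero M] (hqM : ¬ q ∣ M)

/-- The class `[div f / m]` of a function with divisor divisible by `m`. -/
def kclass {m : ℕ} [NeZero m] (f : divGrp QBar (FB (q * M)) m) : Pic0 QBar (FB (q * M)) :=
  (toTorsion (Additive.ofMul f)).1

/-- The norms of `f` and of `w f` to level `M` are `m`-th powers. -/
def IsNormPow (m : ℕ) (f : FB (q * M)) : Prop :=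
  (∃ g : FB M, g ≠ 0 ∧ normUp q M f = g ^ m) ∧
    ∃ g : FB M, g ≠ 0 ∧ normUp q M (wEquiv q M hqM f) = g ^ m

variable {q M}

theorem kclass_one {m : ℕ} [NeZero m] :
    kclass q M (1 : divGrp QBar (FB (q * M)) m) = 0 := by
  rw [kclass, ofMul_one, map_zero]; rfl

theorem kclass_mul {m : ℕ} [NeZero m] (f g : divGrp QBar (FB (q * M)) m) :
    kclass q M (f * g) = kclass q M f + kclass q M g := by
  rw [kclass, ofMul_mul, map_add]; rfl

theorem kclass_inv {m : ℕ} [NeZero m] (f : divGrp QBar (FB (q * M)) m) :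
    kclass q M f⁻¹ = -kclass q M f := by
  rw [kclass, ofMul_inv, map_neg]; rfl

theorem smul_kclass_eq_zero {m : ℕ} [NeZero m] (f : divGrp QBar (FB (q * M)) m) :
    (m : ℤ) • kclass q M f = 0 :=
  Pic0.mem_torsion.mp (toTorsion (Additive.ofMul f)).2

theorem isNormPow_one (m : ℕ) : IsNormPow q M hqM m 1 :=
  ⟨⟨1, one_ne_zero, by rw [map_one, one_pow]⟩, ⟨1, one_ne_zero, by rw [map_one, map_one, one_pow]⟩⟩

theorem IsNormPow.mul {m : ℕ} {f g : FB (q * M)} (hf : IsNormPow q M hqM m f)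
    (hg : IsNormPow q M hqM m g) : IsNormPow q M hqM m (f * g) := by
  obtain ⟨⟨a, ha0, ha⟩, b, hb0, hb⟩ := hf
  obtain ⟨⟨c, hc0, hc⟩, d, hd0, hd⟩ := hg
  exact ⟨⟨a * c, mul_ne_zero ha0 hc0, by rw [map_mul, ha, hc, mul_pow]⟩,
    ⟨b * d, mul_ne_zero hb0 hd0, by rw [map_mul, map_mul, hb, hd, mul_pow]⟩⟩

theorem normUp_inv {f : FB (q * M)} (hf : f ≠ 0) : normUp q M f⁻¹ = (normUp q M f)⁻¹ := by
  refine eq_inv_of_mul_eq_one_left ?_
  rw [← map_mul, inv_mul_cancel₀ hf, map_one]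

theorem IsNormPow.inv {m : ℕ} {f : FB (q * M)} (hf0 : f ≠ 0) (hf : IsNormPow q M hqM m f) :
    IsNormPow q M hqM m f⁻¹ := by
  obtain ⟨⟨a, ha0, ha⟩, b, hb0, hb⟩ := hf
  refine ⟨⟨a⁻¹, inv_ne_zero ha0, by rw [normUp_inv hf0, ha, inv_pow]⟩,
    ⟨b⁻¹, inv_ne_zero hb0, ?_⟩⟩
  rw [map_inv₀, normUp_inv ((map_ne_zero _).mpr hf0), hb, inv_pow]

variable (q M)

/-- The flat new classes of order dividing `m`. -/
def flatNew (m : ℕ) [NeZero m] : AddSubgroup (Pic0 QBar (FB (q * M))) where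
  carrier := {x | ∃ f : divGrp QBar (FB (q * M)) m, kclass q M f = x ∧
    HasUnitRed A M q hqM ((f : (FB (q * M))ˣ) : FB (q * M)) ∧
    IsNormPow q M hqM m ((f : (FB (q * M))ˣ) : FB (q * M))}
  zero_mem' := ⟨1, kclass_one, hasUnitRed_one hqM, isNormPow_one hqM m⟩
  add_mem' := by
    rintro _ _ ⟨f, rfl, hf, hf'⟩ ⟨g, rfl, hg, hg'⟩
    exact ⟨f * g, kclass_mul f g, hf.mul hqM hg, hf'.mul hqM hg'⟩
  neg_mem' := by
    rintro _ ⟨f, rfl, hf, hf'⟩
    refine ⟨f⁻¹, kclass_inv f, ?_, ?_⟩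
    · rw [Subgroup.coe_inv, Units.val_inv_eq_inv_val]
      exact hf.inv hqM
    · rw [Subgroup.coe_inv, Units.val_inv_eq_inv_val]
      exact hf'.inv hqM (Units.ne_zero _)

theorem mem_flatNew {m : ℕ} [NeZero m] {x : Pic0 QBar (FB (q * M))} :
    x ∈ flatNew A q M hqM m ↔ ∃ f : divGrp QBar (FB (q * M)) m, kclass q M f = x ∧
      HasUnitRed A M q hqM ((f : (FB (q * M))ˣ) : FB (q * M)) ∧
      IsNormPow q M hqM m ((f : (FB (q * M))ˣ) : FB (q * M)) := Iff.rfl

/-- The flat classes of order dividing `m`. -/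
def flatCls (m : ℕ) [NeZero m] : AddSubgroup (Pic0 QBar (FB (q * M))) where
  carrier := {x | ∃ f : divGrp QBar (FB (q * M)) m, kclass q M f = x ∧
    HasUnitRed A M q hqM ((f : (FB (q * M))ˣ) : FB (q * M))}
  zero_mem' := ⟨1, kclass_one, hasUnitRed_one hqM⟩
  add_mem' := by
    rintro _ _ ⟨f, rfl, hf⟩ ⟨g, rfl, hg⟩
    exact ⟨f * g, kclass_mul f g, hf.mul hqM hg⟩
  neg_mem' := by
    rintro _ ⟨f, rfl, hf⟩
    refine ⟨f⁻¹, kclass_inv f, ?_⟩
    rw [Subgroup.coe_inv, Units.val_inv_eq_inv_val]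
    exact hf.inv hqM

theorem mem_flatCls {m : ℕ} [NeZero m] {x : Pic0 QBar (FB (q * M))} :
    x ∈ flatCls A q M hqM m ↔ ∃ f : divGrp QBar (FB (q * M)) m, kclass q M f = x ∧
      HasUnitRed A M q hqM ((f : (FB (q * M))ˣ) : FB (q * M)) := Iff.rfl

end Fermat.Agent.OrdinaryAtP

end
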