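import Fermat.Agent.OrdinaryAtP.Moved
import Fermat.Agent.OrdinaryAtP.Flat.Defs

/-!
# Moved classes killed by `q` are flat

Moved classes are flat at some level `q ^ n`; a flat class of level `q ^ n` killed by `q` is flat of
level `q`.
-/

set_option autoImplicit false
set_option synthInstance.maxHeartbeats 400000
set_option maxHeartbeats 1000000
set_option linter.unusedSectionVars false

noncomputable section

namespace Fermat.Agent.OrdinaryAtP

open AlgebraicCurve ModularCurve Semistable JacTorsion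
open Arith (QBar GQ)
open scoped Pointwise

variable {A : ValuationSubring QBar} {q M : ℕ} [hq : Fact q.Prime] [NeZero M] {hqM : ¬ q ∣ M}

theorem mem_flatCls_of_isFlatMul {m : ℕ} [NeZero m] {x : Pic0 QBar (FB (q * M))}
    (hx : IsFlatMul A M q hqM m x) : x ∈ flatCls A q M hqM m := by
  obtain ⟨D, f, rfl, hf0, hord, hu⟩ := hx
  have hmem : Units.mk0 f hf0 ∈ divGrp QBar (FB (q * M)) m := fun v => ⟨_, hord v⟩
  refine (mem_flatCls A q M hqM).mpr ⟨⟨_, hmem⟩, ?_, hu⟩
  show Pic0.mk ⟨divQuot ⟨_, hmem⟩, divQuot_mem_degZero _⟩ = Pic0.mk D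
  refine congrArg Pic0.mk (Subtype.ext (eq_of_smul_eq (m := m) ?_))
  show (m : ℤ) • divQuot ⟨_, hmem⟩ = (m : ℤ) • (D : Divisor QBar (FB (q * M)))
  rw [smul_divQuot]
  ext v
  rw [FF.div_apply, Finsupp.smul_apply, smul_eq_mul]
  exact hord v

theorem exists_of_mem_flatCls {m : ℕ} [NeZero m] {x : Pic0 QBar (FB (q * M))}
    (hx : x ∈ flatCls A q M hqM m) :
    ∃ (D : Divisor.degZero (K := QBar) (F := FB (q * M))) (f : FB (q * M)),
      Pic0.mk D = x ∧ f ≠ 0 ∧
      (∀ v : Place QBar (FB (q * M)), v.ord f = (m : ℤ) * (D : Divisor QBar (FB (q * M))) v) ∧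
      HasUnitRed A M q hqM f := by
  obtain ⟨f, rfl, hu⟩ := (mem_flatCls A q M hqM).mp hx
  refine ⟨⟨divQuot f, divQuot_mem_degZero f⟩, _, rfl, Units.ne_zero _, fun v => ?_, hu⟩
  have := DFunLike.congr_fun (smul_divQuot f) v
  rw [Finsupp.smul_apply, smul_eq_mul, FF.div_apply] at this
  exact this.symm

/-- Flat classes of level `m` are flat of level `m k`. -/
theorem flatCls_mono {m k : ℕ} [NeZero m] [NeZero (m * k)] :
    flatCls A q M hqM m ≤ flatCls A q M hqM (m * k) := by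
  intro x hx
  obtain ⟨D, f, rfl, hf0, hord, hu⟩ := exists_of_mem_flatCls hx
  refine mem_flatCls_of_isFlatMul ⟨D, f ^ k, rfl, pow_ne_zero _ hf0, fun v => ?_, hu.pow hqM k⟩
  rw [FF.ord_pow, hord, Nat.cast_mul]
  ring

theorem flatCls_pow_mono {a b : ℕ} (hab : a ≤ b) :
    flatCls A q M hqM (q ^ a) ≤ flatCls A q M hqM (q ^ b) := by
  intro x hx
  obtain ⟨D, f, rfl, hf0, hord, hu⟩ := exists_of_mem_flatCls hx
  refine mem_flatCls_of_isFlatMul
    ⟨D, f ^ q ^ (b - a), rfl, pow_ne_zero _ hf0, fun v => ?_, hu.pow hqM _⟩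
  rw [FF.ord_pow, hord, ← mul_assoc, ← Nat.cast_mul, ← pow_add, show b - a + a = b by omega]

/-- Inertia moves torsion of order dividing `q ^ n` into the flat classes of that level. -/
theorem smul_sub_mem_flatCls [CharP (Res A) q] (hA : A.LiesOverPrime q) {n : ℕ}
    {x : JZero (q * M)} (hx : q ^ n • x = 0) {τ : GQ} (hτ : τ ∈ A.inertiaSubgroupIn ℚ) :
    τ • x - x ∈ flatCls A q M hqM (q ^ n) :=
  mem_flatCls_of_isFlatMul (isFlatMul_smul_sub hqM hA (pow_ne_zero _ hq.out.ne_zero) hx hτ)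

theorem exists_mem_flatCls_of_moved [CharP (Res A) q] (hA : A.LiesOverPrime q)
    {y : JZero (q * M)} (hy : y ∈ movedGroup A (q * M) q) :
    ∃ n : ℕ, y ∈ flatCls A q M hqM (q ^ n) := by
  induction hy using AddSubgroup.closure_induction with
  | mem z hz =>
    obtain ⟨τ, hτ, x, n, hx, rfl⟩ := hz
    exact ⟨n, smul_sub_mem_flatCls hA hx hτ⟩
  | zero => exact ⟨0, zero_mem _⟩
  | add a b _ _ ha hb =>
    obtain ⟨i, hi⟩ := ha
    obtain ⟨j, hj⟩ := hb
    exact ⟨i + j, add_mem (flatCls_pow_mono (Nat.le_add_right i j) hi)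
      (flatCls_pow_mono (Nat.le_add_left j i) hj)⟩
  | neg a _ ha =>
    obtain ⟨i, hi⟩ := ha
    exact ⟨i, neg_mem hi⟩

/-- A root of a function with both reductions one can be chosen with both reductions one. -/
theorem exists_root_hasUnitRed [CharP (Res A) q] (hA : A.LiesOverPrime q) {n : ℕ} {c : QBar}
    (hc : c ≠ 0) {g : FB (q * M)} (hg : g ≠ 0)
    (hu : HasUnitRed A M q hqM (algebraMap QBar _ c * g ^ q ^ n)) :
    ∃ d : QBar, d ≠ 0 ∧ HasUnitRed A M q hqM (algebraMap QBar _ d * g) := by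
  have hmn : q ^ n ≠ 0 := pow_ne_zero _ hq.out.ne_zero
  haveI := Arith.residueField_isAlgClosed A
  obtain ⟨hf, hred⟩ := hu
  have key : ∀ s, ∃ d : QBar, d ≠ 0 ∧ A.valuation d ^ q ^ n = A.valuation c ∧
      ∃ h : algebraMap QBar LSer d * iota2 M q hqM s g ∈ locS A, redL A ⟨_, h⟩ ≠ 0 ∧
      ∀ he : c / d ^ q ^ n ∈ A, algebraMap (Res A) (LaurentSeries (Res A))
        (IsLocalRing.residue A ⟨_, he⟩) * redL A ⟨_, h⟩ ^ q ^ n = 1 := by
    intro s
    obtain ⟨d, hd, h, hr⟩ := exists_scale hA hq.out (iota2_fracS (A := A) M q hqM s g)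
      ((_root_.map_ne_zero _).mpr hg)
    have hd' : d ^ q ^ n ≠ 0 := pow_ne_zero _ hd
    have hfs : iota2 M q hqM s (algebraMap QBar _ c * g ^ q ^ n) =
        algebraMap QBar LSer (c / d ^ q ^ n) *
          (algebraMap QBar LSer d * iota2 M q hqM s g) ^ q ^ n := by
      rw [map_mul, map_pow, AlgHom.commutes, mul_pow, ← map_pow (algebraMap QBar LSer),
        ← mul_assoc, ← map_mul, div_mul_cancel₀ _ hd']
    have hfm := (mem_loc2 (iota2 M q hqM)).mp hf s
    have hfr : redL A ⟨_, hfm⟩ = 1 := by rw [← red2_apply _ ⟨_, hf⟩ s, hred, Pi.one_apply]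
    have hone : A.valuation (c / d ^ q ^ n) = 1 := by
      rcases lt_trichotomy (A.valuation (c / d ^ q ^ n)) 1 with hlt | he | hgt
      · exfalso
        have hn : c / d ^ q ^ n ∈ A.nonunits := (ValuationSubring.mem_nonunits_iff A).mpr hlt
        have hA' := Arith.mem_of_mem_nonunits hn
        rw [redL_congr _ (mul_mem (algebraMap_mem_locS hA') (pow_mem h _)) hfs,
          show (⟨_, mul_mem (algebraMap_mem_locS hA') (pow_mem h _)⟩ : locS A) =
            ⟨_, algebraMap_mem_locS hA'⟩ * ⟨_, h⟩ ^ q ^ n from rfl,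
          map_mul, redL_algebraMap hA', (residue_eq_zero_iff hA').mpr hn, map_zero, zero_mul] at hfr
        exact zero_ne_one hfr
      · exact he
      · exfalso
        have hn : (c / d ^ q ^ n)⁻¹ ∈ A.nonunits := by
          rw [ValuationSubring.mem_nonunits_iff, map_inv₀]
          exact inv_lt_one_of_one_lt₀ hgt
        have hA' := Arith.mem_of_mem_nonunits hn
        have e : (((⟨_, algebraMap_mem_locS hA'⟩ : locS A) * ⟨_, hfm⟩ : locS A) : LSer) =
            (((⟨_, h⟩ : locS A) ^ q ^ n : locS A) : LSer) := by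
          show algebraMap QBar LSer (c / d ^ q ^ n)⁻¹ *
            iota2 M q hqM s (algebraMap QBar _ c * g ^ q ^ n) = _
          rw [hfs, ← mul_assoc, ← map_mul, inv_mul_cancel₀ (div_ne_zero hc hd'), map_one, one_mul]
          rfl
        have e2 := congrArg (redL A) (Subtype.ext e)
        rw [map_mul, redL_algebraMap hA', (residue_eq_zero_iff hA').mpr hn, map_zero, zero_mul,
          map_pow] at e2
        exact pow_ne_zero _ hr e2.symm
    refine ⟨d, hd, ?_, h, hr, fun he => ?_⟩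
    · rw [map_div₀, map_pow, div_eq_one_iff_eq
        (pow_ne_zero _ ((Valuation.ne_zero_iff _).mpr hd))] at hone
      exact hone.symm
    · rw [← hfr, ← redL_algebraMap he, ← map_pow, ← map_mul]
      exact congrArg (redL A) (Subtype.ext hfs.symm)
  choose d hd hval h hr hroot using key
  have h01 : A.valuation (d 1) = A.valuation (d 0) :=
    (pow_left_inj₀ zero_le zero_le hmn).mp ((hval 1).trans (hval 0).symm)
  have hu01 : d 0 / d 1 ∈ A := (A.valuation_le_one_iff _).mp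
    (by rw [map_div₀, h01, div_self ((Valuation.ne_zero_iff _).mpr (hd 0))])
  have hG : algebraMap QBar _ (d 0) * g ∈ loc2 A (iota2 M q hqM) := by
    rw [mem_loc2, Fin.forall_fin_two, map_mul, map_mul, AlgHom.commutes, AlgHom.commutes]
    refine ⟨h 0, ?_⟩
    rw [show algebraMap QBar LSer (d 0) = algebraMap QBar LSer (d 0 / d 1) *
      algebraMap QBar LSer (d 1) by rw [← map_mul, div_mul_cancel₀ _ (hd 1)], mul_assoc]
    exact mul_mem (algebraMap_mem_locS hu01) (h 1)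
  have hval0 : A.valuation (c / d 0 ^ q ^ n) = 1 := by
    rw [map_div₀, map_pow, hval 0, div_self ((Valuation.ne_zero_iff _).mpr hc)]
  have hκ : c / d 0 ^ q ^ n ∈ A := (A.valuation_le_one_iff _).mp hval0.le
  have hκ0 : IsLocalRing.residue A ⟨_, hκ⟩ ≠ 0 := fun h0 =>
    ((ValuationSubring.mem_nonunits_iff A).mp ((residue_eq_zero_iff hκ).mp h0)).ne hval0
  obtain ⟨α, hα⟩ := IsAlgClosed.exists_pow_nat_eq (IsLocalRing.residue A ⟨_, hκ⟩)⁻¹
    (Nat.pos_of_ne_zero hmn)
  have hα0 : α ≠ 0 := fun h0 => inv_ne_zero hκ0 (by rw [← hα, h0, zero_pow hmn])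
  haveI : CharP (LaurentSeries (Res A)) q :=
    charP_of_injective_algebraMap (algebraMap (Res A) (LaurentSeries (Res A))).injective q
  have hrs : ∀ s, red2 A (iota2 M q hqM) ⟨_, hG⟩ s = algebraMap (Res A) _ α := by
    intro s
    have e : (((⟨_, algebraMap_mem_locS hκ⟩ : locS A) *
        ⟨_, (mem_loc2 (iota2 M q hqM)).mp hG s⟩ ^ q ^ n : locS A) : LSer) =
        iota2 M q hqM s (algebraMap QBar _ c * g ^ q ^ n) := by
      show algebraMap QBar LSer (c / d 0 ^ q ^ n) *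
        iota2 M q hqM s (algebraMap QBar _ (d 0) * g) ^ q ^ n = _
      rw [map_mul, map_mul, map_pow, AlgHom.commutes, AlgHom.commutes, mul_pow,
        ← map_pow (algebraMap QBar LSer), ← mul_assoc, ← map_mul, div_mul_cancel₀ _ (pow_ne_zero _ (hd 0))]
    have h1 : redL A ((⟨_, algebraMap_mem_locS hκ⟩ : locS A) *
        ⟨_, (mem_loc2 (iota2 M q hqM)).mp hG s⟩ ^ q ^ n) = 1 := by
      rw [show ((⟨_, algebraMap_mem_locS hκ⟩ : locS A) *
        ⟨_, (mem_loc2 (iota2 M q hqM)).mp hG s⟩ ^ q ^ n) =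
        ⟨_, (mem_loc2 (iota2 M q hqM)).mp hf s⟩ from Subtype.ext e,
        ← red2_apply _ ⟨_, hf⟩ s, hred, Pi.one_apply]
    rw [map_mul, map_pow, redL_algebraMap hκ] at h1
    have h2 := eq_inv_of_mul_eq_one_right h1
    rw [← map_inv₀, ← hα, map_pow, ← sub_eq_zero, ← sub_pow_char_pow] at h2
    rw [red2_apply]
    exact sub_eq_zero.mp (eq_zero_of_pow_eq_zero h2)
  obtain ⟨β, hβ⟩ := IsLocalRing.residue_surjective α⁻¹
  have hβ0 : (β : QBar) ≠ 0 := fun h0 => inv_ne_zero hα0 (by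
    rw [← hβ, show β = 0 from Subtype.ext h0, map_zero])
  have hβm : algebraMap QBar (FB (q * M)) (β : QBar) ∈ loc2 A (iota2 M q hqM) :=
    (mem_loc2 _).mpr fun s => by rw [AlgHom.commutes]; exact algebraMap_mem_locS β.2
  refine ⟨β * d 0, mul_ne_zero hβ0 (hd 0), ?_⟩
  rw [map_mul, mul_assoc]
  refine ⟨mul_mem hβm hG, ?_⟩
  rw [show (⟨_, mul_mem hβm hG⟩ : loc2 A (iota2 M q hqM)) = ⟨_, hβm⟩ * ⟨_, hG⟩ from rfl, map_mul]
  funext s
  rw [Pi.mul_apply, hrs, red2_apply,
    redL_congr _ (algebraMap_mem_locS β.2) (AlgHom.commutes _ _), redL_algebraMap β.2, ← map_mul,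
    show (⟨(β : QBar), β.2⟩ : A) = β from rfl, hβ, inv_mul_cancel₀ hα0, map_one, Pi.one_apply]

/-- **Descent**: a flat class killed by `q` is flat of level `q`. -/
theorem mem_flatCls_of_nsmul [CharP (Res A) q] (hA : A.LiesOverPrime q) {n : ℕ}
    {x : Pic0 QBar (FB (q * M))} (hx : x ∈ flatCls A q M hqM (q ^ n)) (hqx : q • x = 0) :
    x ∈ flatCls A q M hqM q := by
  rcases n with _ | n
  · obtain ⟨D, f, rfl, hf0, hord, hu⟩ := exists_of_mem_flatCls hx
    refine mem_flatCls_of_isFlatMul ⟨D, f ^ q, rfl, pow_ne_zero _ hf0, fun v => ?_, hu.pow hqM q⟩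
    rw [FF.ord_pow, hord, pow_zero, Nat.cast_one, one_mul]
  obtain ⟨D, f, rfl, hf0, hord, hu⟩ := exists_of_mem_flatCls hx
  obtain ⟨g, hg0, hg⟩ : ((q • D : Divisor.degZero (K := QBar) (F := FB (q * M))) :
      Divisor QBar (FB (q * M))) ∈ Divisor.principal (K := QBar) (F := FB (q * M)) :=
    AddSubgroup.mem_addSubgroupOf.mp ((QuotientAddGroup.eq_zero_iff _).mp hqx)
  have hg' : ∀ v : Place QBar (FB (q * M)),
      v.ord g = (q : ℤ) * (D : Divisor QBar (FB (q * M))) v := fun v => by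
    rw [← hg v, AddSubgroupClass.coe_nsmul, Finsupp.smul_apply, nsmul_eq_mul]
  obtain ⟨c, hc⟩ : ∃ c : QBar, f / g ^ q ^ n = algebraMap QBar _ c :=
    FF.eq_algebraMap_of_ord_nonneg fun v => le_of_eq (by
      rw [FF.ord_div v hf0 (pow_ne_zero _ hg0), FF.ord_pow, hord, hg', pow_succ, Nat.cast_mul]
      ring)
  have hc0 : c ≠ 0 := fun h0 => div_ne_zero hf0 (pow_ne_zero (q ^ n) hg0) (by
    rw [hc, h0, map_zero])
  have hfe : f = algebraMap QBar _ c * g ^ q ^ n := by
    rw [← hc, div_mul_cancel₀ _ (pow_ne_zero _ hg0)]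
  obtain ⟨d, hd, hdu⟩ := exists_root_hasUnitRed hA hc0 hg0 (hfe ▸ hu)
  have hdne : algebraMap QBar (FB (q * M)) d ≠ 0 := (_root_.map_ne_zero _).mpr hd
  refine mem_flatCls_of_isFlatMul
    ⟨D, algebraMap QBar _ d * g, rfl, mul_ne_zero hdne hg0, fun v => ?_, hdu⟩
  rw [v.ord_mul hdne hg0, FF.ord_algebraMap v d, zero_add, hg']

/-- **Moved classes killed by `q` are flat.** -/
theorem exists_flat_of_moved [CharP (Res A) q] (hA : A.LiesOverPrime q) :
    ∀ y ∈ movedGroup A (q * M) q, q • y = 0 → y ∈ flatCls A q M hqM q := fun _ hy hqy => by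
  obtain ⟨n, hn⟩ := exists_mem_flatCls_of_moved hA hy
  exact mem_flatCls_of_nsmul hA hn hqy

end Fermat.Agent.OrdinaryAtP

end
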