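import Fermat.Agent.OrdinaryAtP.Flat.Small
import Fermat.Agent.GaloisReps.HeckeGalois
import Fermat.Agent.FF.Along
import Fermat.Agent.Semistable.GaloisAction

/-!
# The two push forwards to level `M`, and the action on Kummer functions
-/

set_option autoImplicit false
set_option linter.unusedSectionVars false

noncomputable section

namespace Fermat.Agent.OrdinaryAtP

open AlgebraicCurve ModularCurve Semistable JacTorsion
open NewformLocal.Toric (normUp)
open Arith (QBar GQ)

variable {q M : ℕ} [hq : Fact q.Prime] [NeZero M]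

/-- The image of a Kummer function under a semilinear automorphism. -/
def smulDiv {m : ℕ} (g : SemilinearAut QBar (FB (q * M))) (f : divGrp QBar (FB (q * M)) m) :
    divGrp QBar (FB (q * M)) m :=
  ⟨Units.mk0 (g • ((f : (FB (q * M))ˣ) : FB (q * M))) ((smul_ne_zero_iff_ne g).mpr (Units.ne_zero _)),
    fun P => by
      rw [Units.val_mk0, ← smul_inv_smul g P, SemilinearAut.ord_smul]
      exact f.2 _⟩

theorem coe_smulDiv {m : ℕ} (g : SemilinearAut QBar (FB (q * M)))
    (f : divGrp QBar (FB (q * M)) m) :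
    ((smulDiv g f : (FB (q * M))ˣ) : FB (q * M)) = g • ((f : (FB (q * M))ˣ) : FB (q * M)) := rfl

/-- Automorphisms act on classes through the Kummer functions. -/
theorem smul_kclass {m : ℕ} [NeZero m] (g : SemilinearAut QBar (FB (q * M)))
    (f : divGrp QBar (FB (q * M)) m) : g • kclass q M f = kclass q M (smulDiv g f) := by
  refine congrArg Pic0.mk (Subtype.ext ?_)
  refine eq_of_smul_eq (m := m) ?_
  show (m : ℤ) • (g • divQuot f) = (m : ℤ) • divQuot (smulDiv g f)
  rw [smul_comm (m : ℤ) g, smul_divQuot, smul_divQuot]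
  refine Finsupp.ext fun w => ?_
  rw [SemilinearAut.divisor_smul_apply, JacTorsion.div_apply, JacTorsion.div_apply, coe_smulDiv]
  conv_rhs => rw [← smul_inv_smul g w, SemilinearAut.ord_smul]

/-- Galois acts on classes through the Kummer functions. -/
theorem galois_kclass {m : ℕ} [NeZero m] (σ : GQ) (f : divGrp QBar (FB (q * M)) m) :
    σ • kclass q M f =
      kclass q M (smulDiv (arithmeticGalois (modularFunctionFieldFull (q * M)) σ) f) :=
  (galois_smul_pic0_def _ σ _).trans (smul_kclass _ f)

theorem galois_smul_eq_galF (σ : GQ) (x : FB (q * M)) :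
    arithmeticGalois (modularFunctionFieldFull (q * M)) σ • x = galF (q * M) σ x := rfl

variable (q M) in
/-- Push forward to level `M`. -/
def pushUp : Pic0 QBar (FB (q * M)) →+ Pic0 QBar (FB M) :=
  QuotientAddGroup.map _ _
    (((Divisor.pushforwardAlong (upF M q) (FF.isIntegralAlong (upF M q))).domRestrict
      (Divisor.degZero (K := QBar) (F := FB (q * M)))).codRestrict
        (Divisor.degZero (K := QBar) (F := FB M))
        fun D => Divisor.pushforwardAlong_mem_degZero (upF M q) (FF.isIntegralAlong (upF M q)) D.2)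
    (by
      rintro ⟨D, hD0⟩ hD
      simp only [AddSubgroup.mem_addSubgroupOf] at hD ⊢
      exact Divisor.isPrincipal_pushforwardAlong (upF M q) (FF.isIntegralAlong (upF M q))
        (FF.finiteAlong (upF M q)) (FF.normFormulaAlong (upF M q) _) hD)

theorem pushUp_galois (σ : GQ) (x : Pic0 QBar (FB (q * M))) :
    pushUp q M (σ • x) = σ • pushUp q M x := by
  obtain ⟨D, rfl⟩ := Pic0.mk_surjective x
  refine congrArg Pic0.mk (Subtype.ext ?_)
  exact GaloisReps.pushforwardAlong_smul (arithmeticGalois (modularFunctionFieldFull M) σ)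
    (arithmeticGalois (modularFunctionFieldFull (q * M)) σ) (upF M q)
    (FF.isIntegralAlong (upF M q)) (fun y => (galF_upF M q σ y).symm) _

variable (hqM : ¬ q ∣ M)

variable (q M) in
/-- The Atkin-Lehner automorphism as a semilinear automorphism. -/
def wSL : SemilinearAut QBar (FB (q * M)) := SemilinearAut.ofAlgAut (wEquiv q M hqM)

theorem wSL_smul (x : FB (q * M)) : wSL q M hqM • x = wEquiv q M hqM x := rfl

theorem wSL_commute (σ : GQ) :
    wSL q M hqM * arithmeticGalois (modularFunctionFieldFull (q * M)) σ =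
      arithmeticGalois (modularFunctionFieldFull (q * M)) σ * wSL q M hqM := by
  refine Subtype.ext (Prod.ext (RingEquiv.ext fun x => wEquiv_galois q M hqM σ x) ?_)
  exact RingEquiv.ext fun _ => rfl

variable (q M) in
/-- Push forward to level `M` after the Atkin-Lehner involution. -/
def pushW : Pic0 QBar (FB (q * M)) →+ Pic0 QBar (FB M) :=
  (pushUp q M).comp (DistribSMul.toAddMonoidHom _ (wSL q M hqM))

theorem pushW_apply (x : Pic0 QBar (FB (q * M))) :
    pushW q M hqM x = pushUp q M (wSL q M hqM • x) := rfl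

theorem pushW_galois (σ : GQ) (x : Pic0 QBar (FB (q * M))) :
    pushW q M hqM (σ • x) = σ • pushW q M hqM x := by
  rw [pushW_apply, pushW_apply, galois_smul_pic0_def, ← mul_smul, wSL_commute, mul_smul,
    ← galois_smul_pic0_def, pushUp_galois]

/-- A class with vanishing push forward has a norm which is a power. -/
theorem exists_normUp_of_pushUp {m : ℕ} [NeZero m] (f : divGrp QBar (FB (q * M)) m)
    (hf : pushUp q M (kclass q M f) = 0) :
    ∃ g : FB M, g ≠ 0 ∧ normUp q M ((f : (FB (q * M))ˣ) : FB (q * M)) = g ^ m := by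
  classical
  set x : FB (q * M) := ((f : (FB (q * M))ˣ) : FB (q * M)) with hx
  have hx0 : x ≠ 0 := Units.ne_zero _
  obtain ⟨g₀, hg₀, hg⟩ := AddSubgroup.mem_addSubgroupOf.mp ((QuotientAddGroup.eq_zero_iff _).mp hf)
  have hN0 : normUp q M x ≠ 0 := ((isUnit_iff_ne_zero.mpr hx0).map (normUp q M)).ne_zero
  have hord : ∀ v : Place QBar (FB M), v.ord (normUp q M x) = (m : ℤ) * v.ord g₀ := by
    intro v
    have h1 : Divisor.pushforwardAlong (upF M q) (FF.isIntegralAlong (upF M q))
        ((m : ℤ) • divQuot f) v = v.ord (normUp q M x) := by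
      rw [smul_divQuot]
      exact FF.normFormulaAlong (upF M q) (FF.finiteAlong (upF M q)) x hx0 _
        (fun w => JacTorsion.div_apply _ w) v
    rw [← h1, map_zsmul, Finsupp.smul_apply, smul_eq_mul, ← hg v]
    rfl
  obtain ⟨c, hc⟩ : ∃ c : QBar, normUp q M x / g₀ ^ m = algebraMap QBar (FB M) c := by
    refine FF.eq_algebraMap_of_ord_nonneg fun v => ?_
    rw [FF.ord_div v hN0 (pow_ne_zero _ hg₀), FF.ord_pow, hord v, sub_self]
  obtain ⟨d, hd⟩ := IsAlgClosed.exists_pow_nat_eq c (Nat.pos_of_ne_zero (NeZero.ne m))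
  have e : normUp q M x = (algebraMap QBar (FB M) d * g₀) ^ m := by
    rw [mul_pow, ← map_pow, hd, ← hc, div_mul_cancel₀ _ (pow_ne_zero _ hg₀)]
  refine ⟨_, fun h0 => hN0 ?_, e⟩
  rw [e, h0, zero_pow (NeZero.ne m)]

/-- A class killed by both push forwards: the norms are powers. -/
theorem isNormPow_of_push {m : ℕ} [NeZero m] (f : divGrp QBar (FB (q * M)) m)
    (h1 : pushUp q M (kclass q M f) = 0) (h2 : pushW q M hqM (kclass q M f) = 0) :
    IsNormPow q M hqM m ((f : (FB (q * M))ˣ) : FB (q * M)) := by
  refine ⟨exists_normUp_of_pushUp f h1, ?_⟩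
  rw [pushW_apply, smul_kclass] at h2
  obtain ⟨g, hg, e⟩ := exists_normUp_of_pushUp _ h2
  rw [coe_smulDiv, wSL_smul] at e
  exact ⟨g, hg, e⟩

end Fermat.Agent.OrdinaryAtP

end
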