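import Fermat.Agent.OrdinaryAtP.Statement
import Fermat.Agent.OrdinaryAtP.Flat.Push

/-!
# No trivial quotient at a prime exactly dividing the level, from level `M`

Moved classes killed by `q` with vanishing push forwards are flat new, where some inertia element
is `-1`; the push forwards of the others are moved classes of level `M`.
-/

set_option autoImplicit false
set_option linter.unusedSectionVars false

noncomputable section

namespace Fermat.Agent.OrdinaryAtP

open AlgebraicCurve ModularCurve Semistable JacTorsion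
open Arith (QBar GQ)
open scoped Pointwise

/-- An equivariant map sends moved classes to moved classes. -/
theorem map_movedGroup_le {A : ValuationSubring QBar} {N N' p : ℕ} (F : JZero N →+ JZero N')
    (hF : ∀ (σ : GQ) (x : JZero N), F (σ • x) = σ • F x) :
    (movedGroup A N p).map F ≤ movedGroup A N' p := by
  rw [movedGroup, AddMonoidHom.map_closure]
  refine AddSubgroup.closure_mono ?_
  rintro _ ⟨_, ⟨τ, hτ, x, n, hx, rfl⟩, rfl⟩
  exact ⟨τ, hτ, F x, n, by rw [← map_nsmul, hx, map_zero], by rw [map_sub, hF]⟩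

/-- A functional vanishing on the kernel of a map to a level without trivial quotient is zero. -/
theorem eq_zero_of_map {A : ValuationSubring QBar} {N N' p : ℕ} (F : JZero N →+ JZero N')
    (hF : ∀ (σ : GQ) (x : JZero N), F (σ • x) = σ • F x) (hgood : NoTrivialQuotient A N' p)
    {H : AddSubgroup (JZero N)} (hH : H ≤ movedGroup A N p) (hpH : ∀ y ∈ H, p • y = 0)
    (hstab : ∀ τ ∈ A.inertiaSubgroupIn ℚ, ∀ y ∈ H, τ • y ∈ H) (π : H →+ ZMod p)
    (hπ : ∀ τ (hτ : τ ∈ A.inertiaSubgroupIn ℚ) (y : H),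
      π ⟨τ • (y : JZero N), hstab τ hτ y y.2⟩ = π y)
    (hker : ∀ y : H, F (y : JZero N) = 0 → π y = 0) : π = 0 := by
  classical
  let φ : H →+ H.map F := (F.comp H.subtype).codRestrict _ fun y => ⟨y, y.2, rfl⟩
  have hφ : Function.Surjective φ := by
    rintro ⟨_, y, hy, rfl⟩
    exact ⟨⟨y, hy⟩, rfl⟩
  have hle : φ.ker ≤ π.ker := fun y hy => by
    rw [AddMonoidHom.mem_ker] at hy ⊢
    exact hker y (congrArg Subtype.val hy)
  let π' : H.map F →+ ZMod p := φ.liftOfRightInverse _ (Function.rightInverse_surjInv hφ) ⟨π, hle⟩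
  have hπ' : ∀ y, π' (φ y) = π y := fun y =>
    AddMonoidHom.liftOfRightInverse_comp_apply φ _ _ ⟨π, hle⟩ y
  have hstab' : ∀ τ ∈ A.inertiaSubgroupIn ℚ, ∀ y ∈ H.map F, τ • y ∈ H.map F := by
    rintro τ hτ _ ⟨y, hy, rfl⟩
    exact ⟨τ • y, hstab τ hτ y hy, hF τ y⟩
  have h0 : π' = 0 := by
    refine hgood (H.map F) ((AddSubgroup.map_mono hH).trans (map_movedGroup_le F hF)) ?_ hstab' π' ?_
    · rintro _ ⟨y, hy, rfl⟩
      rw [← map_nsmul, hpH y hy, map_zero]
    · intro τ hτ z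
      obtain ⟨y, rfl⟩ := hφ z
      rw [show (⟨τ • ((φ y : H.map F) : JZero N'), hstab' τ hτ _ (φ y).2⟩ : H.map F) =
        φ ⟨τ • (y : JZero N), hstab τ hτ y y.2⟩ from Subtype.ext (hF τ y).symm, hπ', hπ', hπ τ hτ]
  refine AddMonoidHom.ext fun y => ?_
  rw [← hπ', h0, AddMonoidHom.zero_apply, AddMonoidHom.zero_apply]

variable {A : ValuationSubring QBar} {q M : ℕ} [hq : Fact q.Prime] [NeZero M]

/-- **No trivial quotient at `q ∥` level.** -/
theorem noTrivialQuotient_of_parts (hqM : ¬ q ∣ M) (hq2 : q ≠ 2)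
    (hflat : ∀ y ∈ movedGroup A (q * M) q, q • y = 0 → y ∈ flatCls A q M hqM q)
    (hneg : ∃ τ ∈ A.inertiaSubgroupIn ℚ, ∀ x ∈ flatNew A q M hqM q, τ • x = -x)
    (hgood : NoTrivialQuotient A M q) : NoTrivialQuotient A (q * M) q := by
  intro H hH hpH hstab π hπ
  refine eq_zero_of_map (pushUp q M) pushUp_galois hgood hH hpH hstab π hπ fun y hy => ?_
  set H₂ : AddSubgroup (JZero (q * M)) := H ⊓ (pushUp q M).ker with hH₂
  have hstab₂ : ∀ τ ∈ A.inertiaSubgroupIn ℚ, ∀ x ∈ H₂, τ • x ∈ H₂ := fun τ hτ x hx =>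
    ⟨hstab τ hτ x hx.1, AddMonoidHom.mem_ker.mpr
      (by rw [pushUp_galois, AddMonoidHom.mem_ker.mp hx.2, smul_zero])⟩
  let π₂ : H₂ →+ ZMod q := π.comp (AddSubgroup.inclusion inf_le_left)
  have h2 : π₂ = 0 := by
    refine eq_zero_of_map (pushW q M hqM) (pushW_galois hqM) hgood (inf_le_left.trans hH)
      (fun x hx => hpH x hx.1) hstab₂ π₂ (fun τ hτ x => ?_) fun x hx => ?_
    · exact hπ τ hτ (AddSubgroup.inclusion inf_le_left x)
    obtain ⟨τ, hτ, hτx⟩ := hneg
    obtain ⟨f, hf, hfu⟩ := (mem_flatCls A q M hqM).mp (hflat _ (hH x.2.1) (hpH _ x.2.1))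
    have hmem : (x : JZero (q * M)) ∈ flatNew A q M hqM q :=
      ⟨f, hf, hfu, isNormPow_of_push hqM f (by rw [hf]; exact x.2.2) (by rw [hf]; exact hx)⟩
    have e := hπ τ hτ (AddSubgroup.inclusion inf_le_left x)
    rw [show (⟨τ • ((AddSubgroup.inclusion inf_le_left x : H) : JZero (q * M)), hstab τ hτ _
      (AddSubgroup.inclusion inf_le_left x).2⟩ : H) = -AddSubgroup.inclusion inf_le_left x from
      Subtype.ext (hτx _ hmem), map_neg] at e
    show π (AddSubgroup.inclusion inf_le_left x) = 0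
    rcases ZMod.neg_eq_self_iff _ |>.mp e with h | h
    · exact h
    · exact absurd h fun h2 => hq2 ((Nat.prime_dvd_prime_iff_eq Nat.prime_two hq.out).mp
        ⟨_, h2.symm⟩).symm
  exact DFunLike.congr_fun h2 ⟨y, y.2, AddMonoidHom.mem_ker.mpr hy⟩

end Fermat.Agent.OrdinaryAtP

end
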