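import Fermat.Agent.OrdinaryAtP.Flat.SmallRoot
import Fermat.Agent.Semistable.RootLemmas

/-!
# A flat class with a root close enough to one is trivial

If `f` has divisor `q D` and reductions one and some `f φ ^ q` with `φ ∈ L(n ∞ + D)` is closer to
one than `λ ^ q`, `λ ^ (q - 1) ~ q`, then the approximate root improves to an exact one, so `D` is
principal.
-/

set_option autoImplicit false
set_option synthInstance.maxHeartbeats 400000
set_option maxHeartbeats 2000000
set_option linter.unusedSectionVars false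

noncomputable section

namespace Fermat.Agent.OrdinaryAtP

open ModularCurve AlgebraicCurve Semistable
open Arith (QBar)

variable {A : ValuationSubring QBar} {M : ℕ} [NeZero M] {q : ℕ} [hq : Fact q.Prime]

theorem nonunits_of_valuation_le {a b : QBar} (hb : b ∈ A.nonunits)
    (h : A.valuation a ≤ A.valuation b) : a ∈ A.nonunits := by
  rw [ValuationSubring.mem_nonunits_iff] at hb ⊢
  exact h.trans_lt hb

theorem div_mem_nonunits {a b : QBar} (h : A.valuation a < A.valuation b) : a / b ∈ A.nonunits := by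
  have hpos : 0 < A.valuation b := lt_of_le_of_lt zero_le h
  rw [ValuationSubring.mem_nonunits_iff, map_div₀, div_lt_one₀ hpos]
  exact h

theorem div_mem_of_valuation_le {a b : QBar} (hb : b ≠ 0) (h : A.valuation a ≤ A.valuation b) :
    a / b ∈ A := by
  rw [← A.valuation_le_one_iff, map_div₀,
    div_le_one₀ (zero_lt_iff.mpr ((Valuation.ne_zero_iff _).mpr hb))]
  exact h

variable {hqM : ¬ q ∣ M} {f : FB (q * M)}

/-- An approximate root is integral with both reductions one. -/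
theorem approxRoot_red (hA : A.LiesOverPrime q) [CharP (Res A) q] (hf : HasUnitRed A M q hqM f)
    {Φ : FB (q * M)} {ε : QBar} (hε : ε ∈ A.nonunits)
    (hs : ∀ s, IsSmall A ε (iota2 M q hqM s (f * Φ ^ q) - 1)) :
    ∀ s, ∃ hm : iota2 M q hqM s Φ ∈ locS A, redL A ⟨_, hm⟩ = 1 := by
  intro s
  obtain ⟨hfl, hfr⟩ := hf
  have hf1 := (mem_loc2 _).mp hfl s
  have hfr' : redL A ⟨iota2 M q hqM s f, hf1⟩ = 1 := congrFun hfr s
  obtain ⟨hinv, hinv'⟩ := inv_mem_locS hf1 (by rw [hfr']; exact one_ne_zero)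
  have hm : iota2 M q hqM s (f * Φ ^ q) ∈ locS A := by
    have := add_mem ((hs s).mem_locS (Arith.mem_of_mem_nonunits hε)) (one_mem (locS A))
    rwa [sub_add_cancel] at this
  have hr : redL A ⟨_, hm⟩ = 1 := ((hs s).redL_eq hε hm (one_mem _)).trans (map_one _)
  have hf0 : iota2 M q hqM s f ≠ 0 := fun h0 => by
    rw [redL_congr _ (zero_mem _) h0] at hfr'
    exact zero_ne_one ((map_zero (redL A)).symm.trans hfr')
  have e : iota2 M q hqM s Φ ^ q = (iota2 M q hqM s f)⁻¹ * iota2 M q hqM s (f * Φ ^ q) := by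
    rw [map_mul, map_pow, ← mul_assoc, inv_mul_cancel₀ hf0, one_mul]
  have hmq : iota2 M q hqM s Φ ^ q ∈ locS A := e ▸ mul_mem hinv hm
  have hmqr : redL A ⟨_, hmq⟩ = 1 := by
    rw [redL_congr _ (mul_mem hinv hm) e]
    change redL A (⟨_, hinv⟩ * ⟨_, hm⟩) = 1
    rw [map_mul, hinv', hfr', hr, inv_one, one_mul]
  have hmem := mem_locS_of_pow hA hq.out (iota2_fracS M q hqM s Φ) hq.out.ne_zero hmq
    (by rw [hmqr]; exact one_ne_zero)
  refine ⟨hmem, ?_⟩
  have h1 : redL A ⟨_, hmem⟩ ^ q = 1 := by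
    rw [← map_pow, ← hmqr]
    rfl
  haveI : CharP (LaurentSeries (Res A)) q :=
    charP_of_injective_algebraMap (FaithfulSMul.algebraMap_injective (Res A) _) q
  exact frobenius_inj (LaurentSeries (Res A)) q (by rw [frobenius_def, frobenius_def, h1, one_pow])

variable {D : Divisor QBar (FB (q * M))}

/-- One step of Newton's iteration. -/
theorem exists_improve (hA : A.LiesOverPrime q) [CharP (Res A) q]
    (hord : ∀ v, v.ord f = (q : ℤ) * D v) (hf : HasUnitRed A M q hqM f)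
    {π π' : QBar} (hπ0 : π ≠ 0) (hπ : π ∈ A.nonunits)
    (hc : A.valuation (π * (π / q)) ≤ A.valuation π')
    (hcq : A.valuation ((π / q) ^ q) ≤ A.valuation π') (hcA : π / q ∈ A)
    {N : ℕ} {Φ : FB (q * M)} (hΦ : Φ ∈ HD M q D N)
    (hs : ∀ s, IsSmall A π (iota2 M q hqM s (f * Φ ^ q) - 1)) :
    ∃ N' Φ', Φ' ∈ HD M q D N' ∧ ∀ s, IsSmall A π' (iota2 M q hqM s (f * Φ' ^ q) - 1) := by
  have hq0 : (q : QBar) ≠ 0 := Nat.cast_ne_zero.mpr hq.out.ne_zero
  set c : QBar := π / q with hcdef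
  have hqc : (q : QBar) * c = π := mul_div_cancel₀ π hq0
  set δ : FB (q * M) := π⁻¹ • (f * Φ ^ q - 1) with hδ
  have hδHN : δ ∈ HN M q (q * N) := by
    refine Submodule.smul_mem _ _ (Submodule.sub_mem _ ?_ (one_mem_polesSpace _ _))
    rw [mul_comm f]
    exact pow_mul_mem_HN hΦ hord
  have hfac : (1 - c • δ : FB (q * M)) ∈ HD M q 0 (q * N) := by
    rw [HD_zero]
    exact Submodule.sub_mem _ (one_mem_polesSpace _ _) (Submodule.smul_mem _ _ hδHN)
  refine ⟨N + q * N, Φ * (1 - c • δ), by simpa using mul_mem_HD hΦ hfac, fun s => ?_⟩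
  set z := iota2 M q hqM s δ with hzdef
  have hez : iota2 M q hqM s (f * Φ ^ q) - 1 = algebraMap QBar LSer π * z := by
    rw [hzdef, hδ, Algebra.smul_def, map_mul (iota2 M q hqM s) (algebraMap QBar _ π⁻¹),
      AlgHom.commutes, ← mul_assoc,
      ← map_mul, mul_inv_cancel₀ hπ0, map_one, one_mul, map_sub, map_one]
  have hz : z ∈ locS A := by
    obtain ⟨w, hw, hwe⟩ := hs s
    rw [hez] at hwe
    rwa [mul_left_cancel₀ ((_root_.map_ne_zero _).mpr hπ0) hwe]
  set Y : LSer := -(algebraMap QBar LSer c * z) with hY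
  obtain ⟨Z, hZ, hZe⟩ := exists_add_pow_eq (locS A) hq.out (one_mem _)
    (neg_mem (mul_mem (algebraMap_mem_locS hcA) hz) : Y ∈ locS A)
  have e1 : iota2 M q hqM s (f * (Φ * (1 - c • δ)) ^ q) - 1 =
      -(algebraMap QBar LSer π * z) ^ 2 + (1 + algebraMap QBar LSer π * z) *
        ((q : LSer) * (Y ^ 2 * Z) + Y ^ q) := by
    rw [mul_pow, ← mul_assoc, map_mul (iota2 M q hqM s) (f * Φ ^ q), sub_eq_iff_eq_add.mp hez,
      map_pow, map_sub, map_one, Algebra.smul_def, map_mul (iota2 M q hqM s), AlgHom.commutes,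
      ← hzdef, sub_eq_add_neg (1 : LSer), ← hY, hZe, one_pow, one_pow, one_mul]
    have hqY : (q : LSer) * Y = -(algebraMap QBar LSer π * z) := by
      rw [hY, mul_neg, ← mul_assoc, ← map_natCast (algebraMap QBar LSer) q, ← map_mul, hqc]
    rw [hqY]
    ring
  rw [e1]
  have h1z : 1 + algebraMap QBar LSer π * z ∈ locS A :=
    add_mem (one_mem _) (mul_mem (algebraMap_mem_locS (Arith.mem_of_mem_nonunits hπ)) hz)
  refine (IsSmall.neg ?_).add (IsSmall.mem_locS_mul (IsSmall.add ?_ ?_) h1z)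
  · refine IsSmall.mono (γ := π ^ 2) ((isSmall_mul_left hz).pow 2) (le_trans ?_ hc)
    rw [sq, map_mul, map_mul]
    refine mul_le_mul' le_rfl ?_
    conv_lhs => rw [← hqc, map_mul]
    exact mul_le_of_le_one_left' ((A.valuation_le_one_iff _).mpr (natCast_mem A q))
  · refine IsSmall.mono (γ := (q : QBar) * c ^ 2) ?_ (le_trans (le_of_eq ?_) hc)
    · rw [← map_natCast (algebraMap QBar LSer) q, hY, neg_sq]
      exact (((isSmall_mul_left hz).pow 2).mul_mem_locS hZ).const_mul _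
    · rw [← hqc]; congr 1; ring
  · refine IsSmall.mono (γ := c ^ q) ?_ hcq
    rw [hY, neg_pow]
    exact ((isSmall_mul_left hz).pow q).mem_locS_mul (pow_mem (neg_mem (one_mem _)) q)

/-- Approximate roots of every accuracy. -/
theorem exists_approx_all (hA : A.LiesOverPrime q) [CharP (Res A) q]
    (hord : ∀ v, v.ord f = (q : ℤ) * D v) (hf : HasUnitRed A M q hqM f) {lam : QBar}
    (hlam : A.valuation (lam ^ (q - 1)) = A.valuation (q : QBar)) {φ : FB (q * M)} {n : ℕ}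
    (hφ : φ ∈ HD M q D n) {π : QBar} (hπ : A.valuation π < A.valuation (lam ^ q))
    (hs : ∀ s, IsSmall A π (iota2 M q hqM s (f * φ ^ q) - 1)) {γ : QBar} (hγ : γ ≠ 0) :
    ∃ N Φ, Φ ∈ HD M q D N ∧ ∀ s, IsSmall A γ (iota2 M q hqM s (f * Φ ^ q) - 1) := by
  have hq0 : (q : QBar) ≠ 0 := Nat.cast_ne_zero.mpr hq.out.ne_zero
  have hqv : A.valuation (q : QBar) < 1 := (ValuationSubring.mem_nonunits_iff A).mp hA
  have hqpos : 0 < A.valuation (q : QBar) := zero_lt_iff.mpr ((Valuation.ne_zero_iff _).mpr hq0)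
  have hq1 : q - 1 ≠ 0 := by have := hq.out.two_le; omega
  have hl1 : A.valuation lam < 1 := by
    by_contra! hge
    rw [map_pow] at hlam
    exact absurd (hlam ▸ one_le_pow_of_one_le' hge _) (not_le.mpr hqv)
  have hlq : A.valuation (lam ^ q) = A.valuation lam * A.valuation (q : QBar) := by
    rw [← hlam, ← map_mul, ← pow_succ', Nat.sub_add_cancel hq.out.one_le]
  -- a nonzero starting error
  obtain ⟨π₀, hπ₀, hπ₀lt, hπ₀le⟩ : ∃ π₀ : QBar, π₀ ≠ 0 ∧
      A.valuation π₀ < A.valuation (lam ^ q) ∧ A.valuation π ≤ A.valuation π₀ := by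
    rcases eq_or_ne π 0 with rfl | h0
    · refine ⟨lam ^ q * q, mul_ne_zero (pow_ne_zero _ fun hl => ?_) hq0, ?_, by simp⟩
      · simp [hl, zero_pow hq.out.ne_zero] at hπ
      · rw [map_mul]
        exact mul_lt_of_lt_one_right (lt_of_le_of_lt zero_le hπ) hqv
    · exact ⟨π, h0, hπ, le_rfl⟩
  set c := π₀ / (q : QBar)
  have hc : A.valuation c < A.valuation lam := by
    rw [map_div₀, div_lt_iff₀ hqpos, ← hlq]
    exact hπ₀lt
  have hc1 : c ∈ A.nonunits := (ValuationSubring.mem_nonunits_iff A).mpr (hc.trans hl1)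
  have hcpow : c ^ (q - 1) / (q : QBar) ∈ A.nonunits := by
    refine div_mem_nonunits ?_
    rw [← hlam, map_pow, map_pow]
    exact pow_lt_pow_left₀ hc zero_le hq1
  obtain ⟨ρ, hρn, hρ1, hρ2⟩ : ∃ ρ ∈ A.nonunits, A.valuation c ≤ A.valuation ρ ∧
      A.valuation (c ^ (q - 1) / (q : QBar)) ≤ A.valuation ρ := by
    rcases le_total (A.valuation c) (A.valuation (c ^ (q - 1) / (q : QBar))) with h | h
    · exact ⟨_, hcpow, h, le_rfl⟩
    · exact ⟨c, hc1, le_rfl, h⟩
  have hρ0 : ρ ≠ 0 := fun h0 => by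
    rw [h0, map_zero, nonpos_iff_eq_zero, map_eq_zero] at hρ1
    exact div_ne_zero hπ₀ hq0 hρ1
  have key : ∀ k, ∃ N Φ, Φ ∈ HD M q D N ∧
      ∀ s, IsSmall A (ρ ^ k * π₀) (iota2 M q hqM s (f * Φ ^ q) - 1) := by
    intro k
    induction k with
    | zero => exact ⟨n, φ, hφ, fun s => by rw [pow_zero, one_mul]; exact (hs s).mono hπ₀le⟩
    | succ k ih =>
      obtain ⟨N, Φ, hΦ, hΦs⟩ := ih
      set e := ρ ^ k * π₀ with he
      have hele : A.valuation e ≤ A.valuation π₀ := by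
        rw [he, map_mul, map_pow]
        exact mul_le_of_le_one_left' (pow_le_one' (le_of_lt
          ((ValuationSubring.mem_nonunits_iff A).mp hρn)) k)
      have hece : A.valuation (e / q) ≤ A.valuation c := by
        rw [map_div₀, map_div₀]
        exact div_le_div_of_nonneg_right hele zero_le
      have hen : e ∈ A.nonunits := nonunits_of_valuation_le hA (le_trans hele (by
        refine hπ₀lt.le.trans ?_
        rw [hlq]
        exact mul_le_of_le_one_left' hl1.le))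
      refine exists_improve hA hord hf (mul_ne_zero (pow_ne_zero _ hρ0) hπ₀) hen ?_ ?_
        (Arith.mem_of_mem_nonunits (nonunits_of_valuation_le hc1 hece)) hΦ hΦs
      · rw [show ρ ^ (k + 1) * π₀ = e * ρ by rw [he]; ring, map_mul, map_mul]
        exact mul_le_mul' le_rfl (hece.trans hρ1)
      · rw [show ρ ^ (k + 1) * π₀ = e * ρ by rw [he]; ring,
          show (e / q) ^ q = e * ((e / q) ^ (q - 1) / q) by
            rw [(mul_pow_sub_one hq.out.ne_zero (e / (q : QBar))).symm]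
            ring,
          map_mul, map_mul]
        refine mul_le_mul' le_rfl (le_trans ?_ hρ2)
        rw [map_div₀, map_div₀, map_pow, map_pow]
        exact div_le_div_of_nonneg_right (pow_le_pow_left₀ zero_le hece _) zero_le
  obtain ⟨k, hk⟩ := exists_pow_valuation_lt hA hq.out hρn (s := γ / π₀) (div_ne_zero hγ hπ₀)
  obtain ⟨N, Φ, hΦ, hΦs⟩ := key k
  refine ⟨N, Φ, hΦ, fun s => (hΦs s).mono ?_⟩
  rw [map_mul, ← le_div_iff₀ (zero_lt_iff.mpr ((Valuation.ne_zero_iff _).mpr hπ₀)), ← map_div₀]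
  exact hk.le

/-- The root of a pole bound. -/
theorem mem_polesSpace_of_comb {k F : Type*} [Field k] [Field F] [Algebra k F]
    [FF.IsFunctionField k F] {x z : F} {r d N : ℕ} (hr : 2 ≤ r)
    (hz : z ∈ riemannRochSpace (N • FF.poles k x)) {a b : k} (hab : a ≠ 0 ∨ b ≠ 0)
    (h : a • z ^ r + b • ((x ^ d) ^ (r - 1) * z) ∈ riemannRochSpace ((r * d) • FF.poles k x)) :
    z ∈ riemannRochSpace (d • FF.poles k x) := by
  rcases eq_or_ne z 0 with rfl | hz0
  · exact zero_mem _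
  rw [RedTorsion.mem_polesSpace] at hz h ⊢
  intro v
  by_contra hv
  have hk : v.ord z < -((d : ℤ) * FF.poles k x v) := by
    by_contra! hle
    exact hv (FF.mem_ordGe_of_le v hle)
  have hP : v.ord x < 0 := by
    by_contra! hx
    have e : FF.poles k x v = 0 := by rw [FF.poles_apply, max_eq_left (by omega)]
    have := FF.le_ord_of_mem_ordGe v hz0 (hz v)
    rw [e, mul_zero] at hk this
    omega
  have hx0 : x ≠ 0 := fun h0 => by simp [h0] at hP
  have hPe : FF.poles k x v = -v.ord x := by rw [FF.poles_apply, max_eq_right (by omega)]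
  obtain ⟨t, rfl⟩ : ∃ t, r = t + 1 := ⟨r - 1, by omega⟩
  have hg : (x ^ d) ^ t * z ≠ 0 := mul_ne_zero (pow_ne_zero _ (pow_ne_zero _ hx0)) hz0
  have hord2 : v.ord ((x ^ d) ^ t * z) = (t : ℤ) * ((d : ℤ) * v.ord x) + v.ord z := by
    rw [v.ord_mul (pow_ne_zero _ (pow_ne_zero _ hx0)) hz0, FF.ord_pow, FF.ord_pow]
  have hsum := h v
  rw [Nat.add_sub_cancel, hPe] at hsum
  rw [hPe] at hk
  push_cast at hsum
  have ht : (1 : ℤ) ≤ t := by omega
  by_cases ha : a = 0
  · have hb : b ≠ 0 := hab.resolve_left (by simp [ha])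
    rw [ha, zero_smul, zero_add] at hsum
    have h2 := Submodule.smul_mem (FF.ordGe v (-((((t : ℤ) + 1) * d) * -v.ord x))) b⁻¹ hsum
    rw [smul_smul, inv_mul_cancel₀ hb, one_smul] at h2
    have := FF.le_ord_of_mem_ordGe v hg h2
    rw [hord2] at this
    nlinarith
  · set B : ℤ := min (-(((t : ℤ) + 1) * d * -v.ord x)) (v.ord ((x ^ d) ^ t * z)) with hB
    have h2 : a • z ^ (t + 1) ∈ FF.ordGe v B := by
      have h3 := (FF.ordGe v B).sub_mem (FF.ordGe_anti v (min_le_left _ _) hsum)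
        (Submodule.smul_mem _ b (FF.mem_ordGe_of_le v (min_le_right _ _)))
      rwa [add_sub_cancel_right] at h3
    have h3 := Submodule.smul_mem _ a⁻¹ h2
    rw [smul_smul, inv_mul_cancel₀ ha, one_smul] at h3
    have := FF.le_ord_of_mem_ordGe v (pow_ne_zero _ hz0) h3
    rw [FF.ord_pow, hB, hord2, min_le_iff] at this
    push_cast at this
    rcases this with h4 | h4 <;> nlinarith

variable [CharP (Res A) q] [FF.IsFunctionField (Res A) (KM A M)]

/-- The root of a pole bound, in series. -/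
theorem mem_Hk_of_comb_mem {a b : Res A} (hab : a ≠ 0 ∨ b ≠ 0) {c : Rk A M} {k d : ℕ}
    (hc : (c : KM A M) ∈ Hk A M k)
    (hmem : a • serR A M c ^ q + b • ((((jK A M ^ d) : KM A M) : LaurentSeries (Res A)) ^ (q - 1) *
      serR A M c) ∈ HkS A M (q * d)) : (c : KM A M) ∈ Hk A M d := by
  refine mem_polesSpace_of_comb (r := q) hq.out.two_le hc hab (coe_mem_HkS.mp ?_)
  have e : valLin A M (a • (c : KM A M) ^ q + b • ((jK A M ^ d) ^ (q - 1) * (c : KM A M))) =
      a • serR A M c ^ q + b • ((((jK A M ^ d) : KM A M) : LaurentSeries (Res A)) ^ (q - 1) *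
        serR A M c) := by
    rw [map_add, map_smul, map_smul, valLin_apply, valLin_apply]
    simp only [IntermediateField.coe_pow, IntermediateField.coe_mul]
    rfl
  rw [valLin_apply] at e
  rw [e]
  exact hmem

variable (h : Setup A M q)
include h

/-- The reductions of `j` at the two sides. -/
theorem red2_upF_jM_pow (k : ℕ) (s : Fin 2) :
    ∃ hm : iota2 M q h.hqM s (upF M q (jM M) ^ k) ∈ locS A, redL A ⟨_, hm⟩ =
      (((jK A M) ^ (sideDeg q s * k) : KM A M) : LaurentSeries (Res A)) := by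
  set u : loc2 A (iota2 M q h.hqM) := ⟨upF M q (jM M), upF_mem_loc2 M q h.hqM (jM_mem M)⟩
  refine ⟨(mem_loc2 _).mp (u ^ k).2 s, ?_⟩
  refine (red2_apply (iota2 M q h.hqM) (u ^ k) s).symm.trans ?_
  rw [map_pow, Pi.pow_apply, red2_upF M q h.hqM ⟨jM M, jM_mem M⟩, red1_jM, IntermediateField.coe_pow,
    coe_jK, pow_mul]
  fin_cases s
  · simp [sideDeg]
  · simp [sideDeg, ← pow_eq_qExpand_gen_one]

/-- Fixed pole order: approximate solutions of every accuracy of `f x ^ q = P ^ q`. -/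
theorem exists_bounded_approx {n₀ : ℕ} (hn₀ : ∀ k, n₀ ≤ k → LD A h.hqM D k = glued h 1 k)
    (hord : ∀ v, v.ord f = (q : ℤ) * D v) (hf : HasUnitRed A M q h.hqM f)
    {γ : QBar} {ε : QBar} (hε : ε ∈ A.nonunits) (hεγ : A.valuation ε ≤ A.valuation γ)
    {N : ℕ} {Φ : FB (q * M)} (hΦ : Φ ∈ HD M q D N)
    (hs : ∀ s, IsSmall A ε (iota2 M q h.hqM s (f * Φ ^ q) - 1)) :
    ∃ x ∈ HD M q D n₀, (∀ s, iota2 M q h.hqM s x ∈ locS A) ∧
      ∀ s, IsSmall A γ (iota2 M q h.hqM s (f * x ^ q - (upF M q (jM M) ^ n₀) ^ q)) := by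
  classical
  set ι := iota2 M q h.hqM with hι
  set P := upF M q (jM M) ^ n₀ with hP
  have hPH : P ∈ HN M q n₀ := by
    rw [RedTorsion.mem_polesSpace]
    intro v
    refine FF.mem_ordGe_of_le v ?_
    rw [hP, FF.ord_pow, FF.poles_apply]
    have h1 := le_max_right (0 : ℤ) (-v.ord (upF M q (jM M)))
    have h2 : (0 : ℤ) ≤ n₀ := Int.natCast_nonneg _
    nlinarith
  have hPloc : ∀ s, ι s P ∈ locS A := fun s => (red2_upF_jM_pow h n₀ s).1
  have hfl : ∀ s, ι s f ∈ locS A := fun s => (mem_loc2 _).mp hf.1 s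
  have hfr : ∀ s, redL A ⟨ι s f, hfl s⟩ = 1 := fun s => congrFun hf.2 s
  choose hΦl hΦr using approxRoot_red h.hA hf hε hs
  have hT : ∀ s, ι s (P * Φ) ∈ locS A := fun s => by
    rw [map_mul]; exact mul_mem (hPloc s) (hΦl s)
  obtain ⟨v, hv, hvl, hbest⟩ := exists_bestApprox h.hA ((HD M q D n₀).map (embLin ι))
    (by rintro _ ⟨y, -, rfl⟩ s; exact iota2_fracS M q h.hqM s y) (T := fun s => ι s (P * Φ)) hT
  obtain ⟨x, hx, rfl⟩ := Submodule.mem_map.mp hv
  refine ⟨x, hx, hvl, fun s => ?_⟩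
  have hxl : ∀ s, ι s x ∈ locS A := hvl
  -- the main term
  have hmain : ∀ s, IsSmall A ε (ι s (f * (P * Φ) ^ q - P ^ q)) := fun s => by
    rw [show f * (P * Φ) ^ q - P ^ q = P ^ q * (f * Φ ^ q - 1) by ring, map_mul, map_sub (ι s),
      map_one]
    exact (hs s).mem_locS_mul (by rw [map_pow]; exact pow_mem (hPloc s) q)
  by_cases hPx : P * Φ - x = 0
  · rw [← sub_eq_zero.mp hPx]
    exact (hmain s).mono hεγ
  obtain ⟨μ, z, hμ0, hze, hzl, s₁, hs₁⟩ := exists_pairScale h.hA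
    (t := fun s => ι s (P * Φ - x)) (fun s => iota2_fracS M q h.hqM s _)
    (fun h0 => hPx (((ι 0).injective ((congrFun h0 0).trans (map_zero (ι 0)).symm))))
  set Z : FB (q * M) := μ⁻¹ • (P * Φ - x) with hZ
  have hZz : ∀ s, ι s Z = z s := fun s => by
    rw [hZ, Algebra.smul_def, map_mul (ι s), AlgHom.commutes, hze, ← mul_assoc, ← map_mul,
      inv_mul_cancel₀ hμ0, map_one, one_mul]
  have hZH : Z ∈ HD M q D (N + n₀) := by
    refine Submodule.smul_mem _ _ (Submodule.sub_mem _ ?_ (HD_mono D (by omega) hx))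
    have hP0 : P ∈ HD M q 0 n₀ := by rw [HD_zero]; exact hPH
    simpa [add_comm N] using mul_mem_HD hP0 hΦ
  have hdiff : ∀ s, ι s (P * Φ) - ι s x = algebraMap QBar LSer μ * z s := fun s => by
    rw [← hze s, map_sub]
  have hμ1 : A.valuation μ ≤ 1 := by
    by_contra! hgt
    have hinv : μ⁻¹ ∈ A.nonunits := by
      rw [ValuationSubring.mem_nonunits_iff, map_inv₀]
      exact inv_lt_one_of_one_lt₀ hgt
    refine hs₁ (IsSmall.redL_eq_zero ⟨_, sub_mem (hT s₁) (hvl s₁), ?_⟩ hinv (hzl s₁))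
    show z s₁ = algebraMap QBar LSer μ⁻¹ * (ι s₁ (P * Φ) - ι s₁ x)
    rw [hdiff, ← mul_assoc, ← map_mul, inv_mul_cancel₀ hμ0, map_one, one_mul]
  have hμA : μ ∈ A := (A.valuation_le_one_iff _).mp hμ1
  -- the expansion
  have hY : ∀ s, -(algebraMap QBar LSer μ * z s) ∈ locS A := fun s =>
    neg_mem (mul_mem (algebraMap_mem_locS hμA) (hzl s))
  choose R hR hRe using fun s => exists_add_pow_eq (locS A) hq.out (hT s) (hY s)
  have hexp : ∀ s, ι s (f * x ^ q - P ^ q) =
      ι s (f * (P * Φ) ^ q - P ^ q) +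
        algebraMap QBar LSer ((q : QBar) * μ) * -(ι s f * (ι s (P * Φ) ^ (q - 1) * z s)) +
        algebraMap QBar LSer ((q : QBar) * μ) * (algebraMap QBar LSer μ * (ι s f * (z s ^ 2 * R s))) +
        algebraMap QBar LSer (μ ^ q) * (ι s f * ((-1) ^ q * z s ^ q)) := by
    intro s
    have hxe : ι s x = ι s (P * Φ) + -(algebraMap QBar LSer μ * z s) := by
      rw [← hdiff s]; ring
    rw [map_sub, map_sub, map_mul (ι s) f, map_mul (ι s) f, map_pow (ι s) x, hxe, hRe s,
      map_pow (ι s) (P * Φ), neg_pow (algebraMap QBar LSer μ * z s), mul_pow]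
    simp only [map_mul, map_pow, map_natCast]
    ring
  obtain ⟨ν, hν0, hν1, hν2, hνc⟩ : ∃ ν : QBar, ν ≠ 0 ∧
      A.valuation (μ ^ q) ≤ A.valuation ν ∧ A.valuation ((q : QBar) * μ) ≤ A.valuation ν ∧
      (ν = μ ^ q ∨ ν = (q : QBar) * μ) := by
    rcases le_total (A.valuation (μ ^ q)) (A.valuation ((q : QBar) * μ)) with hle | hle
    · exact ⟨_, mul_ne_zero (Nat.cast_ne_zero.mpr hq.out.ne_zero) hμ0, hle, le_rfl, Or.inr rfl⟩
    · exact ⟨_, pow_ne_zero _ hμ0, le_rfl, hle, Or.inl rfl⟩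
  have hX1 : ∀ s, -(ι s f * (ι s (P * Φ) ^ (q - 1) * z s)) ∈ locS A := fun s =>
    neg_mem (mul_mem (hfl s) (mul_mem (pow_mem (hT s) _) (hzl s)))
  have hX2 : ∀ s, ι s f * (z s ^ 2 * R s) ∈ locS A := fun s =>
    mul_mem (hfl s) (mul_mem (pow_mem (hzl s) 2) (hR s))
  have hX3 : ∀ s, ι s f * ((-1) ^ q * z s ^ q) ∈ locS A := fun s =>
    mul_mem (hfl s) (mul_mem (pow_mem (neg_mem (one_mem _)) q) (pow_mem (hzl s) q))
  rcases le_or_gt (A.valuation ν) (A.valuation γ) with hνγ | hγν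
  · rw [hexp s]
    refine (((hmain s).mono hεγ).add ?_ |>.add ?_).add ?_
    · exact (isSmall_mul_left (hX1 s)).mono (hν2.trans hνγ)
    · exact (isSmall_mul_left (mul_mem (algebraMap_mem_locS hμA) (hX2 s))).mono (hν2.trans hνγ)
    · exact (isSmall_mul_left (hX3 s)).mono (hν1.trans hνγ)
  -- otherwise the error has a reduction in the space
  exfalso
  have hεν : ε / ν ∈ A.nonunits := div_mem_nonunits (hεγ.trans_lt hγν)
  have hbA : (q : QBar) * μ / ν ∈ A := div_mem_of_valuation_le hν0 hν2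
  have haA : μ ^ q / ν ∈ A := div_mem_of_valuation_le hν0 hν1
  set b₀ : Res A := -IsLocalRing.residue A ⟨_, hbA⟩ with hb₀
  set a₀ : Res A := IsLocalRing.residue A ⟨_, haA⟩ * (-1) ^ q with ha₀
  have hbμ : (q : QBar) * μ / ν * μ ∈ A.nonunits := by
    rcases eq_or_lt_of_le hμ1 with h1 | h1
    · refine nonunits_of_valuation_le h.hA ?_
      rw [map_mul, h1, mul_one, map_div₀, div_le_iff₀ (zero_lt_iff.mpr
        ((Valuation.ne_zero_iff _).mpr hν0)), map_mul, h1, mul_one]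
      refine le_mul_of_one_le_right' ?_
      rw [← one_pow q, ← h1, ← map_pow]
      exact hν1
    · rw [mul_comm]
      exact Fermat.Agent.Arith.nonunits_mul_right ((ValuationSubring.mem_nonunits_iff A).mpr h1) hbA
  set w : FB (q * M) := ν⁻¹ • (f * x ^ q - P ^ q)
  have hwH : w ∈ HN M q (q * n₀) := by
    refine Submodule.smul_mem _ _ (Submodule.sub_mem _ ?_ ?_)
    · rw [mul_comm f]
      exact pow_mul_mem_HN hx hord
    · rw [RedTorsion.mem_polesSpace] at hPH ⊢
      intro v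
      refine FF.ordGe_anti v (le_of_eq ?_) (FF.pow_mem_ordGe v (hPH v) q)
      push_cast
      ring
  have hw : ∀ s, ∃ hm : ι s w ∈ locS A, redL A ⟨_, hm⟩ =
      a₀ • redL A ⟨z s, hzl s⟩ ^ q +
        b₀ • ((((jK A M ^ (sideDeg q s * n₀)) : KM A M) : LaurentSeries (Res A)) ^ (q - 1) *
          redL A ⟨z s, hzl s⟩) := by
    intro s
    obtain ⟨u, hu, hue⟩ := hmain s
    have e : ι s w = algebraMap QBar LSer (ε / ν) * u +
        algebraMap QBar LSer ((q : QBar) * μ / ν) * -(ι s f * (ι s (P * Φ) ^ (q - 1) * z s)) +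
        algebraMap QBar LSer ((q : QBar) * μ / ν * μ) * (ι s f * (z s ^ 2 * R s)) +
        algebraMap QBar LSer (μ ^ q / ν) * (ι s f * ((-1) ^ q * z s ^ q)) := by
      show ι s (ν⁻¹ • (f * x ^ q - P ^ q)) = _
      rw [Algebra.smul_def, map_mul (ι s), AlgHom.commutes, hexp s, hue]
      simp only [div_eq_mul_inv, map_mul]
      ring
    obtain ⟨m1, r1⟩ := redL_const_mul (Arith.mem_of_mem_nonunits hεν) hu
    obtain ⟨m2, r2⟩ := redL_const_mul hbA (hX1 s)
    obtain ⟨m3, r3⟩ := redL_const_mul (Arith.mem_of_mem_nonunits hbμ) (hX2 s)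
    obtain ⟨m4, r4⟩ := redL_const_mul haA (hX3 s)
    refine ⟨e ▸ add_mem (add_mem (add_mem m1 m2) m3) m4, ?_⟩
    rw [redL_congr _ (add_mem (add_mem (add_mem m1 m2) m3) m4) e]
    change redL A (⟨_, m1⟩ + ⟨_, m2⟩ + ⟨_, m3⟩ + ⟨_, m4⟩) = _
    rw [map_add, map_add, map_add, r1, r2, r3, r4, (residue_eq_zero_iff _).mpr hεν,
      (residue_eq_zero_iff _).mpr hbμ]
    have e2 : redL A ⟨_, hX1 s⟩ =
        -((((jK A M ^ (sideDeg q s * n₀)) : KM A M) : LaurentSeries (Res A)) ^ (q - 1) *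
          redL A ⟨z s, hzl s⟩) := by
      have e' : (⟨_, hX1 s⟩ : locS A) =
          -(⟨_, hfl s⟩ * ((⟨_, hPloc s⟩ * ⟨_, hΦl s⟩) ^ (q - 1) * ⟨z s, hzl s⟩)) :=
        Subtype.ext (by push_cast; rw [map_mul (ι s) P Φ])
      rw [e', map_neg, map_mul, map_mul, map_pow, map_mul, hfr, hΦr, one_mul, mul_one,
        ← (red2_upF_jM_pow h n₀ s).2]
    have e4 : redL A ⟨_, hX3 s⟩ = (-1) ^ q * redL A ⟨z s, hzl s⟩ ^ q := by
      have e' : (⟨_, hX3 s⟩ : locS A) = ⟨_, hfl s⟩ * ((-1) ^ q * ⟨z s, hzl s⟩ ^ q) :=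
        Subtype.ext (by push_cast; rfl)
      rw [e', map_mul, map_mul, map_pow, map_pow, map_neg, map_one, hfr, one_mul]
    rw [e2, e4, hb₀, ha₀]
    simp only [← HahnSeries.C_mul_eq_smul, algebraMap_laurentSeries_eq_single, HahnSeries.C_apply,
      map_zero, zero_mul, zero_add, add_zero]
    simp only [← HahnSeries.C_apply, map_mul, map_pow, map_neg, map_one]
    ring
  choose hwl hwr using hw
  have hab : a₀ ≠ 0 ∨ b₀ ≠ 0 := by
    rcases hνc with e | e
    · left
      rw [ha₀, show (⟨μ ^ q / ν, haA⟩ : A) = 1 from Subtype.ext (by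
        show μ ^ q / ν = 1
        rw [e, div_self (pow_ne_zero _ hμ0)]), map_one, one_mul]
      exact pow_ne_zero _ (neg_ne_zero.mpr one_ne_zero)
    · right
      rw [hb₀, neg_ne_zero, show (⟨(q : QBar) * μ / ν, hbA⟩ : A) = 1 from Subtype.ext (by
        show (q : QBar) * μ / ν = 1
        rw [← e, div_self hν0]), map_one]
      exact one_ne_zero
  -- the pair of reductions of `Z`
  set Zl : loc2 A ι := ⟨Z, (mem_loc2 _).mpr fun s => hZz s ▸ hzl s⟩
  have hZr : ∀ s, red2 A ι Zl s = redL A ⟨z s, hzl s⟩ := fun s =>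
    (red2_apply ι Zl s).trans (redL_congr _ _ (hZz s))
  obtain ⟨a, b, ha, hb, hab', hglue⟩ := h.mem_glued.mp
    ((hn₀ (N + n₀) (by omega)).le (mem_redSub.mpr ⟨Zl, hZH, rfl⟩))
  have hBk : red2 A ι ⟨w, (mem_loc2 _).mpr hwl⟩ ∈ Pk A M q (q * n₀) :=
    red2_mem_Pk M q h.hqM h.hA h.hM hwH
  obtain ⟨hP0', hP1'⟩ := (mem_Pk A M).mp hBk
  have hca : serR A M a = redL A ⟨z 0, hzl 0⟩ := by rw [← hZr 0, hab', Matrix.cons_val_zero]
  have hcb : serR A M b = redL A ⟨z 1, hzl 1⟩ := by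
    rw [← hZr 1, hab', Matrix.cons_val_one, Matrix.cons_val_zero]
  have hw0 := ((red2_apply ι ⟨w, (mem_loc2 _).mpr hwl⟩ 0).trans (hwr 0))
  have hw1 := ((red2_apply ι ⟨w, (mem_loc2 _).mpr hwl⟩ 1).trans (hwr 1))
  rw [hw0, ← hca] at hP0'
  rw [hw1, ← hcb] at hP1'
  have ha' := mem_Hk_of_comb_mem hab ha (d := sideDeg q 0 * n₀) (by
    simpa only [sideDeg, Matrix.cons_val_zero, one_mul] using hP0')
  have hb' := mem_Hk_of_comb_mem hab hb (d := sideDeg q 1 * n₀) (by
    simpa only [sideDeg, Matrix.cons_val_one, Matrix.cons_val_zero] using hP1')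
  have hmem : red2 A ι Zl ∈ LD A h.hqM D n₀ := by
    rw [hn₀ n₀ le_rfl]
    exact h.mem_glued.mpr ⟨a, b, by simpa [sideDeg] using ha', by simpa [sideDeg] using hb', hab',
      hglue⟩
  exact hs₁ (hbest μ z hzl hμ0 hdiff ((funext hZr) ▸ hmem) s₁)

/-- **A flat class with a root close to one is trivial.** -/
theorem principal_of_small {D : Divisor QBar (FB (q * M))} (f : FB (q * M))
    (hord : ∀ v, v.ord f = (q : ℤ) * D v) (hf : HasUnitRed A M q h.hqM f) {lam : QBar}
    (hlam : A.valuation (lam ^ (q - 1)) = A.valuation (q : QBar)) {φ : FB (q * M)} {n : ℕ}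
    (hφ : φ ∈ HD M q D n) {π : QBar} (hπ : A.valuation π < A.valuation (lam ^ q))
    (hs : ∀ s, IsSmall A π (iota2 M q h.hqM s (f * φ ^ q) - 1)) :
    D ∈ Divisor.principal (K := QBar) (F := FB (q * M)) := by
  obtain ⟨c, hc, hca⟩ := h.exists_isGlue hq.out.ne_zero ⟨f, hf.1⟩ hord (fun _ => 1)
    (fun _ => one_ne_zero) (fun s => (congrFun hf.2 s).trans (map_one _).symm)
  have hc1 : c = 1 := funext fun χ => frobenius_inj (Res A) q (by
    rw [frobenius_def, frobenius_def, Pi.one_apply, one_pow]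
    simpa using hca χ)
  subst hc1
  obtain ⟨n₀, hn₀⟩ := hc
  set P := upF M q (jM M) ^ n₀ with hP
  have hj0 : upF M q (jM M) ≠ 0 := fun h0 => by
    have := transcendental_upF_jM (M := M) (q := q)
    rw [h0] at this
    exact this isAlgebraic_zero
  have hPH : P ^ q ∈ HN M q (q * n₀) := by
    rw [RedTorsion.mem_polesSpace]
    intro v
    refine FF.mem_ordGe_of_le v ?_
    rw [FF.ord_pow, hP, FF.ord_pow, FF.poles_apply]
    have h1 := le_max_right (0 : ℤ) (-v.ord (upF M q (jM M)))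
    push_cast
    nlinarith [Int.natCast_nonneg q, Int.natCast_nonneg n₀,
      mul_nonneg (Int.natCast_nonneg q) (Int.natCast_nonneg n₀)]
  have hq0 : (q : QBar) ≠ 0 := Nat.cast_ne_zero.mpr hq.out.ne_zero
  obtain ⟨x, hx, hxe⟩ := exists_pow_eq_of_approx h.hA (iota2 M q h.hqM) (iota2_fracS M q h.hqM)
    (HD M q D n₀) (HN M q (q * n₀)) q f (P ^ q)
    (fun y hy => Submodule.sub_mem _ (by rw [mul_comm f]; exact pow_mul_mem_HN hy hord) hPH)
    (fun γ hγ => by
      obtain ⟨ε, hε0, hεn, hεγ⟩ : ∃ ε : QBar, ε ≠ 0 ∧ ε ∈ A.nonunits ∧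
          A.valuation ε ≤ A.valuation γ := by
        rcases le_total (A.valuation γ) (A.valuation (q : QBar)) with hle | hle
        · exact ⟨γ, hγ, nonunits_of_valuation_le h.hA hle, le_rfl⟩
        · exact ⟨q, hq0, h.hA, hle⟩
      obtain ⟨N, Φ, hΦ, hΦs⟩ := exists_approx_all h.hA hord hf hlam hφ hπ hs hε0
      exact exists_bounded_approx h hn₀ hord hf hεn hεγ hΦ hΦs)
  have hP0 : P ≠ 0 := pow_ne_zero _ hj0
  have hx0 : x ≠ 0 := fun h0 => pow_ne_zero q hP0
    (by rw [← hxe, h0, zero_pow hq.out.ne_zero, mul_zero])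
  have hfe : f = (P / x) ^ q := by rw [div_pow, ← hxe, mul_div_cancel_right₀ _ (pow_ne_zero _ hx0)]
  refine ⟨P / x, div_ne_zero hP0 hx0, fun v => ?_⟩
  have := hord v
  rw [hfe, FF.ord_pow] at this
  exact (mul_left_cancel₀ (by exact_mod_cast hq.out.ne_zero) this).symm

end Fermat.Agent.OrdinaryAtP

end
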