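import Fermat.Agent.OrdinaryAtP.Flat.Push
import Fermat.Agent.OrdinaryAtP.Flat.Basics
import Fermat.Agent.Semistable.LocalTheory

/-!
# Inertia acts on flat new classes of order `q` by the cyclotomic character

From a threshold section of a class, inertia multiplies the leading error by the residue of
`τ λ / λ`, so a combination of the class and its conjugate has error below the threshold.
-/

set_option autoImplicit false
set_option linter.unusedSectionVars false

noncomputable section

namespace Fermat.Agent.OrdinaryAtP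

open AlgebraicCurve ModularCurve Semistable JacTorsion
open Arith (QBar GQ)

theorem exists_one_add_pow {R : Type*} [CommRing R] (y : R) (k : ℕ) :
    ∃ r, (1 + y) ^ k = 1 + (k : R) * y + y ^ 2 * r := by
  induction k with
  | zero => exact ⟨0, by simp⟩
  | succ k ih =>
    obtain ⟨r, hr⟩ := ih
    exact ⟨(k : R) + r + y * r, by rw [pow_succ, hr]; push_cast; ring⟩

variable {A : ValuationSubring QBar} {q : ℕ} [hq : Fact q.Prime] {M : ℕ} [NeZero M]

theorem divQuot_smulDiv {m : ℕ} [NeZero m] (g : SemilinearAut QBar (FB (q * M)))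
    (f : divGrp QBar (FB (q * M)) m) : divQuot (smulDiv g f) = g • divQuot f := by
  refine eq_of_smul_eq (m := m) ?_
  rw [smul_comm (m : ℤ) g, smul_divQuot, smul_divQuot]
  refine Finsupp.ext fun w => ?_
  rw [SemilinearAut.divisor_smul_apply, JacTorsion.div_apply, JacTorsion.div_apply, coe_smulDiv]
  conv_lhs => rw [← smul_inv_smul g w, SemilinearAut.ord_smul]

theorem divQuot_pow {m : ℕ} [NeZero m] (f : divGrp QBar (FB (q * M)) m) (k : ℕ) :
    divQuot (f ^ k) = k • divQuot f := by
  induction k with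
  | zero =>
    rw [zero_smul, pow_zero]
    have h := divQuot_mul (1 : divGrp QBar (FB (q * M)) m) 1
    rw [mul_one, left_eq_add] at h
    exact h
  | succ k ih => rw [pow_succ, divQuot_mul, ih, succ_nsmul]

theorem kclass_pow {m : ℕ} [NeZero m] (f : divGrp QBar (FB (q * M)) m) (k : ℕ) :
    kclass q M (f ^ k) = k • kclass q M f := by
  induction k with
  | zero => rw [pow_zero, kclass_one]; exact (zero_nsmul _).symm
  | succ k ih => rw [pow_succ, kclass_mul, ih, succ_nsmul]

theorem ord_eq_mul_divQuot {m : ℕ} [NeZero m] (f : divGrp QBar (FB (q * M)) m)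
    (v : Place QBar (FB (q * M))) :
    v.ord ((f : (FB (q * M))ˣ) : FB (q * M)) = (m : ℤ) * divQuot f v := by
  rw [← JacTorsion.div_apply, ← smul_divQuot f, Finsupp.smul_apply, smul_eq_mul]

theorem kclass_eq_zero_of_principal {m : ℕ} [NeZero m] (f : divGrp QBar (FB (q * M)) m)
    (hf : divQuot f ∈ Divisor.principal (K := QBar) (F := FB (q * M))) : kclass q M f = 0 :=
  (QuotientAddGroup.eq_zero_iff (⟨divQuot f, divQuot_mem_degZero f⟩ :
    Divisor.degZero (K := QBar) (F := FB (q * M)))).mpr (AddSubgroup.mem_addSubgroupOf.mpr hf)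

theorem pow_mem_HD {D : Divisor QBar (FB (q * M))} {n : ℕ} {x : FB (q * M)}
    (hx : x ∈ HD M q D n) {y : FB (q * M)} {D' : Divisor QBar (FB (q * M))} {n' : ℕ}
    (hy : y ∈ HD M q D' n') (k : ℕ) : y * x ^ k ∈ HD M q (D' + k • D) (n' + k * n) := by
  induction k with
  | zero => simpa using hy
  | succ k ih =>
    rw [pow_succ, ← mul_assoc, succ_nsmul, ← add_assoc, Nat.succ_mul, ← add_assoc]
    exact mul_mem_HD ih hx

theorem iota2_galF (hqM : ¬ q ∣ M) (σ : GQ) (s : Fin 2) (x : FB (q * M)) :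
    iota2 M q hqM s (galF (q * M) σ x) = coeffMap (σ : QBar →+* QBar) (iota2 M q hqM s x) := by
  fin_cases s
  · exact coe_arithmeticRingAut σ x
  · refine (iota2_one M q hqM _).trans ?_
    rw [wEquiv_galois, coe_arithmeticRingAut]
    exact congrArg _ (iota2_one M q hqM x).symm

variable [CharP (Res A) q] [FF.IsFunctionField (Res A) (KM A M)] (h : Setup A M q)
include h

/-- **Inertia is scalar on a class with a threshold section**, given that sections below the
threshold make a class principal. -/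
theorem galois_kclass_eq_nsmul {lam : QBar}
    (hlam : A.valuation (lam ^ (q - 1)) = A.valuation (q : QBar))
    (hPrincipal : ∀ {D : Divisor QBar (FB (q * M))} (g : FB (q * M)),
      (∀ v, v.ord g = (q : ℤ) * D v) → HasUnitRed A M q h.hqM g →
      ∀ {φ : FB (q * M)} {n : ℕ}, φ ∈ HD M q D n →
      ∀ {π : QBar}, A.valuation π < A.valuation (lam ^ q) →
      (∀ s, IsSmall A π (iota2 M q h.hqM s (g * φ ^ q) - 1)) →
      D ∈ Divisor.principal (K := QBar) (F := FB (q * M)))
    (f : divGrp QBar (FB (q * M)) q)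
    (hf : HasUnitRed A M q h.hqM ((f : (FB (q * M))ˣ) : FB (q * M)))
    {φ : FB (q * M)} {n : ℕ} (hφ : φ ∈ HD M q (divQuot f) n)
    (hsm : ∀ s, IsSmall A (lam ^ q)
      (iota2 M q h.hqM s (((f : (FB (q * M))ˣ) : FB (q * M)) * φ ^ q) - 1))
    {τ : GQ} (hτ : τ ∈ A.inertiaSubgroupIn ℚ) {b : ℕ}
    (hb : ∃ hu : τ lam / lam ∈ A, IsLocalRing.residue A ⟨_, hu⟩ = (b : Res A)) :
    τ • kclass q M f = b • kclass q M f := by
  classical
  obtain ⟨hu, hur⟩ := hb
  have hres := resLift_of_inertia hτ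
  set g := arithmeticGalois (modularFunctionFieldFull (q * M)) τ with hg
  set x : FB (q * M) := ((f : (FB (q * M))ˣ) : FB (q * M)) with hx
  set b' : ℕ := (q - 1) * b with hb'
  set f' : divGrp QBar (FB (q * M)) q := smulDiv g f * f ^ b' with hf'
  have hx' : ((f' : (FB (q * M))ˣ) : FB (q * M)) = galF (q * M) τ x * x ^ b' := by
    rw [hf', Subgroup.coe_mul, Units.val_mul, coe_smulDiv, SubmonoidClass.coe_pow,
      Units.val_pow_eq_pow_val, hg, galois_smul_eq_galF]
  have hf'red : HasUnitRed A M q h.hqM ((f' : (FB (q * M))ˣ) : FB (q * M)) := by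
    rw [hx']
    refine HasUnitRed.mul h.hqM ?_ (hf.pow h.hqM b')
    obtain ⟨hl, hr⟩ := hf
    obtain ⟨hl', hr'⟩ := hres.galF_mem_loc2 M q h.hqM ⟨x, hl⟩
    exact ⟨hl', funext fun s => by rw [hr' s, hr, Pi.one_apply, map_one]⟩
  have hφ' : galF (q * M) τ φ * φ ^ b' ∈ HD M q (divQuot f') (n + b' * n) := by
    rw [hf', divQuot_mul, divQuot_smulDiv, divQuot_pow]
    exact pow_mem_HD hφ (galois_mem_HD τ hφ) b'
  have hl0 : lam ≠ 0 := ne_zero_of_valuation_pow hlam
  set L := lam ^ q with hL
  set u := τ lam / lam with hu'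
  have hLn : L ∈ A.nonunits := by
    rw [ValuationSubring.mem_nonunits_iff, hL, map_pow]
    exact pow_lt_one₀ zero_le ((ValuationSubring.mem_nonunits_iff A).mp
      (mem_nonunits_of_valuation_pow h.hA hlam)) hq.out.ne_zero
  have hLA : L ∈ A := Arith.mem_of_mem_nonunits hLn
  have hτL : τ L = L * u ^ q := by
    rw [hL, hu', map_pow, div_pow, mul_div_cancel₀ _ (pow_ne_zero _ hl0)]
  choose δ hδl hδ using hsm
  choose hδ' hδr using fun s => hres.redL_coeffMap (hδl s)
  set R := fun s : Fin 2 => algebraMap QBar LSer (u ^ q) *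
    coeffMap (τ : QBar →+* QBar) (δ s) with hR
  have hRl : ∀ s, R s ∈ locS A := fun s =>
    mul_mem (algebraMap_mem_locS (pow_mem hu q)) (hδ' s)
  have key : ∀ s, ∃ r ∈ locS A,
      iota2 M q h.hqM s (((f' : (FB (q * M))ˣ) : FB (q * M)) *
        (galF (q * M) τ φ * φ ^ b') ^ q) - 1 =
      algebraMap QBar LSer L * (R s + (b' : LSer) * δ s + algebraMap QBar LSer L * r) := by
    intro s
    set y : locS A := ⟨_, algebraMap_mem_locS hLA⟩ * ⟨δ s, hδl s⟩ with hy
    obtain ⟨r, hr⟩ := exists_one_add_pow y b'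
    have hr' : (1 + algebraMap QBar LSer L * δ s) ^ b' = 1 + (b' : LSer) *
        (algebraMap QBar LSer L * δ s) + (algebraMap QBar LSer L * δ s) ^ 2 * (r : LSer) := by
      have := congrArg Subtype.val hr
      push_cast [hy] at this
      exact this
    refine ⟨R s * ((b' : LSer) * δ s + algebraMap QBar LSer L * δ s ^ 2 * (r : LSer)) +
      δ s ^ 2 * (r : LSer), ?_, ?_⟩
    · exact add_mem (mul_mem (hRl s) (add_mem (mul_mem (natCast_mem _ _) (hδl s))
        (mul_mem (mul_mem (algebraMap_mem_locS hLA) (pow_mem (hδl s) 2)) r.2)))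
        (mul_mem (pow_mem (hδl s) 2) r.2)
    have e1 : iota2 M q h.hqM s (x * φ ^ q) = 1 + algebraMap QBar LSer L * δ s := by
      rw [← hδ s]; ring
    have e2 : iota2 M q h.hqM s (galF (q * M) τ (x * φ ^ q)) =
        1 + algebraMap QBar LSer L * R s := by
      rw [iota2_galF, e1, map_add, map_one, map_mul, coeffMap_algebraMap, RingHom.coe_coe, hτL,
        map_mul (algebraMap QBar LSer), hR]
      ring
    rw [hx', show galF (q * M) τ x * x ^ b' * (galF (q * M) τ φ * φ ^ b') ^ q =
      galF (q * M) τ (x * φ ^ q) * (x * φ ^ q) ^ b' by rw [map_mul, map_pow]; ring,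
      map_mul, map_pow, e1, e2, hr']
    ring
  choose r hrl hr using key
  set W := fun s => R s + (b' : LSer) * δ s + algebraMap QBar LSer L * r s with hW
  have hWl : ∀ s, W s ∈ locS A := fun s => add_mem (add_mem (hRl s)
    (mul_mem (natCast_mem _ _) (hδl s))) (mul_mem (algebraMap_mem_locS hLA) (hrl s))
  have hW0 : ∀ s, redL A ⟨W s, hWl s⟩ = 0 := by
    intro s
    rw [show (⟨W s, hWl s⟩ : locS A) = ⟨_, algebraMap_mem_locS (pow_mem hu q)⟩ * ⟨_, hδ' s⟩ +
      (b' : locS A) * ⟨δ s, hδl s⟩ + ⟨_, algebraMap_mem_locS hLA⟩ * ⟨r s, hrl s⟩ from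
      Subtype.ext (by push_cast [hW, hR]; rfl), map_add, map_add, map_mul, map_mul, map_mul,
      redL_algebraMap hLA, (residue_eq_zero_iff hLA).mpr hLn, map_zero, zero_mul, add_zero,
      hδr s, coeffMap_id, redL_algebraMap (pow_mem hu q),
      show (⟨u ^ q, pow_mem hu q⟩ : A) = ⟨u, hu⟩ ^ q from rfl, map_pow (IsLocalRing.residue A),
      hur, map_natCast, ← add_mul]
    have hbq : (b : Res A) ^ q = (b : Res A) := by
      rw [← frobenius_def, map_natCast]
    rw [hbq, map_natCast, ← Nat.cast_add, hb', add_comm b, ← Nat.succ_mul, Nat.succ_eq_add_one,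
      Nat.sub_add_cancel hq.out.pos, Nat.cast_mul, ← map_natCast
        (algebraMap (Res A) (LaurentSeries (Res A))) q, CharP.cast_eq_zero, map_zero, zero_mul,
      zero_mul]
  choose γ hγn hγ using fun s => exists_isSmall_of_redL_eq_zero h.hA (hWl s) (hW0 s)
  obtain ⟨γ₀, hγ₀n, hγ₀⟩ : ∃ γ₀ ∈ A.nonunits, ∀ s, A.valuation (γ s) ≤ A.valuation γ₀ := by
    obtain ⟨s₀, -, hmax⟩ := Finset.univ.exists_max_image (fun s => A.valuation (γ s))
      ⟨0, Finset.mem_univ _⟩
    exact ⟨γ s₀, hγn s₀, fun s => hmax s (Finset.mem_univ s)⟩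
  have hprin : divQuot f' ∈ Divisor.principal (K := QBar) (F := FB (q * M)) := by
    refine hPrincipal _ (ord_eq_mul_divQuot f') hf'red hφ' (π := L * γ₀) ?_ fun s => ?_
    · rw [map_mul]
      exact mul_lt_of_lt_one_right (zero_lt_iff.mpr ((Valuation.ne_zero_iff _).mpr
        (pow_ne_zero _ hl0))) ((ValuationSubring.mem_nonunits_iff A).mp hγ₀n)
    · rw [hr s]
      exact (((hγ s).mono (hγ₀ s))).const_mul L
  have h0 := kclass_eq_zero_of_principal f' hprin
  have hk : (q : ℕ) • kclass q M f = 0 := by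
    rw [← natCast_zsmul]; exact smul_kclass_eq_zero f
  rw [hf', kclass_mul, kclass_pow, ← galois_kclass] at h0
  rw [eq_neg_of_add_eq_zero_left h0, neg_eq_iff_add_eq_zero, ← add_nsmul, hb', ← Nat.succ_mul,
    Nat.succ_eq_add_one, Nat.sub_add_cancel hq.out.pos, mul_comm q b, mul_nsmul', hk,
    smul_zero]

end Fermat.Agent.OrdinaryAtP

end
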