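import Fermat.Agent.OrdinaryAtP.Flat.Threshold
import Fermat.Agent.OrdinaryAtP.Flat.ApproxRoot
import Fermat.Agent.OrdinaryAtP.Flat.KMRoot
import Fermat.Agent.OrdinaryAtP.Flat.Scalar
import Fermat.Agent.OrdinaryAtP.Flat.Principal
import Fermat.Agent.OrdinaryAtP.Flat.Lam
import Fermat.Agent.OrdinaryAtP.Flat.Moved
import Fermat.Agent.OrdinaryAtP.Flat.NoQuotient
import Fermat.Agent.OrdinaryAtP.Flat.GoodLevel
import Fermat.Agent.Semistable.Torsion

/-!
# Inertia on flat new classes killed by `q`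

Inertia acts on the flat new classes of order `q` by the character `τ ↦ τ ζ = ζ ^ b`; so for odd `q`
some element is `-1` there, and for `q = 2` the action is trivial.
-/

set_option autoImplicit false
set_option synthInstance.maxHeartbeats 400000
set_option maxHeartbeats 1000000
set_option linter.unusedSectionVars false

noncomputable section

namespace Fermat.Agent.OrdinaryAtP

open AlgebraicCurve ModularCurve Semistable JacTorsion
open Arith (QBar GQ)
open scoped Pointwise

variable {A : ValuationSubring QBar} {q M : ℕ} [hq : Fact q.Prime] [NeZero M] (hqM : ¬ q ∣ M)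

/-- **Inertia is scalar on flat new classes killed by `q`.** -/
theorem galois_flatNew_eq_nsmul (hA : A.LiesOverPrime q) {ζ : QBar} (hζ : IsPrimitiveRoot ζ q)
    {τ : GQ} (hτ : τ ∈ A.inertiaSubgroupIn ℚ) {b : ℕ} (hb : τ ζ = ζ ^ b)
    {x : Pic0 QBar (FB (q * M))} (hx : x ∈ flatNew A q M hqM q) : τ • x = b • x := by
  haveI := Arith.residueField_charP hA hq.out
  have h := Semistable.setup hA hqM
  have hM : (M : Res A) ≠ 0 := fun h0 => hqM ((CharP.cast_eq_zero_iff (Res A) q M).mp h0)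
  haveI := isFunctionField_KM A hM
  obtain ⟨f, rfl, hf, hN⟩ := (mem_flatNew A q M hqM).mp hx
  have hlam := valuation_sub_one_pow (A := A) hζ
  have hl0 : ζ - 1 ≠ 0 := sub_ne_zero.mpr (hζ.ne_one hq.out.one_lt)
  obtain ⟨n, φ, hφ, hsm⟩ := exists_threshold_of_approx h (fun _ hz => mem_KM_of_pow_mem hM hz)
    hlam (ord_eq_mul_divQuot f) hf le_rfl (exists_approxRoot hA hf hN (pow_ne_zero q hl0))
  exact galois_kclass_eq_nsmul h hlam
    (fun g hg hgr _ _ hφ _ hπ hs => principal_of_small h g hg hgr hlam hφ hπ hs)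
    f hf hφ hsm hτ (residue_apply_div hA hζ hb)

/-- For odd `q` some inertia element inverts the roots of unity of order `q` and is `-1` on the
flat new classes killed by `q`. -/
theorem exists_neg_on_flatNew (hA : A.LiesOverPrime q) :
    ∃ τ ∈ A.inertiaSubgroupIn ℚ, (∀ μ : QBar, μ ^ q = 1 → τ μ = μ⁻¹) ∧
      ∀ x ∈ flatNew A q M hqM q, τ • x = -x := by
  obtain ⟨ζ, hζ⟩ := HasEnoughRootsOfUnity.exists_primitiveRoot QBar q
  obtain ⟨τ, hτ, hinv⟩ := Mazur.Eisenstein.exists_inertia_inv hA hq.out 1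
  simp only [pow_one] at hinv
  refine ⟨τ, hτ, hinv, fun x hx => ?_⟩
  have hb : τ ζ = ζ ^ (q - 1) := by
    rw [hinv ζ hζ.pow_eq_one]
    refine inv_eq_of_mul_eq_one_right ?_
    rw [← pow_succ', Nat.sub_add_cancel hq.out.pos, hζ.pow_eq_one]
  rw [galois_flatNew_eq_nsmul hqM hA hζ hτ hb hx, eq_neg_iff_add_eq_zero, ← succ_nsmul,
    Nat.sub_add_cancel hq.out.pos]
  obtain ⟨f, rfl, -⟩ := (mem_flatNew A q M hqM).mp hx
  rw [← natCast_zsmul]
  exact smul_kclass_eq_zero f

/-- At `q = 2` inertia fixes the flat new classes killed by `2`. -/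
theorem inertia_fixes_flatNew_two [Fact (Nat.Prime 2)] {M : ℕ} [NeZero M] (h2M : ¬ 2 ∣ M)
    (hA : A.LiesOverPrime 2) {τ : GQ} (hτ : τ ∈ A.inertiaSubgroupIn ℚ)
    {x : Pic0 QBar (FB (2 * M))} (hx : x ∈ flatNew A 2 M h2M 2) : τ • x = x := by
  have hζ : IsPrimitiveRoot (-1 : QBar) 2 := IsPrimitiveRoot.neg_one 0 (by norm_num)
  have := galois_flatNew_eq_nsmul (q := 2) h2M hA hζ hτ (b := 1)
    (by rw [map_neg, map_one, pow_one]) hx
  rwa [one_nsmul] at this

include hqM in
/-- **No trivial quotient at an odd prime exactly dividing the level.** -/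
theorem noTrivialQuotient_levelMul (hq3 : 3 ≤ q) (hA : A.LiesOverPrime q)
    (hord : Mazur.Eisenstein.OrderProperty M) : NoTrivialQuotient A (q * M) q := by
  haveI := Arith.residueField_charP hA hq.out
  obtain ⟨τ, hτ, -, hneg⟩ := exists_neg_on_flatNew hqM hA
  exact noTrivialQuotient_of_parts hqM (by omega) (exists_flat_of_moved hA) ⟨τ, hτ, hneg⟩
    (noTrivialQuotient_of_order hq3 hord hqM hA)

end Fermat.Agent.OrdinaryAtP

end
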