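import Fermat.Agent.OrdinaryAtP.Flat.PushHecke
import Fermat.Agent.GaloisReps.Models
import Fermat.Agent.Carayol.Consumer

/-!
# The systems of newforms are killed by both push forwards
-/

set_option autoImplicit false

noncomputable section

namespace Fermat.Agent.OrdinaryAtP

open AlgebraicCurve ModularCurve Semistable CongruenceSubgroup
open GaloisReps (FullHecke toFull latticeMat)
open Arith (QBar)

variable {q M : ℕ} [hq : Fact q.Prime] [NeZero M]
  {O : Type*} [CommRing O] [IsDomain O] [IsDiscreteValuationRing O]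

/-- The functionals of the vectors of the system of a newform of level `q M` are new. -/
theorem push_eigen_eq_zero_of_newform (hqM : ¬ q ∣ M) {g : CuspForm (Gamma0 (q * M)) 2}
    (hg : g.IsNewform) (θ : FullHecke (q * M) →+* O)
    (hθ : ∀ b, θ b = 0 → ConductorLevel.eigenChar hg.1 ∅ b = 0)
    (hqO : (q : O) ∈ IsLocalRing.maximalIdeal O)
    {v : Fin (2 * Gamma0.genus (q * M)) → O}
    (hv : v ∈ GaloisReps.eigenspace (latticeMat (q * M)) θ) (lam : O →+ ℤ_[q]) (n : ℕ) :
    pushUp q M (point (GaloisReps.torsionIso (q * M) q (GaloisReps.conjProperty _)) n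
        (lam ∘ v)) = 0 ∧
      pushW q M hqM (point (GaloisReps.torsionIso (q * M) q (GaloisReps.conjProperty _)) n
        (lam ∘ v)) = 0 := by
  have hne : M ≠ q * M := fun h => hq.out.one_lt.ne' ((mul_eq_right₀ (NeZero.ne M)).mp h.symm)
  obtain ⟨t, ht, htg⟩ := Carayol.exists_good_killsOld hg (dvd_mul_left M q) hne
    (q * M).primeFactors (fun l _ hlN hlS => absurd (Nat.dvd_of_mem_primeFactors hlS) hlN)
  exact push_eigen_eq_zero hqM (fun N _ => GaloisReps.congruenceProperty N q) _
    (Nat.mem_primeFactors.mpr ⟨hq.out, dvd_mul_right q M, NeZero.ne _⟩)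
    (fun l hl hlN => Nat.mem_primeFactors.mpr ⟨hl, hlN, NeZero.ne _⟩)
    t ht θ hqO (fun h => htg (hθ _ h)) hv lam n

end Fermat.Agent.OrdinaryAtP

end
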