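import Fermat.Agent.CFT.Tangent.LocalPlace
import Fermat.Agent.EC.Rep.Local.Line
import Mathlib.RingTheory.Filtration
import Mathlib.FieldTheory.Normal.Closure

/-!
# Strict ordinarity from a line on whose quotient Frobenius has square one

A line stable under the decomposition group, with inertia and the squares of the Frobenius
elements trivial on the quotient: by continuity the quotient character of the decomposition group
has square one, so a cyclotomic determinant gives strict ordinarity.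
-/

set_option autoImplicit false

noncomputable section

namespace Fermat.Agent.OrdinaryAtP

open scoped Pointwise
open Arith (QBar GQ)

/-- On a finite level a decomposition group is generated by a Frobenius element and inertia. -/
theorem exists_frobenius_pow_mul_inertia {q : ℕ} (hq : q.Prime) {P : ValuationSubring QBar}
    (hP : P.LiesOverPrime q) (L : IntermediateField ℚ QBar) [FiniteDimensional ℚ L] {φ : GQ}
    (hφ : P.IsFrobeniusAt φ q) {σ : GQ} (hσ : σ ∈ P.decompositionSubgroup ℚ) :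
    ∃ i : ℕ, ∃ τ ∈ P.inertiaSubgroupIn ℚ, ∀ x ∈ L, σ x = (φ ^ i * τ) x := by
  have : Fact q.Prime := ⟨hq⟩
  obtain ⟨g, hg⟩ := Arith.exists_smul_eq hP (CFT.Local.padicPlace_liesOverPrime q) hq
  let L' : IntermediateField ℚ QBar := L.map (g : QBar →ₐ[ℚ] QBar)
  have : FiniteDimensional ℚ L' :=
    Module.Finite.equiv (L.equivMap (g : QBar →ₐ[ℚ] QBar)).toLinearEquiv
  have hd : g * σ * g⁻¹ ∈ (padicPlace q).decompositionSubgroup ℚ := by
    show (g * σ * g⁻¹) • padicPlace q = padicPlace q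
    rw [← hg, mul_smul, mul_smul, inv_smul_smul, show σ • P = P from hσ]
  have : Normal ℚ (IntermediateField.normalClosure ℚ L' QBar) := normalClosure.normal ℚ L' QBar
  have : FiniteDimensional ℚ (IntermediateField.normalClosure ℚ L' QBar) :=
    normalClosure.is_finiteDimensional ℚ L' QBar
  obtain ⟨i, τ, hτ, he⟩ := CFT.Tangent.exists_frobenius_mul_inertia
    (IntermediateField.normalClosure ℚ L' QBar) (hg ▸ Arith.isFrobeniusAt_conj (g := g) hφ) hd
  refine ⟨i, g⁻¹ * τ * g, ?_, fun x hx => ?_⟩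
  · have := (Arith.mem_inertia_smul_iff (g := g⁻¹)).mpr hτ
    rwa [← hg, inv_smul_smul, inv_inv] at this
  · have h1 := congrArg (g⁻¹ : GQ) (he (g x) (L'.le_normalClosure ⟨x, hx, rfl⟩))
    rw [← AlgEquiv.mul_apply, ← AlgEquiv.mul_apply, ← AlgEquiv.mul_apply,
      ← AlgEquiv.mul_apply] at h1
    have e1 : g⁻¹ * (g * σ * g⁻¹) * g = σ := by group
    have e2 : g⁻¹ * ((g * φ * g⁻¹) ^ i * τ) * g = φ ^ i * (g⁻¹ * τ * g) := by
      rw [conj_pow]; group
    rwa [e1, e2] at h1

variable {T : Type} [CommRing T] [IsLocalRing T] [IsNoetherianRing T]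

omit [IsLocalRing T] [IsNoetherianRing T] in
/-- Coordinates of a vector congruent to zero. -/
theorem repr_mem_of_mem_smul_top {V : Type} [AddCommGroup V] [Module T V]
    (b : Module.Basis (Fin 2) T V) (I : Ideal T) {v : V} (hv : v ∈ I • (⊤ : Submodule T V))
    (i : Fin 2) : b.repr v i ∈ I := by
  refine Submodule.smul_induction_on (p := fun w => b.repr w i ∈ I) hv (fun a ha w _ => ?_)
    fun x y hx hy => ?_
  · rw [map_smul, Finsupp.smul_apply, smul_eq_mul]
    exact I.mul_mem_right _ ha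
  · rw [map_add, Finsupp.add_apply]
    exact I.add_mem hx hy

/-- **Strict ordinarity** from lines with unramified quotient on which Frobenius has square
one. -/
theorem isStrictOrdinaryAt_of_lines {q : ℕ} (hq : q.Prime) (ρ : GaloisRepAdic T)
    (hdet : ρ.DetIsCyclotomic q)
    (h : ∀ P : ValuationSubring QBar, P.LiesOverPrime q →
      ∃ L : Submodule T ρ.V, (∃ b : Module.Basis (Fin 2) T ρ.V, L = T ∙ b 0) ∧
        (∀ σ ∈ P.decompositionSubgroup ℚ, ∀ v ∈ L, ρ.ρ σ v ∈ L) ∧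
        (∀ σ ∈ P.inertiaSubgroupIn ℚ, ∀ v : ρ.V, ρ.ρ σ v - v ∈ L) ∧
        (∀ σ : GQ, P.IsFrobeniusAt σ q → ∀ v : ρ.V, ρ.ρ (σ * σ) v - v ∈ L)) :
    ρ.IsStrictOrdinaryAt q := by
  refine EC.Rep.isStrictOrdinaryAt_of_lines ρ hdet fun P hP => ?_
  obtain ⟨L, ⟨b, rfl⟩, hD, hI, hF⟩ := h P hP
  have hb0 : b 0 ∈ T ∙ b 0 := Submodule.mem_span_singleton_self _
  have hL : ∀ v, v ∈ T ∙ b 0 ↔ b.repr v 1 = 0 := by
    refine fun v => ⟨fun hv => ?_, fun hv => ?_⟩
    · obtain ⟨c, rfl⟩ := Submodule.mem_span_singleton.mp hv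
      simp
    · refine Submodule.mem_span_singleton.mpr ⟨b.repr v 0, ?_⟩
      conv_rhs => rw [← b.sum_repr v, Fin.sum_univ_two, hv, zero_smul, add_zero]
  let z : GQ → T := fun σ => b.repr (ρ.ρ σ (b 1)) 1
  have hz : ∀ σ ∈ P.decompositionSubgroup ℚ, ∀ v : ρ.V, ρ.ρ σ v - z σ • v ∈ T ∙ b 0 := by
    intro σ hσ v
    rw [hL, map_sub, map_smul, Finsupp.sub_apply, Finsupp.smul_apply, smul_eq_mul]
    conv_lhs => rw [← b.sum_repr v]
    simp only [Fin.sum_univ_two, map_add, map_smul, Finsupp.add_apply, Finsupp.smul_apply,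
      (hL _).mp (hD σ hσ _ hb0), smul_eq_mul, mul_zero, zero_add, Module.Basis.repr_self,
      Finsupp.single_apply, z]
    simp [mul_comm]
  have hzmul : ∀ σ ∈ P.decompositionSubgroup ℚ, ∀ τ : GQ, z (σ * τ) = z σ * z τ := by
    intro σ hσ τ
    have h1 := (hL _).mp (hz σ hσ (ρ.ρ τ (b 1)))
    rw [map_sub, map_smul, Finsupp.sub_apply, Finsupp.smul_apply, smul_eq_mul, sub_eq_zero] at h1
    show b.repr (ρ.ρ (σ * τ) (b 1)) 1 = _
    rw [map_mul, Module.End.mul_apply]
    exact h1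
  have hz_of : ∀ σ : GQ, (∀ v : ρ.V, ρ.ρ σ v - v ∈ T ∙ b 0) → z σ = 1 := fun σ hσ => by
    have h1 := (hL _).mp (hσ (b 1))
    rw [map_sub, Finsupp.sub_apply, sub_eq_zero] at h1
    show b.repr (ρ.ρ σ (b 1)) 1 = 1
    rw [h1]
    simp
  obtain ⟨φ, hφ⟩ := Arith.exists_isFrobeniusAt hP hq
  have hφD := hφ.mem_decompositionSubgroup
  have hφ2 : z φ * z φ = 1 := by rw [← hzmul φ hφD]; exact hz_of _ (hF φ hφ)
  have hpow : ∀ i : ℕ, z (φ ^ i) * z (φ ^ i) = 1 := by
    intro i
    induction i with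
    | zero =>
      rw [pow_zero]
      have : z 1 = 1 := hz_of 1 fun v => by rw [map_one, Module.End.one_apply, sub_self]; exact zero_mem _
      rw [this, one_mul]
    | succ i ih =>
      rw [pow_succ', hzmul φ hφD, mul_mul_mul_comm, ih, hφ2, one_mul]
  refine ⟨b, hI, fun σ hσ => ⟨hD σ hσ _ hb0, z σ, ?_, hz σ hσ⟩⟩
  suffices hn : ∀ n : ℕ, z σ * z σ - 1 ∈ IsLocalRing.maximalIdeal T ^ n by
    have hmem : z σ * z σ - 1 ∈ ⨅ n : ℕ, IsLocalRing.maximalIdeal T ^ n := Submodule.mem_iInf _ |>.mpr hn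
    rw [Ideal.iInf_pow_eq_bot_of_isLocalRing _ (IsLocalRing.maximalIdeal.isMaximal T).ne_top,
      Ideal.mem_bot, sub_eq_zero] at hmem
    exact hmem
  intro n
  obtain ⟨K, hK, hKρ⟩ := ρ.isAdicContinuous n
  have : FiniteDimensional ℚ K := hK
  obtain ⟨i, τ, hτ, he⟩ := exists_frobenius_pow_mul_inertia hq hP K hφ hσ
  set g : GQ := φ ^ i * τ
  have hfix : ∀ x ∈ K, (g⁻¹ * σ) x = x := fun x hx => by
    rw [AlgEquiv.mul_apply, he x hx, ← AlgEquiv.mul_apply, inv_mul_cancel, AlgEquiv.one_apply]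
  have h1 : ρ.ρ σ (b 1) - ρ.ρ g (b 1) ∈
      (IsLocalRing.maximalIdeal T ^ n) • (⊤ : Submodule T ρ.V) := by
    have h2 := hKρ _ hfix (b 1)
    have h3 := Submodule.mem_map_of_mem (f := ρ.ρ g) h2
    rw [Submodule.map_smul''] at h3
    have h4 := Submodule.smul_mono le_rfl le_top h3
    rwa [map_sub, ← Module.End.mul_apply, ← map_mul, mul_inv_cancel_left] at h4
  have hzz : z σ - z g ∈ IsLocalRing.maximalIdeal T ^ n := by
    have := repr_mem_of_mem_smul_top b _ h1 1
    rwa [map_sub, Finsupp.sub_apply] at this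
  have hg : z g * z g = 1 := by
    rw [hzmul _ (pow_mem hφD i), hz_of τ (hI τ hτ), mul_one]
    exact hpow i
  rw [show z σ * z σ - 1 = (z σ + z g) * (z σ - z g) from by rw [← hg]; ring]
  exact Ideal.mul_mem_left _ _ hzz

end Fermat.Agent.OrdinaryAtP

end
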