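import Fermat.Agent.OrdinaryAtP.Flat.StrictLine
import Fermat.Agent.OrdinaryAtP.Flat.StrictOfLine
import Fermat.Agent.OrdinaryAtP.Flat.NewSystem
import Fermat.Agent.OrdinaryAtP.Flat.New
import Fermat.Agent.RT.InertiaTW.FiniteCoeff

/-!
# Newforms with `q` exactly dividing the level are strictly ordinary at the odd prime `q`
-/

set_option autoImplicit false
set_option synthInstance.maxHeartbeats 400000
set_option maxHeartbeats 1000000

noncomputable section

namespace Fermat.Agent.OrdinaryAtP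

open CongruenceSubgroup
open GaloisReps (FullHecke heckeGaloisModel)
open IsLocalRing (maximalIdeal ResidueField)

variable {q : ℕ} [hq : Fact q.Prime] {N : ℕ} [NeZero N]
  {O : Type} [CommRing O] [IsDomain O] [IsDiscreteValuationRing O]
  [IsAdicComplete (maximalIdeal O) O] [Finite (ResidueField O)] [CharZero O]

/-- **The representation of a newform of level `N`, `q ∥ N`, is strictly ordinary at the odd
prime `q`.** -/
theorem rep_isStrictOrdinaryAt_of_newform (hq2 : q ≠ 2) (hqN : q ∣ N) (hq2N : ¬ q ^ 2 ∣ N)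
    {g : CuspForm (Gamma0 N) 2} (hg : g.IsNewform) (ι : ℤ_[q] →+* O) (θ : FullHecke N →+* O)
    (hθ : ∀ b, θ b = 0 → ConductorLevel.eigenChar hg.1 ∅ b = 0)
    (hp : (q : O) ∈ maximalIdeal O) :
    ((heckeGaloisModel N q).rep ι θ hp).IsStrictOrdinaryAt q := by
  obtain ⟨M, rfl⟩ := hqN
  have hqM : ¬ q ∣ M := fun h => hq2N (by rw [sq]; exact mul_dvd_mul_left q h)
  haveI : NeZero M := ⟨fun h => NeZero.ne (q * M) (by rw [h, mul_zero])⟩
  refine isStrictOrdinaryAt_of_lines hq.out _ (detIsCyclotomic_rep hp) fun P hP => ?_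
  obtain ⟨τ, hτ, hζ, hneg⟩ := exists_neg_on_flatNew hqM hP
  obtain ⟨L, hb, hD, hI, hF⟩ := exists_strictLine hqM
    (fun v lam _ n => push_eigen_eq_zero_of_newform hqM hg θ hθ hp v.2 lam n)
    (natCast_dvd_of_forall_functional ι (RT.InertiaTW.moduleFinite_padicInt hp ι))
    hP hp hq2 ⟨τ, hτ, hζ, hneg⟩
  exact ⟨L, hb, hD, hI, fun σ hσ v => by rw [map_mul]; exact hF σ hσ v⟩

end Fermat.Agent.OrdinaryAtP

end
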