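import Fermat.Agent.OrdinaryAtP.Reduction
import Fermat.Agent.OrdinaryAtP.Flat.New
import Fermat.Agent.GaloisReps.Attach
import Fermat.Agent.GaloisReps.Characters
import Fermat.Agent.GaloisReps.Models

/-!
# Residually ordinary implies ordinary

For odd `p` exactly dividing or prime to the level, given the orders on the torsion of `J₀(M)`
for the levels `M`, `4 ∣ M`, prime to `p`.
-/

set_option autoImplicit false

noncomputable section

open Fermat.Agent.GaloisReps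

namespace Fermat.Agent.OrdinaryAtP

variable {N p : ℕ} [NeZero N] [Fact p.Prime] {S : Finset ℕ}

/-- Moved `p`-torsion classes of level `p M` have no trivial quotient. -/
theorem noTrivialQuotient_of_orders (hp2 : p ≠ 2)
    (hord : ∀ (M : ℕ) [NeZero M], 4 ∣ M → ¬ p ∣ M → Mazur.Eisenstein.OrderProperty M)
    {A : ValuationSubring (AlgebraicClosure ℚ)} {M : ℕ} [NeZero M] (hA : A.LiesOverPrime p)
    (h4 : 4 ∣ M) (hpM : ¬ p ∣ M) : NoTrivialQuotient A (p * M) p :=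
  noTrivialQuotient_levelMul hpM
    ((Fact.out : p.Prime).two_le.lt_of_ne' hp2) hA (hord M h4 hpM)

/-- Residually ordinary implies ordinary for a representation matched by a Hecke algebra of level
`N`, `p ^ 2 ∤ N`. -/
theorem isOrdinaryAt_of_residual {T : Type} [CommRing T] [IsLocalRing T] [IsNoetherianRing T]
    (hp2 : p ≠ 2) (hN : ¬ p ^ 2 ∣ N)
    (hord : ∀ (M : ℕ) [NeZero M], 4 ∣ M → ¬ p ∣ M → Mazur.Eisenstein.OrderProperty M)
    (hpT : (p : T) ∈ IsLocalRing.maximalIdeal T) (ρ : GaloisRepAdic T)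
    (habs : ρ.residual.IsAbsolutelyIrreducible)
    (π : CuspForm.heckeAlgebra N 2 (↑S : Set ℕ) →+* T) (hfrob : FrobCharpoly ρ π)
    (hres : (GaloisRepAdic.ofResidualGaloisRep ρ.residual).IsOrdinaryAt p) :
    ρ.IsOrdinaryAt p := by
  have hp : p.Prime := Fact.out
  obtain ⟨N₀, hNN, hpN₀⟩ : ∃ N₀, N ∣ p * N₀ ∧ ¬ p ∣ N₀ := by
    by_cases hpN : p ∣ N
    · obtain ⟨N₀, rfl⟩ := hpN
      exact ⟨N₀, dvd_rfl, fun h => hN (by rw [sq]; exact mul_dvd_mul_left p h)⟩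
    · exact ⟨N, dvd_mul_left N p, hpN⟩
  have hN0 : NeZero N₀ := ⟨fun h => hpN₀ (h ▸ dvd_zero p)⟩
  have hp4 : ¬ p ∣ 4 * N₀ := fun h => (hp.dvd_mul.mp h).elim
    (fun h4 => hp2 ((Nat.prime_dvd_prime_iff_eq hp Nat.prime_two).mp
      (hp.dvd_of_dvd_pow (show p ∣ 2 ^ 2 from h4)))) hpN₀
  have : NeZero (p * (4 * N₀)) :=
    ⟨mul_ne_zero hp.ne_zero (mul_ne_zero (by norm_num) (NeZero.ne _))⟩
  have hdvd : N ∣ p * (4 * N₀) := hNN.trans (mul_dvd_mul_left p (dvd_mul_left N₀ 4))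
  obtain ⟨r, hr⟩ := exists_restrictHom (M := p * (4 * N₀)) (R := N) hdvd (S := S)
    (S' := S ∪ (p * (4 * N₀)).primeFactors) Finset.subset_union_left
    (fun q hq hqN => Finset.mem_union_right _ (Nat.mem_primeFactors.mpr ⟨hq, hqN, NeZero.ne _⟩))
  refine isOrdinaryAt_of_noHom (modelOfCongruence (congruenceProperty (p * (4 * N₀)) p)) ρ habs
    hp2 hpT (π.comp r) (fun ℓ hℓ hℓN hℓS A hA σ hσ => ?_) hres fun P hP =>
      levelNoHom_of_noTrivialQuotient _
        (noTrivialQuotient_of_orders hp2 hord hP (dvd_mul_right 4 N₀) hp4)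
  rw [RingHom.comp_apply, hr ℓ hℓ hℓN hℓS]
  exact hfrob ℓ hℓ _ _ A hA σ hσ

/-- S33 from the orders. -/
theorem isOrdinaryAt_of_orderProperty
    {O : Type} [CommRing O] [IsDomain O] [IsDiscreteValuationRing O]
    [IsAdicComplete (IsLocalRing.maximalIdeal O) O]
    {θ : CuspForm.heckeAlgebra N 2 (↑S : Set ℕ) →+* IsLocalRing.ResidueField O}
    {T : Type} [CommRing T] [IsLocalRing T] [IsNoetherianRing T]
    [IsAdicComplete (IsLocalRing.maximalIdeal T) T] [Algebra O T] [IsLocalHom (algebraMap O T)]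
    [Module.Finite O T] [Module.Free O T]
    (hord : ∀ (M : ℕ) [NeZero M], 4 ∣ M → ¬ p ∣ M → Mazur.Eisenstein.OrderProperty M)
    (hp2 : p ≠ 2) (hN : p ∣ N ∧ ¬ p ^ 2 ∣ N)
    (hpO : (p : O) ∈ IsLocalRing.maximalIdeal O)
    (H : CuspForm.HeckeGaloisRepDatum N (↑S : Set ℕ) O θ T)
    (hres : (GaloisRepAdic.ofResidualGaloisRep H.ρ.residual).IsOrdinaryAt p) :
    H.ρ.IsOrdinaryAt p :=
  isOrdinaryAt_of_residual hp2 hN.2 hord
    (by rw [← map_natCast (algebraMap O T) p]; exact map_nonunit (algebraMap O T) _ hpO)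
    H.ρ H.residual_absIrr H.π
    (fun ℓ hℓ hℓN hℓS A hA σ hσ => H.charpoly_frob ℓ hℓ hℓN hℓS A hA σ hσ) hres

/-- Residually ordinary implies ordinary for the representation of an eigen system. -/
theorem rep_isOrdinaryAt_of_residual (D : HeckeGaloisModel N p)
    {O : Type} [CommRing O] [IsDomain O] [IsDiscreteValuationRing O] [CharZero O]
    (ι : ℤ_[p] →+* O) (θ : FullHecke N →+* O) (hpO : (p : O) ∈ IsLocalRing.maximalIdeal O)
    (hp2 : p ≠ 2) (hN : ¬ p ^ 2 ∣ N)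
    (hord : ∀ (M : ℕ) [NeZero M], 4 ∣ M → ¬ p ∣ M → Mazur.Eisenstein.OrderProperty M)
    (habs : (D.rep ι θ hpO).residual.IsAbsolutelyIrreducible)
    (hres : (GaloisRepAdic.ofResidualGaloisRep (D.rep ι θ hpO).residual).IsOrdinaryAt p) :
    (D.rep ι θ hpO).IsOrdinaryAt p := by
  refine isOrdinaryAt_of_residual hp2 hN hord hpO _ habs
    (θ.comp (toFull (N := N) (↑(({p} : Finset ℕ)) : Set ℕ)).toRingHom)
    (fun ℓ hℓ hℓN hℓS A hA σ hσ => ?_) hres
  rw [show (θ.comp (toFull (N := N) (↑(({p} : Finset ℕ)) : Set ℕ)).toRingHom)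
    (CuspForm.heckeAlgebra.T hℓ hℓN hℓS) = θ (HeckeDuality.heckeOp N 2 ℓ hℓ) from
    congrArg θ (toFull_T hℓ hℓN hℓS)]
  refine D.charpoly_eigenAction_frobenius ι θ frobeniusDensity hpO hℓ (fun h => ?_) hA hσ
  rcases hℓ.dvd_mul.mp h with h | h
  · exact hℓN h
  · exact hℓS (Finset.mem_coe.mpr (Finset.mem_singleton.mpr
      ((Nat.prime_dvd_prime_iff_eq hℓ Fact.out).mp h)))

end Fermat.Agent.OrdinaryAtP

end
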