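import Fermat.Agent.OrdinaryAtP.Flat.Strict
import Fermat.Agent.RT.Lower.AtP

/-!
# Strict ordinarity at every level exactly divisible by `p`
-/

set_option autoImplicit false

noncomputable section

namespace Fermat.Agent.OrdinaryAtP

open GaloisReps (heckeGaloisModel)

variable {p : ℕ} [Fact p.Prime]

/-- The models of `J₀(M)` are strictly ordinary at the odd prime `p` at levels exactly divisible
by `p`. -/
theorem strictAtLevels (hp2 : p ≠ 2) :
    RT.Lower.StrictAtLevels (p := p) fun (M : ℕ) [NeZero M] => heckeGaloisModel M p :=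
  fun _ _ _ hg hpM hp2M _ _ _ _ _ _ _ ι θ hpR e he =>
    rep_isStrictOrdinaryAt_of_newform hp2 hpM hp2M hg ι θ
      (fun b hb => by rw [← he b, hb, map_zero]) hpR

end Fermat.Agent.OrdinaryAtP

end
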