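import Fermat.Agent.GaloisReps.Constructor
import Fermat.Agent.Carayol.Degeneracy

/-!
# The torsion classes of a vector of the completed lattice
-/

set_option autoImplicit false

noncomputable section

namespace Fermat.Agent.OrdinaryAtP

open AlgebraicCurve ModularCurve
open GaloisReps (TorsionIso JTors galTors AbsGal FullHecke matIn latticeMat)
open scoped Matrix

variable {N p : ℕ} [NeZero N] [Fact p.Prime]

variable (E : TorsionIso N p)

/-- The class of `p ^ n`-torsion given by a vector of the completed lattice. -/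
def point (n : ℕ) : (Fin (2 * Gamma0.genus N) → ℤ_[p]) →+ JZero N :=
  (JTors N p n).subtype.comp ((E.psi n).symm.toAddMonoidHom.comp
    ((PadicInt.toZModPow n).toAddMonoidHom.compLeft _))

theorem point_eq (n : ℕ) (w : Fin (2 * Gamma0.genus N) → ℤ_[p]) :
    point E n w = ((E.psi n).symm fun i => PadicInt.toZModPow n (w i) : JTors N p n) := rfl

theorem point_mem (n : ℕ) (w : Fin (2 * Gamma0.genus N) → ℤ_[p]) : point E n w ∈ JTors N p n :=
  ((E.psi n).symm _).2

theorem zsmul_pow_point (n : ℕ) (w : Fin (2 * Gamma0.genus N) → ℤ_[p]) :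
    ((p ^ n : ℕ) : ℤ) • point E n w = 0 :=
  Pic0.mem_torsion.mp (point_mem E n w)

theorem nsmul_pow_point (n : ℕ) (w : Fin (2 * Gamma0.genus N) → ℤ_[p]) :
    p ^ n • point E n w = 0 := by
  rw [← natCast_zsmul]
  exact zsmul_pow_point E n w

/-- Every class of `p`-power order is the class of a vector. -/
theorem exists_eq_point {n : ℕ} {x : JZero N} (hx : p ^ n • x = 0) :
    ∃ w, point E n w = x := by
  have hmem : x ∈ JTors N p n := Pic0.mem_torsion.mpr (by rwa [natCast_zsmul])
  have := fun i => ZMod.intCast_surjective (E.psi n ⟨x, hmem⟩ i)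
  choose k hk using this
  refine ⟨fun i => (k i : ℤ_[p]), ?_⟩
  rw [point_eq]
  have e : (fun i => PadicInt.toZModPow n ((k i : ℤ_[p]))) = E.psi n ⟨x, hmem⟩ := by
    funext i
    rw [map_intCast]
    exact hk i
  rw [e, AddEquiv.symm_apply_apply]

theorem point_eq_zero_iff (n : ℕ) (w : Fin (2 * Gamma0.genus N) → ℤ_[p]) :
    point E n w = 0 ↔ ∀ i, PadicInt.toZModPow n (w i) = 0 := by
  rw [point_eq, ZeroMemClass.coe_eq_zero, AddEquiv.map_eq_zero_iff, funext_iff]
  rfl

theorem point_eq_zero_iff_dvd (n : ℕ) (w : Fin (2 * Gamma0.genus N) → ℤ_[p]) :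
    point E n w = 0 ↔ ∀ i, (p : ℤ_[p]) ^ n ∣ w i := by
  rw [point_eq_zero_iff]
  refine forall_congr' fun i => ?_
  rw [← RingHom.mem_ker, PadicInt.ker_toZModPow, Ideal.mem_span_singleton]

theorem point_succ (n : ℕ) (w : Fin (2 * Gamma0.genus N) → ℤ_[p]) :
    p • point E (n + 1) w = point E n w := by
  have hmem : p • point E (n + 1) w ∈ JTors N p n := by
    rw [Pic0.mem_torsion, ← Nat.cast_smul_eq_nsmul ℤ, smul_smul, ← Nat.cast_mul, ← pow_succ]
    exact zsmul_pow_point E (n + 1) w
  refine congrArg Subtype.val (a₁ := (⟨_, hmem⟩ : JTors N p n))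
    ((E.psi n).injective (Eq.trans ?_ ((E.psi n).apply_symm_apply _).symm))
  set z := (E.psi (n + 1)).symm fun i => PadicInt.toZModPow (n + 1) (w i) with hz
  have h1 : E.psi n ⟨_, hmem⟩ =
      ⇑(ZMod.castHom (pow_dvd_pow p n.le_succ) (ZMod (p ^ n))) ∘ E.psi (n + 1) z := by
    rw [E.psi_apply, E.psi_apply, E.compat n z ⟨_, hmem⟩ rfl]
    rfl
  rw [h1, hz, AddEquiv.apply_symm_apply]
  funext i
  exact congrFun (congrArg DFunLike.coe (GaloisReps.cast_castRingHom n)) (w i)

/-- Galois acts on the classes of vectors through the model. -/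
theorem galois_point (n : ℕ) (σ : AbsGal) (w : Fin (2 * Gamma0.genus N) → ℤ_[p]) :
    σ • point E n w = point E n (E.gal σ *ᵥ w) := by
  set x := (E.psi n).symm fun i => PadicInt.toZModPow n (w i) with hx
  refine congrArg Subtype.val (a₁ := galTors n σ x) ((E.psi n).injective ?_)
  rw [← E.galLvl_mulVec, hx, AddEquiv.apply_symm_apply]
  refine Eq.trans ?_ ((E.psi n).apply_symm_apply _).symm
  rw [← E.map_gal n σ]
  funext i
  exact (RingHom.map_mulVec (PadicInt.toZModPow n) _ _ i).symm

/-- The Hecke algebra acts on the classes of vectors through the lattice. -/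
theorem actTors_point (n : ℕ) (t : FullHecke N) (w : Fin (2 * Gamma0.genus N) → ℤ_[p]) :
    (Carayol.actTors E n t ((E.psi n).symm fun i => PadicInt.toZModPow n (w i)) : JZero N) =
      point E n (matIn (latticeMat N) ℤ_[p] t *ᵥ w) := by
  refine congrArg Subtype.val ((E.psi n).injective ?_)
  rw [Carayol.psi_actTors, AddEquiv.apply_symm_apply]
  refine Eq.trans ?_ ((E.psi n).apply_symm_apply _).symm
  funext i
  refine Eq.trans ?_ (RingHom.map_mulVec (PadicInt.toZModPow n) _ _ i).symm
  rw [GaloisReps.matIn_apply, GaloisReps.matIn_apply, GaloisReps.map_intCast_toZModPow]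
  rfl

end Fermat.Agent.OrdinaryAtP

end
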