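import Fermat.Agent.OrdinaryAtP.Flat.Small

/-!
# Best approximation by a finite dimensional space of series
-/

set_option autoImplicit false

noncomputable section

namespace Fermat.Agent.OrdinaryAtP

open ModularCurve Semistable
open Arith (QBar)

variable {A : ValuationSubring QBar} {q : ℕ} [hq : Fact q.Prime] {S : Type*}

/-- A nonzero vector is a multiple of one with a nonzero reduction. -/
theorem exists_pairScale [Finite S] (hA : A.LiesOverPrime q) {t : S → LSer} (ht : ∀ s, t s ∈ fracS A)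
    (h0 : t ≠ 0) :
    ∃ (μ : QBar) (z : S → LSer), μ ≠ 0 ∧ (∀ s, t s = algebraMap QBar LSer μ * z s) ∧
      ∃ hz : ∀ s, z s ∈ locS A, ∃ s, redL A ⟨z s, hz s⟩ ≠ 0 := by
  have := Fintype.ofFinite S
  have key : ∀ s, ∃ d : QBar, IsSmall A d (t s) ∧ (t s = 0 → d = 0) ∧ (t s ≠ 0 → d ≠ 0 ∧
      ∃ h : algebraMap QBar LSer d⁻¹ * t s ∈ locS A, redL A ⟨_, h⟩ ≠ 0) := by
    intro s
    rcases eq_or_ne (t s) 0 with hs | hs
    · exact ⟨0, hs ▸ isSmall_zero 0, fun _ => rfl, fun hne => absurd hs hne⟩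
    · obtain ⟨c, hc, hcx, hcr⟩ := exists_scale hA hq.out (ht s) hs
      refine ⟨c⁻¹, ⟨_, hcx, ?_⟩, fun h => absurd h hs, fun _ => ⟨inv_ne_zero hc, ?_⟩⟩
      · rw [← mul_assoc, ← map_mul, inv_mul_cancel₀ hc, map_one, one_mul]
      · rw [inv_inv]; exact ⟨hcx, hcr⟩
  choose d hd hdz hd' using key
  obtain ⟨s₁, hs₁⟩ := Function.ne_iff.mp h0
  obtain ⟨s₀, -, hmax⟩ := Finset.univ.exists_max_image (fun s => A.valuation (d s))
    ⟨s₁, Finset.mem_univ _⟩
  have hd0 : d s₀ ≠ 0 := fun h => (hd' s₁ hs₁).1 (by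
    have := hmax s₁ (Finset.mem_univ _)
    rwa [h, map_zero, nonpos_iff_eq_zero, map_eq_zero] at this)
  have ht0 : t s₀ ≠ 0 := fun h => hd0 (hdz s₀ h)
  choose z hz hze using fun s => (hd s).mono (hmax s (Finset.mem_univ s))
  refine ⟨d s₀, z, hd0, hze, hz, s₀, ?_⟩
  obtain ⟨-, h, hr⟩ := hd' s₀ ht0
  rwa [← redL_congr h (hz s₀) (by
    rw [hze s₀, ← mul_assoc, ← map_mul, inv_mul_cancel₀ hd0, map_one, one_mul])]

/-- Coordinates with respect to vectors with independent reductions are small. -/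
theorem valuation_coord_le {κ : Type*} [Fintype κ] {e : κ → S → LSer}
    (he : ∀ k s, e k s ∈ locS A)
    (hi : LinearIndependent (Res A) fun k s => redL A ⟨e k s, he k s⟩) {a : κ → QBar} {γ : QBar}
    (h : ∀ s, IsSmall A γ (∑ k, algebraMap QBar LSer (a k) * e k s)) (k : κ) :
    A.valuation (a k) ≤ A.valuation γ := by
  obtain ⟨k₀, -, hmax⟩ := Finset.univ.exists_max_image (fun l => A.valuation (a l))
    ⟨k, Finset.mem_univ _⟩
  refine (hmax k (Finset.mem_univ _)).trans ?_
  by_contra! hlt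
  have h0 : a k₀ ≠ 0 := fun hz => by simp [hz] at hlt
  have hpos : 0 < A.valuation (a k₀) := zero_lt_iff.mpr ((Valuation.ne_zero_iff _).mpr h0)
  have hc : ∀ l, a l / a k₀ ∈ A := fun l => by
    rw [← A.valuation_le_one_iff, map_div₀, div_le_one₀ hpos]
    exact hmax l (Finset.mem_univ _)
  have hg : γ / a k₀ ∈ A.nonunits := by
    rw [ValuationSubring.mem_nonunits_iff, map_div₀, div_lt_one₀ hpos]
    exact hlt
  have hsum : ∑ l, IsLocalRing.residue A ⟨_, hc l⟩ • (fun s => redL A ⟨e l s, he l s⟩) = 0 := by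
    funext s
    have hmem : ∀ l, algebraMap QBar LSer (a l / a k₀) * e l s ∈ locS A := fun l =>
      mul_mem (algebraMap_mem_locS (hc l)) (he l s)
    have hsm : IsSmall A (γ / a k₀) (∑ l, algebraMap QBar LSer (a l / a k₀) * e l s) := by
      have := (h s).const_mul (a k₀)⁻¹
      rw [inv_mul_eq_div, Finset.mul_sum] at this
      convert this using 2 with l
      rw [← mul_assoc, ← map_mul, inv_mul_eq_div]
    have h1 := hsm.redL_eq_zero hg (sum_mem fun l _ => hmem l)
    rw [show (⟨∑ l, algebraMap QBar LSer (a l / a k₀) * e l s, sum_mem fun l _ => hmem l⟩ : locS A) =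
      ∑ l, (⟨_, algebraMap_mem_locS (hc l)⟩ : locS A) * ⟨e l s, he l s⟩ from
        Subtype.ext (by push_cast; rfl), map_sum] at h1
    rw [Finset.sum_apply, Pi.zero_apply, ← h1]
    refine Finset.sum_congr rfl fun l _ => ?_
    rw [map_mul, redL_algebraMap (hc l), Pi.smul_apply, ← HahnSeries.C_mul_eq_smul,
      algebraMap_laurentSeries_eq_single]
    rfl
  have h1 := Fintype.linearIndependent_iff.mp hi _ hsum k₀
  rw [show (⟨a k₀ / a k₀, hc k₀⟩ : A) = 1 from Subtype.ext (div_self h0), map_one] at h1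
  exact one_ne_zero h1

/-- **Best approximation**: an approximation whose error has no reduction in the space. -/
theorem exists_bestApprox [Finite S] (hA : A.LiesOverPrime q) (V : Submodule QBar (S → LSer))
    [FiniteDimensional QBar V] (hV : ∀ x ∈ V, ∀ s, x s ∈ fracS A) {T : S → LSer}
    (hT : ∀ s, T s ∈ locS A) :
    ∃ v ∈ V, (∀ s, v s ∈ locS A) ∧ ∀ (μ : QBar) (z : S → LSer) (hz : ∀ s, z s ∈ locS A), μ ≠ 0 →
      (∀ s, T s - v s = algebraMap QBar LSer μ * z s) →
      (fun s => redL A ⟨z s, hz s⟩) ∈ redImage A V → ∀ s, redL A ⟨z s, hz s⟩ = 0 := by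
  classical
  by_cases hTV : T ∈ V
  · refine ⟨T, hTV, hT, fun μ z hz hμ he _ s => ?_⟩
    have h0 : z s = 0 := by
      have := he s
      rw [sub_self, eq_comm, mul_eq_zero] at this
      exact this.resolve_left ((_root_.map_ne_zero _).mpr hμ)
    rw [redL_congr _ (zero_mem _) h0]
    exact map_zero _
  set W := V ⊔ Submodule.span QBar {T} with hW
  have hWf : ∀ x ∈ W, ∀ s, x s ∈ fracS A := by
    intro x hx s
    obtain ⟨v, hv, w, hw, rfl⟩ := Submodule.mem_sup.mp hx
    obtain ⟨c, rfl⟩ := Submodule.mem_span_singleton.mp hw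
    rw [Pi.add_apply, Pi.smul_apply, smul_eq_algebraMap_mul]
    exact add_mem (hV v hv s) (mul_mem (algebraMap_mem_fracS _) (locS_le_fracS (hT s)))
  obtain ⟨fW, eW⟩ := finrank_redImage hA hq.out W hWf
  obtain ⟨fV, eV⟩ := finrank_redImage hA hq.out V hV
  have hlt : Module.finrank QBar V < Module.finrank QBar W :=
    Submodule.finrank_lt_finrank_of_lt (lt_of_le_of_ne le_sup_left fun he => hTV (by
      rw [he]; exact Submodule.mem_sup_right (Submodule.mem_span_singleton_self T)))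
  obtain ⟨r, hrW, hrV⟩ : ∃ r ∈ redImage A W, r ∉ redImage A V := by
    by_contra! hall
    have := Submodule.finrank_mono (show redImage A W ≤ redImage A V from hall)
    omega
  obtain ⟨x, hxW, hx, rfl⟩ := mem_redImage.mp hrW
  obtain ⟨v₀, hv₀, w, hw, hxe⟩ := Submodule.mem_sup.mp hxW
  obtain ⟨α, rfl⟩ := Submodule.mem_span_singleton.mp hw
  have hxs : ∀ s, x s = v₀ s + algebraMap QBar LSer α * T s := fun s => by
    rw [← hxe, Pi.add_apply, Pi.smul_apply, smul_eq_algebraMap_mul]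
    rfl
  -- `α` is not small
  have hαbig : α ∉ A.nonunits := fun hα => hrV <| mem_redImage.mpr
    ⟨v₀, hv₀, fun s => by
      have := sub_mem (hx s) (mul_mem (algebraMap_mem_locS (Arith.mem_of_mem_nonunits hα)) (hT s))
      rwa [hxs, add_sub_cancel_right] at this, funext fun s => by
      refine IsSmall.redL_eq (γ := α) ?_ hα _ _
      exact ⟨T s, hT s, by rw [hxs, add_sub_cancel_left]⟩⟩
  have hα0 : α ≠ 0 := fun h => hαbig (h ▸ A.nonunits.zero_mem)
  have hαi : α⁻¹ ∈ A := by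
    rw [← A.valuation_le_one_iff, map_inv₀]
    rw [ValuationSubring.mem_nonunits_iff, not_lt] at hαbig
    exact inv_le_one_of_one_le₀ hαbig
  refine ⟨-(α⁻¹ • v₀), V.neg_mem (V.smul_mem _ hv₀), fun s => ?_, fun μ z hz hμ he hzr => ?_⟩
  · have := sub_mem (hT s) (mul_mem (algebraMap_mem_locS hαi) (hx s))
    convert this using 1
    rw [Pi.neg_apply, Pi.smul_apply, smul_eq_algebraMap_mul, hxs, mul_add, ← mul_assoc, ← map_mul,
      inv_mul_cancel₀ hα0, map_one, one_mul]
    show -(algebraMap QBar LSer α⁻¹ * v₀ s) = _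
    ring
  by_contra! hne
  obtain ⟨s₀, hs₀⟩ := hne
  have hxz : ∀ s, x s = algebraMap QBar LSer (α * μ) * z s := fun s => by
    rw [map_mul, mul_assoc, ← he s, hxs, Pi.neg_apply, Pi.smul_apply, smul_eq_algebraMap_mul,
      sub_neg_eq_add, mul_add, ← mul_assoc, ← map_mul]
    show v₀ s + algebraMap QBar LSer α * T s = algebraMap QBar LSer α * T s +
      algebraMap QBar LSer (α * α⁻¹) * v₀ s
    rw [mul_inv_cancel₀ hα0, map_one]
    ring
  rcases mem_nonunits_or_valuation_ge (A := A) (x := (α * μ)⁻¹) with hn | hge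
  · refine hs₀ (IsSmall.redL_eq_zero ⟨x s₀, hx s₀, ?_⟩ hn (hz s₀))
    rw [hxz, ← mul_assoc, ← map_mul, inv_mul_cancel₀ (mul_ne_zero hα0 hμ), map_one, one_mul]
  · have hαμ : α * μ ∈ A := by
      rw [← A.valuation_le_one_iff]
      rw [map_inv₀] at hge
      exact (one_le_inv₀ (zero_lt_iff.mpr ((Valuation.ne_zero_iff _).mpr
        (mul_ne_zero hα0 hμ)))).mp hge
    refine hrV ?_
    convert Submodule.smul_mem _ (IsLocalRing.residue A ⟨α * μ, hαμ⟩) hzr using 1
    funext s
    obtain ⟨h', e'⟩ := redL_const_mul hαμ (hz s)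
    rw [redL_congr _ h' (hxz s), e', Pi.smul_apply, ← HahnSeries.C_mul_eq_smul,
      algebraMap_laurentSeries_eq_single]
    rfl

end Fermat.Agent.OrdinaryAtP

end
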