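import Fermat.Agent.OrdinaryAtP.Flat.Point
import Fermat.Agent.OrdinaryAtP.Flat.Push
import Fermat.Agent.GaloisReps.OfInjective
import Fermat.Agent.GaloisReps.Attach

/-!
# Operators killing the old forms land in the kernels of the two push forwards

If an operator prime to the level kills the forms coming from level `M`, the torsion classes of
its image are killed by both push forwards to level `M`; so are the classes of the functionals of
an eigen vector on whose system the operator is not zero.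
-/

set_option autoImplicit false

noncomputable section

namespace Fermat.Agent.OrdinaryAtP

open AlgebraicCurve ModularCurve Semistable CongruenceSubgroup
open GaloisReps (TorsionIso JTors galTors AbsGal FullHecke matIn latticeMat toFull
  CongruenceProperty)
open Arith (QBar GQ)
open scoped Matrix

variable {q M : ℕ} [hq : Fact q.Prime] [NeZero M]

/-- An equivariant map to level `M` kills the image of an operator killing the old forms. -/
theorem equivariant_point_eq_zero
    (hES : ∀ (N : ℕ) [NeZero N], CongruenceProperty N q) (S : Finset ℕ) (hqS : q ∈ S)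
    (hMS : ∀ l : ℕ, l.Prime → l ∣ q * M → l ∈ S)
    (t : CuspForm.heckeAlgebra (q * M) 2 (↑S : Set ℕ))
    (ht : ∀ f : CuspForm (Gamma0 M) 2, t.1 (Newforms.levelIncl (dvd_mul_left M q) f) = 0)
    (π : Pic0 QBar (FB (q * M)) →+ Pic0 QBar (FB M))
    (hπ : ∀ (σ : GQ) (x : Pic0 QBar (FB (q * M))), π (σ • x) = σ • π x)
    (n : ℕ) (w : Fin (2 * Gamma0.genus (q * M)) → ℤ_[q]) :
    π (point (GaloisReps.torsionIso (q * M) q (GaloisReps.conjProperty _)) n
      (matIn (latticeMat (q * M)) ℤ_[q] (toFull _ t) *ᵥ w)) = 0 := by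
  set E := GaloisReps.torsionIso (q * M) q (GaloisReps.conjProperty _)
  set E' := GaloisReps.torsionIso M q (GaloisReps.conjProperty _)
  obtain ⟨t', ht', hint⟩ := Carayol.exists_intertwine E
    (GaloisReps.torsionGalois _ q (hES _)) E' (GaloisReps.torsionGalois _ q (hES _))
    (dvd_mul_left M q) S hqS hMS t
  have ht0 : t' = 0 := Subtype.ext (LinearMap.ext fun f =>
    Newforms.levelRaise_injective (M := M) (d := 1) (by rw [one_mul]; exact dvd_mul_left _ _)
      (((ht' f).symm.trans (ht f)).trans (map_zero _).symm))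
  let π' : JTors (q * M) q n →+ JTors M q n :=
    (π.comp (JTors (q * M) q n).subtype).codRestrict _ fun x => by
      refine Pic0.mem_torsion.mpr ?_
      rw [AddMonoidHom.comp_apply, ← map_zsmul]
      exact (congrArg π (Pic0.mem_torsion.mp x.2)).trans (map_zero π)
  have h := hint n π' (fun σ x => Subtype.ext (hπ σ x))
    ((E.psi n).symm fun i => PadicInt.toZModPow n (w i))
  have h0 : ∀ y, Carayol.actTors E' n (toFull (↑S : Set ℕ) (0 : CuspForm.heckeAlgebra M 2 (↑S : Set ℕ))) y = 0 := by
    intro y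
    refine (E'.psi n).injective ?_
    rw [Carayol.psi_actTors, map_zero, map_zero, Matrix.zero_mulVec, map_zero]
  rw [ht0, h0] at h
  rw [← actTors_point]
  exact congrArg Subtype.val h

/-- The push forward kills the image of an operator killing the old forms. -/
theorem pushUp_point_eq_zero
    (hES : ∀ (N : ℕ) [NeZero N], CongruenceProperty N q) (S : Finset ℕ) (hqS : q ∈ S)
    (hMS : ∀ l : ℕ, l.Prime → l ∣ q * M → l ∈ S)
    (t : CuspForm.heckeAlgebra (q * M) 2 (↑S : Set ℕ))
    (ht : ∀ f : CuspForm (Gamma0 M) 2, t.1 (Newforms.levelIncl (dvd_mul_left M q) f) = 0)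
    (n : ℕ) (w : Fin (2 * Gamma0.genus (q * M)) → ℤ_[q]) :
    pushUp q M (point (GaloisReps.torsionIso (q * M) q (GaloisReps.conjProperty _)) n
      (matIn (latticeMat (q * M)) ℤ_[q] (toFull _ t) *ᵥ w)) = 0 :=
  equivariant_point_eq_zero hES S hqS hMS t ht (pushUp q M) pushUp_galois n w

/-- So does the push forward after the Atkin-Lehner involution. -/
theorem pushW_point_eq_zero (hqM : ¬ q ∣ M)
    (hES : ∀ (N : ℕ) [NeZero N], CongruenceProperty N q) (S : Finset ℕ) (hqS : q ∈ S)
    (hMS : ∀ l : ℕ, l.Prime → l ∣ q * M → l ∈ S)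
    (t : CuspForm.heckeAlgebra (q * M) 2 (↑S : Set ℕ))
    (ht : ∀ f : CuspForm (Gamma0 M) 2, t.1 (Newforms.levelIncl (dvd_mul_left M q) f) = 0)
    (n : ℕ) (w : Fin (2 * Gamma0.genus (q * M)) → ℤ_[q]) :
    pushW q M hqM (point (GaloisReps.torsionIso (q * M) q (GaloisReps.conjProperty _)) n
      (matIn (latticeMat (q * M)) ℤ_[q] (toFull _ t) *ᵥ w)) = 0 :=
  equivariant_point_eq_zero hES S hqS hMS t ht (pushW q M hqM) (pushW_galois hqM) n w

variable {O : Type*} [CommRing O]

/-- Integral matrices commute with additive maps applied to the entries. -/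
theorem matIn_mulVec_comp {N : ℕ} [NeZero N] (a : FullHecke N) (lam : O →+ ℤ_[q])
    (v : Fin (2 * Gamma0.genus N) → O) :
    matIn (latticeMat N) ℤ_[q] a *ᵥ (lam ∘ v) = lam ∘ (matIn (latticeMat N) O a *ᵥ v) := by
  funext i
  simp only [Matrix.mulVec, dotProduct, Function.comp_apply, map_sum, GaloisReps.matIn_apply,
    Matrix.map_apply, eq_intCast]
  refine Finset.sum_congr rfl fun j _ => ?_
  rw [← zsmul_eq_mul, ← zsmul_eq_mul, map_zsmul]

/-- **New vectors**: the functionals of an eigen vector are killed by an equivariant map to level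
`M`, if the value of the operator on the system divides a power of `q`. -/
theorem equivariant_eigen_eq_zero
    (hES : ∀ (N : ℕ) [NeZero N], CongruenceProperty N q) (S : Finset ℕ) (hqS : q ∈ S)
    (hMS : ∀ l : ℕ, l.Prime → l ∣ q * M → l ∈ S)
    (t : CuspForm.heckeAlgebra (q * M) 2 (↑S : Set ℕ))
    (ht : ∀ f : CuspForm (Gamma0 M) 2, t.1 (Newforms.levelIncl (dvd_mul_left M q) f) = 0)
    (π : Pic0 QBar (FB (q * M)) →+ Pic0 QBar (FB M))
    (hπ : ∀ (σ : GQ) (x : Pic0 QBar (FB (q * M))), π (σ • x) = σ • π x)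
    (θ : FullHecke (q * M) →+* O) {v : Fin (2 * Gamma0.genus (q * M)) → O}
    (hv : v ∈ GaloisReps.eigenspace (latticeMat (q * M)) θ) {k : ℕ} {x : O}
    (hx : x * θ (toFull _ t) = (q : O) ^ k) (lam : O →+ ℤ_[q]) (n : ℕ) :
    π (point (GaloisReps.torsionIso (q * M) q (GaloisReps.conjProperty _)) n (lam ∘ v)) = 0 := by
  set E := GaloisReps.torsionIso (q * M) q (GaloisReps.conjProperty _)
  have hk : ∀ (k m : ℕ) (w : Fin (2 * Gamma0.genus (q * M)) → ℤ_[q]),
      q ^ k • point E (m + k) w = point E m w := by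
    intro k
    induction k with
    | zero => intro m w; rw [pow_zero, one_smul, add_zero]
    | succ k ih => intro m w; rw [pow_succ, mul_smul, ← add_assoc, point_succ, ih]
  have h := equivariant_point_eq_zero hES S hqS hMS t ht π hπ (n + k)
    ((lam.comp (AddMonoidHom.mulLeft x)) ∘ v)
  rw [matIn_mulVec_comp, (GaloisReps.mem_eigenspace _ θ v).mp hv] at h
  have e : ⇑(lam.comp (AddMonoidHom.mulLeft x)) ∘ (θ (toFull (↑S : Set ℕ) t) • v) =
      q ^ k • (lam ∘ v) := by
    funext i
    simp only [Function.comp_apply, Pi.smul_apply, smul_eq_mul, AddMonoidHom.comp_apply,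
      AddMonoidHom.coe_mulLeft]
    rw [← mul_assoc, hx, ← Nat.cast_pow, ← nsmul_eq_mul, map_nsmul]
  rw [e, map_nsmul, hk] at h
  exact h

omit hq in
/-- A nonzero element of a discrete valuation ring divides a power of an element of the maximal
ideal. -/
theorem exists_mul_eq_natCast_pow [IsDomain O] [IsDiscreteValuationRing O] {a : O} (ha : a ≠ 0)
    (hq' : (q : O) ∈ IsLocalRing.maximalIdeal O) : ∃ (k : ℕ) (x : O), x * a = (q : O) ^ k := by
  obtain ⟨ϖ, hϖ⟩ := IsDiscreteValuationRing.exists_irreducible O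
  obtain ⟨m, u, rfl⟩ := IsDiscreteValuationRing.eq_unit_mul_pow_irreducible ha hϖ
  rw [hϖ.maximalIdeal_eq, Ideal.mem_span_singleton] at hq'
  obtain ⟨r, hr⟩ := hq'
  exact ⟨m, r ^ m * ↑(u⁻¹), by rw [hr, mul_pow, mul_assoc, Units.inv_mul_cancel_left, mul_comm]⟩

/-- The functionals of a vector of a system on which some operator killing level `M` is not zero
are new. -/
theorem push_eigen_eq_zero [IsDomain O] [IsDiscreteValuationRing O] (hqM : ¬ q ∣ M)
    (hES : ∀ (N : ℕ) [NeZero N], CongruenceProperty N q) (S : Finset ℕ) (hqS : q ∈ S)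
    (hMS : ∀ l : ℕ, l.Prime → l ∣ q * M → l ∈ S)
    (t : CuspForm.heckeAlgebra (q * M) 2 (↑S : Set ℕ))
    (ht : ∀ f : CuspForm (Gamma0 M) 2, t.1 (Newforms.levelIncl (dvd_mul_left M q) f) = 0)
    (θ : FullHecke (q * M) →+* O) (hqO : (q : O) ∈ IsLocalRing.maximalIdeal O)
    (hθ : θ (toFull _ t) ≠ 0) {v : Fin (2 * Gamma0.genus (q * M)) → O}
    (hv : v ∈ GaloisReps.eigenspace (latticeMat (q * M)) θ) (lam : O →+ ℤ_[q]) (n : ℕ) :
    pushUp q M (point (GaloisReps.torsionIso (q * M) q (GaloisReps.conjProperty _)) n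
        (lam ∘ v)) = 0 ∧
      pushW q M hqM (point (GaloisReps.torsionIso (q * M) q (GaloisReps.conjProperty _)) n
        (lam ∘ v)) = 0 := by
  obtain ⟨k, x, hx⟩ := exists_mul_eq_natCast_pow hθ hqO
  exact ⟨equivariant_eigen_eq_zero hES S hqS hMS t ht (pushUp q M) pushUp_galois θ hv hx lam n,
    equivariant_eigen_eq_zero hES S hqS hMS t ht (pushW q M hqM) (pushW_galois hqM) θ hv hx lam n⟩

end Fermat.Agent.OrdinaryAtP

end
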