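import Fermat.Agent.OrdinaryAtP.Flat.Defs

/-!
# Series which are small for the Gauss valuation
-/

set_option autoImplicit false

noncomputable section

namespace Fermat.Agent.OrdinaryAtP

open ModularCurve Semistable
open Arith (QBar)

variable (A : ValuationSubring QBar)

/-- `x` is `γ` times an element of `locS`. -/
def IsSmall (γ : QBar) (x : LSer) : Prop :=
  ∃ z ∈ locS A, x = algebraMap QBar LSer γ * z

variable {A}

theorem isSmall_zero (γ : QBar) : IsSmall A γ 0 := ⟨0, zero_mem _, (mul_zero _).symm⟩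

theorem isSmall_one_iff {x : LSer} : IsSmall A 1 x ↔ x ∈ locS A := by
  constructor
  · rintro ⟨z, hz, rfl⟩; rwa [map_one, one_mul]
  · exact fun h => ⟨x, h, by rw [map_one, one_mul]⟩

theorem isSmall_mul_left {γ : QBar} {z : LSer} (hz : z ∈ locS A) :
    IsSmall A γ (algebraMap QBar LSer γ * z) := ⟨z, hz, rfl⟩

theorem IsSmall.mono {γ δ : QBar} {x : LSer} (h : IsSmall A γ x)
    (hle : A.valuation γ ≤ A.valuation δ) : IsSmall A δ x := by
  obtain ⟨z, hz, rfl⟩ := h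
  rcases eq_or_ne δ 0 with rfl | hδ
  · obtain rfl : γ = 0 := by rwa [map_zero, nonpos_iff_eq_zero, map_eq_zero] at hle
    exact isSmall_mul_left hz
  · have hmem : γ / δ ∈ A := by
      rw [← A.valuation_le_one_iff, map_div₀,
        div_le_one₀ (zero_lt_iff.mpr ((Valuation.ne_zero_iff _).mpr hδ))]
      exact hle
    refine ⟨_, mul_mem (algebraMap_mem_locS hmem) hz, ?_⟩
    rw [← mul_assoc, ← map_mul, mul_div_cancel₀ _ hδ]

theorem IsSmall.mem_locS {γ : QBar} {x : LSer} (h : IsSmall A γ x) (hγ : γ ∈ A) :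
    x ∈ locS A :=
  isSmall_one_iff.mp (h.mono (by rw [map_one]; exact (A.valuation_le_one_iff γ).mpr hγ))

theorem IsSmall.neg {γ : QBar} {x : LSer} (h : IsSmall A γ x) : IsSmall A γ (-x) := by
  obtain ⟨z, hz, rfl⟩ := h
  exact ⟨-z, neg_mem hz, (mul_neg _ _).symm⟩

theorem IsSmall.add {γ : QBar} {x y : LSer} (hx : IsSmall A γ x) (hy : IsSmall A γ y) :
    IsSmall A γ (x + y) := by
  obtain ⟨z, hz, rfl⟩ := hx
  obtain ⟨w, hw, rfl⟩ := hy
  exact ⟨z + w, add_mem hz hw, (mul_add _ _ _).symm⟩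

theorem IsSmall.sub {γ : QBar} {x y : LSer} (hx : IsSmall A γ x) (hy : IsSmall A γ y) :
    IsSmall A γ (x - y) := by
  rw [sub_eq_add_neg]
  exact hx.add hy.neg

theorem IsSmall.mul {γ δ : QBar} {x y : LSer} (hx : IsSmall A γ x) (hy : IsSmall A δ y) :
    IsSmall A (γ * δ) (x * y) := by
  obtain ⟨z, hz, rfl⟩ := hx
  obtain ⟨w, hw, rfl⟩ := hy
  exact ⟨z * w, mul_mem hz hw, by rw [map_mul]; ring⟩

theorem IsSmall.mul_mem_locS {γ : QBar} {x y : LSer} (hx : IsSmall A γ x) (hy : y ∈ locS A) :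
    IsSmall A γ (x * y) := by
  simpa using hx.mul (isSmall_one_iff.mpr hy)

theorem IsSmall.mem_locS_mul {γ : QBar} {x y : LSer} (hx : IsSmall A γ x) (hy : y ∈ locS A) :
    IsSmall A γ (y * x) := by
  rw [mul_comm]; exact hx.mul_mem_locS hy

theorem IsSmall.const_mul {γ : QBar} {x : LSer} (hx : IsSmall A γ x) (δ : QBar) :
    IsSmall A (δ * γ) (algebraMap QBar LSer δ * x) :=
  (show IsSmall A δ (algebraMap QBar LSer δ) from
    ⟨1, one_mem _, (mul_one _).symm⟩).mul hx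

theorem IsSmall.pow {γ : QBar} {x : LSer} (hx : IsSmall A γ x) (k : ℕ) :
    IsSmall A (γ ^ k) (x ^ k) := by
  obtain ⟨z, hz, rfl⟩ := hx
  exact ⟨z ^ k, pow_mem hz k, by rw [mul_pow, map_pow]⟩

theorem IsSmall.sum {γ : QBar} {κ : Type*} (s : Finset κ) {x : κ → LSer}
    (h : ∀ k ∈ s, IsSmall A γ (x k)) : IsSmall A γ (∑ k ∈ s, x k) :=
  Finset.sum_induction x (IsSmall A γ) (fun _ _ => IsSmall.add) (isSmall_zero γ) h

/-- A small series has zero reduction. -/
theorem IsSmall.redL_eq_zero {γ : QBar} {x : LSer} (h : IsSmall A γ x) (hγ : γ ∈ A.nonunits)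
    (hx : x ∈ locS A) : redL A ⟨x, hx⟩ = 0 := by
  obtain ⟨z, hz, rfl⟩ := h
  obtain ⟨_, h2⟩ := redL_const_mul (Arith.mem_of_mem_nonunits hγ) hz
  rw [h2, (residue_eq_zero_iff _).mpr hγ, map_zero, zero_mul]

/-- Congruent series have the same reduction. -/
theorem IsSmall.redL_eq {γ : QBar} {x y : LSer} (h : IsSmall A γ (x - y)) (hγ : γ ∈ A.nonunits)
    (hx : x ∈ locS A) (hy : y ∈ locS A) : redL A ⟨x, hx⟩ = redL A ⟨y, hy⟩ := by
  have := h.redL_eq_zero hγ (sub_mem hx hy)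
  rw [show (⟨x - y, sub_mem hx hy⟩ : locS A) = ⟨x, hx⟩ - ⟨y, hy⟩ from rfl, map_sub,
    sub_eq_zero] at this
  exact this

variable {q : ℕ} [hq : Fact q.Prime]

/-- A series with zero reduction is a small multiple of one with nonzero reduction or zero. -/
theorem exists_isSmall_of_redL_eq_zero (hA : A.LiesOverPrime q) {x : LSer} (hx : x ∈ locS A)
    (h0 : redL A ⟨x, hx⟩ = 0) : ∃ γ ∈ A.nonunits, IsSmall A γ x := by
  rcases eq_or_ne x 0 with rfl | hx0
  · exact ⟨0, A.nonunits.zero_mem, isSmall_zero 0⟩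
  obtain ⟨c, hc, hcx, hcr⟩ := exists_scale hA hq.out (locS_le_fracS hx) hx0
  refine ⟨c⁻¹, ?_, ⟨_, hcx, by rw [← mul_assoc, ← map_mul, inv_mul_cancel₀ hc, map_one, one_mul]⟩⟩
  rcases mem_nonunits_or_valuation_ge (A := A) (x := c⁻¹) with h | h
  · exact h
  · exfalso
    have hcA : c ∈ A := by
      rw [← A.valuation_le_one_iff]
      rw [map_inv₀] at h
      exact (one_le_inv₀ (zero_lt_iff.mpr ((Valuation.ne_zero_iff _).mpr hc))).mp h
    obtain ⟨_, he⟩ := redL_const_mul hcA hx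
    exact hcr ((he).trans (by rw [h0, mul_zero]))

end Fermat.Agent.OrdinaryAtP

end
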