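import Fermat.Agent.OrdinaryAtP.Flat.Proj
import Fermat.Agent.Semistable.Classes
import Mathlib.RingTheory.Nullstellensatz

/-!
# Approximately soluble polynomial equations over the algebraic numbers

A polynomial system with approximate integral solutions of every accuracy has a solution; and a
function approximately equal to a power on a finite dimensional space is such a power.
-/

set_option autoImplicit false

noncomputable section

namespace Fermat.Agent.OrdinaryAtP

open MvPolynomial
open Semistable (locS fracS loc2 redL)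
open Arith (QBar)

variable {A : ValuationSubring QBar}

theorem mem_of_mul_coeff_mem {σ : Type*} {u : MvPolynomial σ QBar} {t : QBar}
    (hu : ∀ d, t * coeff d u ∈ A) {x : σ → QBar} (hx : ∀ i, x i ∈ A) : t * eval x u ∈ A := by
  rw [eval_eq, Finset.mul_sum]
  refine sum_mem fun d _ => ?_
  rw [← mul_assoc]
  exact mul_mem (hu d) (prod_mem fun i _ => pow_mem (hx i) _)

/-- A system with integral approximate solutions of every accuracy is soluble. -/
theorem exists_zero_of_approx {σ κ : Type*} [Finite σ] [Fintype κ]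
    (E : κ → MvPolynomial σ QBar) {q : ℕ} (hq : q.Prime) (hA : A.LiesOverPrime q)
    (h : ∀ γ : QBar, γ ≠ 0 → ∃ x : σ → QBar, (∀ i, x i ∈ A) ∧
      ∀ k, A.valuation (eval x (E k)) ≤ A.valuation γ) :
    ∃ x : σ → QBar, ∀ k, eval x (E k) = 0 := by
  classical
  set I : Ideal (MvPolynomial σ QBar) := Ideal.span (Set.range E) with hI
  by_cases hne : (zeroLocus QBar I).Nonempty
  · obtain ⟨x, hx⟩ := hne
    refine ⟨x, fun k => ?_⟩
    have := (mem_zeroLocus_iff.mp hx) (E k) (Ideal.subset_span ⟨k, rfl⟩)
    rwa [aeval_eq_eval] at this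
  exfalso
  have htop : I = ⊤ := by
    rw [← Ideal.radical_eq_top, ← vanishingIdeal_zeroLocus_eq_radical (K := QBar),
      Set.not_nonempty_iff_eq_empty.mp hne, vanishingIdeal_empty]
  obtain ⟨u, hu⟩ := Ideal.mem_span_range_iff_exists_fun.mp
    (show (1 : MvPolynomial σ QBar) ∈ Ideal.span (Set.range E) by rw [← hI, htop]; trivial)
  choose n hn0 hn using fun kd : (k : κ) × (u k).support =>
    Semistable.exists_natCast_mul_mem (A := A) (coeff kd.2.1 (u kd.1))
  set t : QBar := ((∏ kd, n kd : ℕ) : QBar) with htdef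
  have ht : ∀ k d, t * coeff d (u k) ∈ A := by
    intro k d
    by_cases hd : d ∈ (u k).support
    · rw [htdef, ← Finset.mul_prod_erase _ _ (Finset.mem_univ (⟨k, d, hd⟩ : (k : κ) × (u k).support)),
        Nat.cast_mul, mul_right_comm]
      exact mul_mem (hn _) (natCast_mem A _)
    · rw [notMem_support_iff.mp hd, mul_zero]
      exact zero_mem A
  have ht0 : t ≠ 0 := by
    rw [htdef]
    exact Nat.cast_ne_zero.mpr (Finset.prod_ne_zero_iff.mpr fun kd _ => hn0 kd)
  have hq0 : (q : QBar) ≠ 0 := Nat.cast_ne_zero.mpr hq.ne_zero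
  obtain ⟨x, hxA, hx⟩ := h (t * q) (mul_ne_zero ht0 hq0)
  have hbound : A.valuation t ≤ A.valuation (t * q) := by
    have he : t = ∑ k, t * eval x (u k) * eval x (E k) := by
      have := congrArg (fun P => t * eval x P) hu
      simp only [map_sum, map_mul, map_one, mul_one, Finset.mul_sum, ← mul_assoc] at this
      exact this.symm
    conv_lhs => rw [he]
    refine Valuation.map_sum_le _ fun k _ => ?_
    rw [map_mul]
    exact le_trans (mul_le_mul' ((A.valuation_le_one_iff _).mpr
      (mem_of_mul_coeff_mem (ht k) hxA)) (hx k)) (one_mul _).le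
  have hpos : 0 < A.valuation t := zero_lt_iff.mpr ((Valuation.ne_zero_iff _).mpr ht0)
  have hqn : A.valuation (q : QBar) < 1 := (ValuationSubring.mem_nonunits_iff A).mp hA
  rw [map_mul] at hbound
  exact absurd hbound (not_le.mpr (mul_lt_of_lt_one_right hpos hqn))

variable {F : Type*} [Field F] [Algebra QBar F] {q : ℕ} [hq : Fact q.Prime]

/-- A basis of a finite dimensional space of functions with independent reductions. -/
theorem exists_echelon_basis (hA : A.LiesOverPrime q) {S : Type*} [Finite S] [Nonempty S]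
    (ι : S → (F →ₐ[QBar] Semistable.LSer)) (hfrac : ∀ s x, ι s x ∈ fracS A)
    (V : Submodule QBar F) [FiniteDimensional QBar V] :
    ∃ (b : Module.Basis (Fin (Module.finrank QBar V)) QBar V)
      (hb : ∀ k s, ι s (b k : F) ∈ locS A),
      LinearIndependent (Semistable.Res A) fun k s => redL A ⟨ι s (b k : F), hb k s⟩ := by
  have e := Submodule.equivMapOfInjective (Semistable.embLin ι) (Semistable.embLin_injective ι) V
  have : FiniteDimensional QBar (V.map (Semistable.embLin ι)) := Module.Finite.equiv e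
  obtain ⟨w, hw, hwV, hwi⟩ := Semistable.echelon (L := QBar) hA hq.out
    (V.map (Semistable.embLin ι)) (by
      rintro _ ⟨x, -, rfl⟩ s
      exact Semistable.fracOver_self_iff.mpr (hfrac s x))
  choose v hvV hve using fun a => Submodule.mem_map.mp (hwV a)
  let c : Fin (Module.finrank QBar V) → Fin (Module.finrank QBar (V.map (Semistable.embLin ι))) :=
    Fin.cast e.finrank_eq
  have hli : LinearIndependent QBar fun k => (⟨v (c k), hvV _⟩ : V) := by
    refine LinearIndependent.of_comp ((Semistable.embLin ι).comp V.subtype) ?_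
    convert (Semistable.linearIndependent_of_red hwi).comp c (Fin.cast_injective _) using 1
    funext k
    exact hve (c k)
  have hvs : ∀ a s, ι s (v a) = w a s := fun a s => congrFun (hve a) s
  let b : Module.Basis (Fin (Module.finrank QBar V)) QBar V :=
    Module.Basis.mk hli (hli.span_eq_top_of_card_eq_finrank' (by rw [Fintype.card_fin])).ge
  have hbk : ∀ k, (b k : F) = v (c k) := fun k => by rw [Module.Basis.mk_apply]
  have hb : ∀ k s, ι s (b k : F) ∈ locS A := fun k s => by rw [hbk, hvs]; exact hw _ s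
  refine ⟨b, hb, ?_⟩
  have e2 : (fun k s => redL A ⟨ι s (b k : F), hb k s⟩) =
      (fun a s => redL A ⟨w a s, hw a s⟩) ∘ c := by
    funext k s
    exact Semistable.redL_congr _ _ (by rw [hbk, hvs])
  rw [e2]
  exact hwi.comp c (Fin.cast_injective _)

/-- Integral elements of a space have integral coordinates, small ones small coordinates. -/
theorem valuation_repr_le {S : Type*} {ι : S → (F →ₐ[QBar] Semistable.LSer)}
    {V : Submodule QBar F} {κ : Type*} [Fintype κ] (b : Module.Basis κ QBar V)
    (hb : ∀ k s, ι s (b k : F) ∈ locS A)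
    (hi : LinearIndependent (Semistable.Res A) fun k s => redL A ⟨ι s (b k : F), hb k s⟩)
    {x : V} {γ : QBar} (hx : ∀ s, IsSmall A γ (ι s (x : F))) (k : κ) :
    A.valuation (b.repr x k) ≤ A.valuation γ := by
  refine valuation_coord_le (e := fun k s => ι s (b k : F)) hb hi (fun s => ?_) k
  convert hx s
  conv_rhs => rw [← b.sum_repr x]
  rw [Submodule.coe_sum, map_sum]
  refine Finset.sum_congr rfl fun l _ => ?_
  rw [Submodule.coe_smul, Algebra.smul_def, map_mul, AlgHom.commutes]

/-- A power approximated in a finite dimensional space is attained there. -/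
theorem exists_pow_eq_of_approx (hA : A.LiesOverPrime q) {S : Type*} [Finite S] [Nonempty S]
    (ι : S → (F →ₐ[QBar] Semistable.LSer)) (hfrac : ∀ s x, ι s x ∈ fracS A)
    (V W : Submodule QBar F) [FiniteDimensional QBar V] [FiniteDimensional QBar W] (m : ℕ)
    (f P : F) (hW : ∀ x ∈ V, f * x ^ m - P ∈ W)
    (h : ∀ γ : QBar, γ ≠ 0 → ∃ x ∈ V, (∀ s, ι s x ∈ locS A) ∧
      ∀ s, IsSmall A γ (ι s (f * x ^ m - P))) :
    ∃ x ∈ V, f * x ^ m = P := by
  classical
  obtain ⟨b, hb, hbi⟩ := exists_echelon_basis hA ι hfrac V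
  obtain ⟨b', hb', hbi'⟩ := exists_echelon_basis hA ι hfrac W
  choose l hl using fun k => (b'.coord k).exists_extend
  set Φ : MvPolynomial (Fin (Module.finrank QBar V)) F :=
    C f * (∑ k, C (b k : F) * X k) ^ m - C P with hΦ
  let E : Fin (Module.finrank QBar W) → MvPolynomial (Fin (Module.finrank QBar V)) QBar :=
    fun j => ∑ d ∈ Φ.support, monomial d (l j (coeff d Φ))
  have hev : ∀ (x : Fin (Module.finrank QBar V) → QBar) (j), eval x (E j) =
      l j (f * ((∑ k, x k • b k : V) : F) ^ m - P) := by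
    intro x j
    have e1 : eval (fun k => algebraMap QBar F (x k)) Φ =
        f * ((∑ k, x k • b k : V) : F) ^ m - P := by
      simp only [hΦ, map_sub, map_mul, map_pow, map_sum, eval_C, eval_X, Submodule.coe_sum,
        Submodule.coe_smul, Algebra.smul_def, mul_comm]
    conv_rhs => rw [← e1, eval_eq, map_sum]
    simp only [E, map_sum, eval_monomial]
    refine Finset.sum_congr rfl fun d _ => ?_
    rw [Finsupp.prod, mul_comm]
    simp only [← map_pow, ← map_prod]
    rw [mul_comm (coeff d Φ), ← Algebra.smul_def, map_smul, smul_eq_mul]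
  have hcoord : ∀ (x : Fin (Module.finrank QBar V) → QBar) (j), eval x (E j) =
      b'.repr ⟨_, hW _ (∑ k, x k • b k : V).2⟩ j := fun x j => by
    rw [hev]
    exact LinearMap.congr_fun (hl j) ⟨_, hW _ (∑ k, x k • b k : V).2⟩
  obtain ⟨x, hx⟩ := exists_zero_of_approx E hq.out hA fun γ hγ => by
    obtain ⟨y, hyV, hy, hys⟩ := h γ hγ
    refine ⟨fun k => b.repr ⟨y, hyV⟩ k, fun k => (A.valuation_le_one_iff _).mp ?_, fun j => ?_⟩
    · have := valuation_repr_le b hb hbi (x := ⟨y, hyV⟩) (γ := 1)
        (fun s => isSmall_one_iff.mpr (hy s)) k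
      rwa [map_one] at this
    · rw [hcoord]
      refine valuation_repr_le b' hb' hbi' (fun s => ?_) j
      rw [b.sum_repr]
      exact hys s
  refine ⟨_, (∑ k, x k • b k : V).2, sub_eq_zero.mp ?_⟩
  have h0 : (⟨_, hW _ (∑ k, x k • b k : V).2⟩ : W) = 0 :=
    b'.repr.injective (Finsupp.ext fun j => by rw [← hcoord x j, hx j, map_zero]; rfl)
  exact congrArg Subtype.val h0

/-- `(X + Y) ^ q` up to terms divisible by `q Y ^ 2`. -/
theorem exists_add_pow_eq {R : Type*} [CommRing R] (S : Subring R) (hq : q.Prime) {X Y : R}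
    (hX : X ∈ S) (hY : Y ∈ S) :
    ∃ Z ∈ S, (X + Y) ^ q = X ^ q + q * (X ^ (q - 1) * Y) + q * (Y ^ 2 * Z) + Y ^ q := by
  obtain ⟨r, rfl⟩ : ∃ r, q = r + 2 := ⟨q - 2, by have := hq.two_le; omega⟩
  refine ⟨∑ i ∈ Finset.range r, (((r + 2).choose (i + 2) / (r + 2) : ℕ) : R) * Y ^ i * X ^ (r - i),
    sum_mem fun i _ => mul_mem (mul_mem (natCast_mem S _) (pow_mem hY _)) (pow_mem hX _), ?_⟩
  rw [add_comm X Y, add_pow, Finset.sum_range_succ, Finset.sum_range_succ', Finset.sum_range_succ']
  rw [show r + 2 - 1 = r + 1 from rfl, Finset.mul_sum, Finset.mul_sum]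
  have key : ∀ i ∈ Finset.range r, Y ^ (i + 1 + 1) * X ^ (r + 2 - (i + 1 + 1)) *
      (((r + 2).choose (i + 1 + 1) : ℕ) : R) = ((r + 2 : ℕ) : R) * (Y ^ 2 *
        ((((r + 2).choose (i + 2) / (r + 2) : ℕ) : R) * Y ^ i * X ^ (r - i))) := by
    intro i hi
    have hi' := Finset.mem_range.mp hi
    have e : (r + 2).choose (i + 2) = (r + 2) * ((r + 2).choose (i + 2) / (r + 2)) :=
      (Nat.mul_div_cancel' (hq.dvd_choose_self (by omega) (by omega))).symm
    rw [show i + 1 + 1 = i + 2 from rfl, show r + 2 - (i + 2) = r - i by omega]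
    conv_lhs => rw [e, Nat.cast_mul]
    ring
  rw [Finset.sum_congr rfl key]
  simp only [Nat.choose_zero_right, Nat.choose_self, zero_add, Nat.choose_one_right, Nat.sub_zero,
    Nat.cast_one, pow_zero, pow_one, Nat.sub_self, show r + 2 - 1 = r + 1 from rfl]
  push_cast
  ring

end Fermat.Agent.OrdinaryAtP

end
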