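import Fermat.Agent.GaloisReps.Models
import Fermat.Agent.NewformLocal.Det
import Fermat.Agent.OrdinaryAtP.Saturation
import Fermat.Agent.OrdinaryAtP.StrictFlat
import Fermat.Agent.OrdinaryAtP.Flat.Moved
import Fermat.Agent.OrdinaryAtP.Flat.Point

/-!
# The strict line at `q` of an eigen-lattice new at `q`

Let the classes of the vectors of an eigen-lattice be killed by both push forwards. If the vectors
`τ v - v` (`τ` in inertia) and `σ² v - v` (`σ` a Frobenius) span a submodule of rank two, then all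
classes of order `q` of the lattice are flat new, so inertia acts on the lattice modulo `q` as it
does on flat new classes. For odd `q` this contradicts the determinant, so the saturation of the
span is a line.
-/

set_option autoImplicit false
set_option synthInstance.maxHeartbeats 400000
set_option maxHeartbeats 1000000
set_option linter.unusedSectionVars false

noncomputable section

namespace Fermat.Agent.OrdinaryAtP

open AlgebraicCurve ModularCurve Semistable JacTorsion Module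
open Arith (QBar GQ)
open GaloisReps (FullHecke eigenspace)
open scoped Matrix Pointwise

section Functional

variable {p : ℕ} [Fact p.Prime] {O : Type} [CommRing O] (ι : ℤ_[p] →+* O)

theorem comp_map_mulVec {d : ℕ} {lam : O →+ ℤ_[p]} (hlam : ∀ c y, lam (ι c * y) = c * lam y)
    (X : Matrix (Fin d) (Fin d) ℤ_[p]) (v : Fin d → O) :
    ⇑lam ∘ (X.map ι *ᵥ v) = X *ᵥ (⇑lam ∘ v) := by
  funext i
  simp [Matrix.mulVec, dotProduct, map_sum, hlam]

/-- Over a finite coefficient ring the functionals detect divisibility by `p`. -/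
theorem natCast_dvd_of_forall_functional [IsDomain O] [CharZero O]
    (hfin : letI := ι.toAlgebra; Module.Finite ℤ_[p] O) (x : O)
    (h : ∀ lam : O →+ ℤ_[p], (∀ c y, lam (ι c * y) = c * lam y) → (p : ℤ_[p]) ∣ lam x) :
    (p : O) ∣ x := by
  letI := ι.toAlgebra
  have : Module.Finite ℤ_[p] O := hfin
  have hι : Function.Injective ι := by
    refine (injective_iff_map_eq_zero ι).mpr fun a ha => ?_
    by_contra h0
    rw [PadicInt.unitCoeff_spec h0, map_mul, map_pow, map_natCast] at ha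
    exact mul_ne_zero ((RingHom.isUnit_map ι (PadicInt.unitCoeff h0).isUnit).ne_zero)
      (pow_ne_zero _ (Nat.cast_ne_zero.mpr (Fact.out : p.Prime).ne_zero)) ha
  have : FaithfulSMul ℤ_[p] O := (faithfulSMul_iff_algebraMap_injective _ _).mpr hι
  have : Module.IsTorsionFree ℤ_[p] O := Module.IsTorsionFree.of_smul_eq_zero fun c y hy => by
    rw [Algebra.smul_def] at hy
    exact (mul_eq_zero.mp hy).imp (fun h0 => hι (h0.trans (map_zero ι).symm)) id
  have : Module.Free ℤ_[p] O := Module.free_of_finite_type_torsion_free'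
  have hdvd : ∀ i, (p : ℤ_[p]) ∣ (Module.Free.chooseBasis ℤ_[p] O).repr x i := fun i =>
    h ((Module.Free.chooseBasis ℤ_[p] O).coord i).toAddMonoidHom fun c y => by
      show (Module.Free.chooseBasis ℤ_[p] O).coord i (c • y) = _
      rw [map_smul, smul_eq_mul]
      rfl
  choose a ha using hdvd
  refine ⟨∑ i, a i • Module.Free.chooseBasis ℤ_[p] O i, ?_⟩
  conv_lhs => rw [← (Module.Free.chooseBasis ℤ_[p] O).sum_repr x]
  rw [Finset.mul_sum]
  refine Finset.sum_congr rfl fun i _ => ?_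
  rw [ha, mul_smul, Algebra.smul_def (p : ℤ_[p]), map_natCast]

end Functional

variable {A : ValuationSubring QBar} {q M : ℕ} [hq : Fact q.Prime] [NeZero M]
  {O : Type} [CommRing O] [IsDomain O] [IsDiscreteValuationRing O] [CharZero O]
  (ι : ℤ_[q] →+* O) (θ : FullHecke (q * M) →+* O)

local notation "MD[" a ", " b "]" => GaloisReps.heckeGaloisModel (a * b) a
local notation "ME[" a ", " b "]" =>
  GaloisReps.torsionIso (a * b) a (GaloisReps.conjProperty (a * b))

theorem point_comp_sub (lam : O →+ ℤ_[q]) (n : ℕ) (u v : eigenspace MD[q, M].hecke θ) :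
    point ME[q, M] n (⇑lam ∘ ((u - v : eigenspace MD[q, M].hecke θ) : Fin MD[q, M].d → O)) =
      point ME[q, M] n (⇑lam ∘ (u : Fin MD[q, M].d → O)) -
        point ME[q, M] n (⇑lam ∘ (v : Fin MD[q, M].d → O)) :=
  (congrArg (point ME[q, M] n) (funext fun _ => map_sub lam _ _)).trans (map_sub _ _ _)

/-- Galois on the classes of the functionals of a vector. -/
theorem galois_point_comp {lam : O →+ ℤ_[q]} (hlam : ∀ c y, lam (ι c * y) = c * lam y) (n : ℕ)
    (σ : GQ) (v : eigenspace MD[q, M].hecke θ) :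
    σ • point ME[q, M] n (⇑lam ∘ (v : Fin MD[q, M].d → O)) =
      point ME[q, M] n (⇑lam ∘ (MD[q, M].eigenAction ι θ σ v : Fin MD[q, M].d → O)) := by
  refine (galois_point ME[q, M] n σ _).trans (congrArg (point ME[q, M] n) ?_)
  rw [GaloisReps.HeckeGaloisModel.coe_eigenAction]
  exact (comp_map_mulVec ι hlam _ _).symm

variable (A)

/-- The span of the vectors moved by inertia and by squares of Frobenius elements. -/
def strictSpan : Submodule O (eigenspace MD[q, M].hecke θ) :=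
  Submodule.span O {y | (∃ τ ∈ A.inertiaSubgroupIn ℚ, ∃ v, MD[q, M].eigenAction ι θ τ v - v = y) ∨
    ∃ σ, A.IsFrobeniusAt σ q ∧
      ∃ v, MD[q, M].eigenAction ι θ σ (MD[q, M].eigenAction ι θ σ v) - v = y}

variable {A}

theorem map_mem_strictSpan {δ : GQ} (hδ : δ ∈ A.decompositionSubgroup ℚ)
    {y : eigenspace MD[q, M].hecke θ} (hy : y ∈ strictSpan A ι θ) :
    MD[q, M].eigenAction ι θ δ y ∈ strictSpan A ι θ := by
  refine Submodule.span_induction ?_ (by rw [map_zero]; exact zero_mem _)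
    (fun x z _ _ hx hz => by rw [map_add]; exact add_mem hx hz)
    (fun c x _ hx => by rw [map_smul]; exact Submodule.smul_mem _ c hx) hy
  have hA : δ • A = A := Arith.mem_decomposition_iff.mp hδ
  rintro _ (⟨τ, hτ, v, rfl⟩ | ⟨σ, hσ, v, rfl⟩)
  · have hconj : δ * τ * δ⁻¹ ∈ A.inertiaSubgroupIn ℚ := by
      have := (Arith.mem_inertia_smul_iff (g := δ) (A := A)).mpr hτ
      rwa [hA] at this
    refine Submodule.subset_span (Or.inl ⟨_, hconj, MD[q, M].eigenAction ι θ δ v, ?_⟩)
    rw [map_sub, ← Module.End.mul_apply, ← map_mul, inv_mul_cancel_right, map_mul,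
      Module.End.mul_apply]
  · have hconj : A.IsFrobeniusAt (δ * σ * δ⁻¹) q := by
      have := Arith.isFrobeniusAt_conj (g := δ) hσ
      rwa [hA] at this
    refine Submodule.subset_span (Or.inr ⟨_, hconj, MD[q, M].eigenAction ι θ δ v, ?_⟩)
    have e : ∀ w, MD[q, M].eigenAction ι θ (δ * σ * δ⁻¹) (MD[q, M].eigenAction ι θ δ w) =
        MD[q, M].eigenAction ι θ δ (MD[q, M].eigenAction ι θ σ w) := fun w => by
      rw [← Module.End.mul_apply, ← map_mul, inv_mul_cancel_right, map_mul, Module.End.mul_apply]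
    rw [e, e, map_sub]

variable (hqM : ¬ q ∣ M)
  (hnew : ∀ (v : eigenspace MD[q, M].hecke θ) (lam : O →+ ℤ_[q]),
    (∀ c y, lam (ι c * y) = c * lam y) → ∀ n,
      pushUp q M (point ME[q, M] n (⇑lam ∘ (v : Fin MD[q, M].d → O))) = 0 ∧
      pushW q M hqM (point ME[q, M] n (⇑lam ∘ (v : Fin MD[q, M].d → O))) = 0)

include hnew in
/-- The functionals of the vectors of `strictSpan` give flat classes of every level. -/
theorem point_mem_flatCls_of_mem_strictSpan (hA : A.LiesOverPrime q) (k : ℕ)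
    {y : eigenspace MD[q, M].hecke θ} (hy : y ∈ strictSpan A ι θ) :
    ∀ lam : O →+ ℤ_[q], (∀ c y, lam (ι c * y) = c * lam y) →
      point ME[q, M] k (⇑lam ∘ (y : Fin MD[q, M].d → O)) ∈ flatCls A q M hqM (q ^ k) := by
  have := Arith.residueField_charP hA hq.out
  have hM : (M : Res A) ≠ 0 := fun h0 => hqM ((CharP.cast_eq_zero_iff (Res A) q M).mp h0)
  refine Submodule.span_induction ?_ ?_ ?_ ?_ hy
  · rintro _ (⟨τ, hτ, v, rfl⟩ | ⟨σ, hσ, v, rfl⟩) lam hlam
    · rw [point_comp_sub, ← galois_point_comp ι θ hlam]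
      exact smul_sub_mem_flatCls hA (nsmul_pow_point ME[q, M] k _) hτ
    · rw [point_comp_sub, ← galois_point_comp ι θ hlam, ← galois_point_comp ι θ hlam]
      exact frobSq_sub_mem_flatCls_of_push hqM hA hM hσ (zsmul_pow_point ME[q, M] k _)
        (hnew v lam hlam k).1 (hnew v lam hlam k).2
  · intro lam _
    have e : ⇑lam ∘ ((0 : eigenspace MD[q, M].hecke θ) : Fin MD[q, M].d → O) = 0 :=
      funext fun _ => map_zero lam
    rw [show point ME[q, M] k (⇑lam ∘ ((0 : eigenspace MD[q, M].hecke θ) : Fin MD[q, M].d → O)) =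
      0 from (congrArg (point ME[q, M] k) e).trans (map_zero _)]
    exact zero_mem _
  · intro u v _ _ hu hv lam hlam
    have e : ⇑lam ∘ ((u + v : eigenspace MD[q, M].hecke θ) : Fin MD[q, M].d → O) =
        ⇑lam ∘ (u : Fin MD[q, M].d → O) + ⇑lam ∘ (v : Fin MD[q, M].d → O) :=
      funext fun _ => map_add lam _ _
    rw [show point ME[q, M] k (⇑lam ∘ ((u + v : eigenspace MD[q, M].hecke θ) : Fin MD[q, M].d → O)) =
      point ME[q, M] k (⇑lam ∘ (u : Fin MD[q, M].d → O)) +
        point ME[q, M] k (⇑lam ∘ (v : Fin MD[q, M].d → O)) from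
      (congrArg (point ME[q, M] k) e).trans (map_add _ _ _)]
    exact add_mem (hu lam hlam) (hv lam hlam)
  · intro a v _ hv lam hlam
    exact hv (lam.comp (AddMonoidHom.mulLeft a)) fun c z => by
      show lam (a * (ι c * z)) = c * lam (a * z)
      rw [mul_left_comm, hlam]

theorem nsmul_point_succ (k : ℕ) (w : Fin (2 * Gamma0.genus (q * M)) → ℤ_[q]) :
    q ^ k • point ME[q, M] (k + 1) w = point ME[q, M] 1 w := by
  induction k with
  | zero => rw [pow_zero, one_smul]
  | succ k ih => rw [pow_succ, mul_smul, point_succ, ih]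

include hnew in
/-- If the span has rank two, the classes of order `q` of the lattice are flat new. -/
theorem point_one_mem_flatNew (hA : A.LiesOverPrime q) (hp : (q : O) ∈ IsLocalRing.maximalIdeal O)
    {c : O} (hc : c ≠ 0) (hall : ∀ v, c • v ∈ strictSpan A ι θ) (v : eigenspace MD[q, M].hecke θ)
    {lam : O →+ ℤ_[q]} (hlam : ∀ c y, lam (ι c * y) = c * lam y) :
    point ME[q, M] 1 (⇑lam ∘ (v : Fin MD[q, M].d → O)) ∈ flatNew A q M hqM q := by
  have := Arith.residueField_charP hA hq.out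
  obtain ⟨k, e, hke⟩ : ∃ k : ℕ, c ∣ (q : O) ^ k := by
    obtain ⟨ϖ, hϖ⟩ := IsDiscreteValuationRing.exists_irreducible O
    obtain ⟨j, u, rfl⟩ := IsDiscreteValuationRing.eq_unit_mul_pow_irreducible hc hϖ
    rw [hϖ.maximalIdeal_eq, Ideal.mem_span_singleton] at hp
    exact ⟨j, (u.isUnit.mul_left_dvd).mpr (pow_dvd_pow_of_dvd hp j)⟩
  have e1 : ⇑lam ∘ ((c • (e • v) : eigenspace MD[q, M].hecke θ) : Fin MD[q, M].d → O) =
      (q ^ k) • (⇑lam ∘ (v : Fin MD[q, M].d → O)) := funext fun i => by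
    show lam (c * (e * (v : Fin MD[q, M].d → O) i)) = q ^ k • lam _
    rw [← mul_assoc, ← hke, ← map_nsmul, nsmul_eq_mul, Nat.cast_pow]
  have h1 := point_mem_flatCls_of_mem_strictSpan ι θ hqM hnew hA (k + 1) (hall (e • v)) lam hlam
  rw [show point ME[q, M] (k + 1) (⇑lam ∘ ((c • (e • v) : eigenspace MD[q, M].hecke θ) :
      Fin MD[q, M].d → O)) = point ME[q, M] 1 (⇑lam ∘ (v : Fin MD[q, M].d → O)) from
    ((congrArg (point ME[q, M] (k + 1)) e1).trans (map_nsmul _ _ _)).trans
      (nsmul_point_succ k _)] at h1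
  have hkill := nsmul_pow_point ME[q, M] 1 (⇑lam ∘ (v : Fin MD[q, M].d → O))
  rw [pow_one] at hkill
  obtain ⟨f, hf, hu⟩ := mem_flatCls_of_nsmul hA h1 hkill
  exact ⟨f, hf, hu, isNormPow_of_push hqM f (by rw [hf]; exact (hnew v lam hlam 1).1)
    (by rw [hf]; exact (hnew v lam hlam 1).2)⟩

variable (hsep : ∀ x : O,
    (∀ lam : O →+ ℤ_[q], (∀ c y, lam (ι c * y) = c * lam y) → (q : ℤ_[q]) ∣ lam x) → (q : O) ∣ x)

include hnew hsep in
/-- If the span has rank two, an element scalar on flat new classes is scalar modulo `q`. -/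
theorem dvd_eigenMatrix_sub (hA : A.LiesOverPrime q) (hp : (q : O) ∈ IsLocalRing.maximalIdeal O)
    {c : O} (hc : c ≠ 0) (hall : ∀ v, c • v ∈ strictSpan A ι θ) {τ : GQ} {e : ℤ}
    (hτ : ∀ x ∈ flatNew A q M hqM q, τ • x = e • x) (i j : Fin 2) :
    (q : O) ∣ MD[q, M].eigenMatrix ι θ τ i j - (e : O) * (1 : Matrix (Fin 2) (Fin 2) O) i j := by
  have key : ∀ v, ∃ u, MD[q, M].eigenAction ι θ τ v = (e : O) • v + (q : O) • u := by
    intro v
    set z := MD[q, M].eigenAction ι θ τ v - (e : O) • v with hz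
    have hdiv : ∀ l, (q : O) ∣ (z : Fin MD[q, M].d → O) l := fun l => hsep _ fun lam hlam => by
      have h0 : point ME[q, M] 1 (⇑lam ∘ (z : Fin MD[q, M].d → O)) = 0 := by
        have e1 : ⇑lam ∘ (((e : O) • v : eigenspace MD[q, M].hecke θ) : Fin MD[q, M].d → O) =
            e • (⇑lam ∘ (v : Fin MD[q, M].d → O)) := funext fun i => by
          show lam ((e : O) * (v : Fin MD[q, M].d → O) i) = e • lam _
          rw [← map_zsmul, zsmul_eq_mul]
        rw [hz, point_comp_sub, show point ME[q, M] 1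
            (⇑lam ∘ (((e : O) • v : eigenspace MD[q, M].hecke θ) : Fin MD[q, M].d → O)) =
            e • point ME[q, M] 1 (⇑lam ∘ (v : Fin MD[q, M].d → O)) from
            (congrArg (point ME[q, M] 1) e1).trans (map_zsmul _ _ _), ← galois_point_comp ι θ hlam,
          hτ _ (point_one_mem_flatNew ι θ hqM hnew hA hp hc hall v hlam), sub_self]
      simpa using (point_eq_zero_iff_dvd ME[q, M] 1 _).mp h0 l
    choose u hu using hdiv
    have hzu : (z : Fin MD[q, M].d → O) = (q : O) • u := funext hu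
    have humem : u ∈ eigenspace MD[q, M].hecke θ := by
      rw [GaloisReps.mem_eigenspace]
      intro a
      have := (GaloisReps.mem_eigenspace _ _ _).mp z.2 a
      rw [hzu, Matrix.mulVec_smul, smul_comm] at this
      exact smul_right_injective (Fin MD[q, M].d → O) (Nat.cast_ne_zero.mpr hq.out.ne_zero) this
    refine ⟨⟨u, humem⟩, ?_⟩
    rw [show (q : O) • (⟨u, humem⟩ : eigenspace MD[q, M].hecke θ) = z from Subtype.ext hzu.symm, hz,
      add_sub_cancel]
  obtain ⟨u, hu⟩ := key (MD[q, M].eigenBasis θ j)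
  refine ⟨(MD[q, M].eigenBasis θ).repr u i, ?_⟩
  rw [GaloisReps.HeckeGaloisModel.eigenMatrix, LinearMap.toMatrix_apply, hu, map_add, map_smul,
    map_smul, Basis.repr_self, Finsupp.add_apply, Finsupp.smul_apply, Finsupp.smul_apply,
    smul_eq_mul, smul_eq_mul, Matrix.one_apply, Finsupp.single_apply]
  simp only [eq_comm (a := j)]
  ring

variable {ι θ}

/-- The model has cyclotomic determinant. -/
theorem detIsCyclotomic_rep (hp : (q : O) ∈ IsLocalRing.maximalIdeal O) :
    (MD[q, M].rep ι θ hp).DetIsCyclotomic q :=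
  ⟨hp, fun n σ a h => Ideal.mem_span_singleton.mpr (by
    rw [Nat.cast_pow]
    exact MD[q, M].det_eigenAction_congr ι θ hp h)⟩

/-- The line, when no multiple of the lattice lies in the span. -/
theorem exists_strictLine_of_not (hA : A.LiesOverPrime q)
    (hp : (q : O) ∈ IsLocalRing.maximalIdeal O)
    (hbig : ∀ c : O, c ≠ 0 → ∃ v, c • v ∉ strictSpan A ι θ) :
    ∃ L : Submodule O (eigenspace MD[q, M].hecke θ),
      (∃ b : Basis (Fin 2) O (eigenspace MD[q, M].hecke θ), L = O ∙ b 0) ∧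
      (∀ δ ∈ A.decompositionSubgroup ℚ, ∀ v ∈ L, MD[q, M].eigenAction ι θ δ v ∈ L) ∧
      (∀ τ ∈ A.inertiaSubgroupIn ℚ, ∀ v, MD[q, M].eigenAction ι θ τ v - v ∈ L) ∧
      ∀ σ, A.IsFrobeniusAt σ q → ∀ v,
        MD[q, M].eigenAction ι θ σ (MD[q, M].eigenAction ι θ σ v) - v ∈ L := by
  obtain ⟨τ, hτ, hdet⟩ := exists_det_ne_one hq.out hA (detIsCyclotomic_rep (ι := ι) (θ := θ) hp)
  obtain ⟨v, hv⟩ : ∃ v, MD[q, M].eigenAction ι θ τ v - v ≠ 0 := by
    by_contra! h
    have h1 : MD[q, M].eigenAction ι θ τ = 1 := LinearMap.ext fun v => sub_eq_zero.mp (h v)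
    exact hdet ((congrArg LinearMap.det h1).trans (map_one _))
  obtain ⟨L, hb, hWL, hstab⟩ := exists_line_of_submodule
    (MD[q, M].finrank_eigenspace_domain θ) (W := strictSpan A ι θ)
    (Submodule.subset_span (Or.inl ⟨τ, hτ, v, rfl⟩)) hv hbig
  exact ⟨L, hb, fun δ hδ => hstab _ fun y hy => map_mem_strictSpan ι θ hδ hy,
    fun τ hτ v => hWL (Submodule.subset_span (Or.inl ⟨τ, hτ, v, rfl⟩)),
    fun σ hσ v => hWL (Submodule.subset_span (Or.inr ⟨σ, hσ, v, rfl⟩))⟩

include hnew hsep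

/-- **The strict line of a lattice new at an odd prime `q`.** -/
theorem exists_strictLine (hA : A.LiesOverPrime q) (hp : (q : O) ∈ IsLocalRing.maximalIdeal O)
    (hq2 : q ≠ 2)
    (hneg : ∃ τ ∈ A.inertiaSubgroupIn ℚ, (∀ z : QBar, z ^ q = 1 → τ z = z⁻¹) ∧
      ∀ x ∈ flatNew A q M hqM q, τ • x = -x) :
    ∃ L : Submodule O (eigenspace MD[q, M].hecke θ),
      (∃ b : Basis (Fin 2) O (eigenspace MD[q, M].hecke θ), L = O ∙ b 0) ∧
      (∀ δ ∈ A.decompositionSubgroup ℚ, ∀ v ∈ L, MD[q, M].eigenAction ι θ δ v ∈ L) ∧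
      (∀ τ ∈ A.inertiaSubgroupIn ℚ, ∀ v, MD[q, M].eigenAction ι θ τ v - v ∈ L) ∧
      ∀ σ, A.IsFrobeniusAt σ q → ∀ v,
        MD[q, M].eigenAction ι θ σ (MD[q, M].eigenAction ι θ σ v) - v ∈ L := by
  refine exists_strictLine_of_not hA hp fun c hc => ?_
  by_contra! hall
  obtain ⟨τ, -, hζ, hτ⟩ := hneg
  have hd := dvd_eigenMatrix_sub ι θ hqM hnew hsep hA hp hc hall
    (τ := τ) (e := -1) fun x hx => by rw [neg_one_zsmul]; exact hτ x hx
  set m := MD[q, M].eigenMatrix ι θ τ
  have h00 : (q : O) ∣ m 0 0 + 1 := by simpa using hd 0 0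
  have h11 : (q : O) ∣ m 1 1 + 1 := by simpa using hd 1 1
  have h01 : (q : O) ∣ m 0 1 := by simpa using hd 0 1
  have hdet1 : (q : O) ∣ LinearMap.det (MD[q, M].eigenAction ι θ τ) - 1 := by
    rw [← LinearMap.det_toMatrix (MD[q, M].eigenBasis θ)]
    change (q : O) ∣ m.det - 1
    rw [Matrix.det_fin_two, show m 0 0 * m 1 1 - m 0 1 * m 1 0 - 1 =
      (m 0 0 + 1) * m 1 1 - (m 1 1 + 1) - m 0 1 * m 1 0 by ring]
    exact dvd_sub (dvd_sub (h00.mul_right _) h11) (h01.mul_right _)
  have hcyc := MD[q, M].det_eigenAction_congr ι θ hp (s := τ) (q := q - 1) (n := 1) fun z hz => by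
    rw [pow_one] at hz
    rw [hζ z hz]
    exact inv_eq_of_mul_eq_one_right (by rw [← pow_succ', Nat.sub_add_cancel hq.out.pos, hz])
  rw [pow_one, Nat.cast_sub hq.out.pos, Nat.cast_one] at hcyc
  have h2 : (q : O) ∣ 2 := by
    have := dvd_add (dvd_sub hcyc hdet1) (dvd_refl (q : O))
    rwa [show LinearMap.det (MD[q, M].eigenAction ι θ τ) - ((q : O) - 1) -
      (LinearMap.det (MD[q, M].eigenAction ι θ τ) - 1) + (q : O) = 2 by ring] at this
  have h2m : (2 : O) ∈ IsLocalRing.maximalIdeal O := Ideal.mem_of_dvd _ h2 hp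
  obtain ⟨r, hr⟩ := hq.out.odd_of_ne_two hq2
  refine (IsLocalRing.maximalIdeal.isMaximal O).ne_top ((Ideal.eq_top_iff_one _).mpr ?_)
  have h3 := Ideal.sub_mem _ hp (Ideal.mul_mem_right (r : O) _ h2m)
  rwa [hr, Nat.cast_add, Nat.cast_mul, Nat.cast_ofNat, Nat.cast_one, add_sub_cancel_left] at h3

/-- **The strict line when inertia fixes the flat new classes** (as for `q = 2`): either it exists
or inertia is trivial on the lattice modulo `q`. -/
theorem exists_strictLine_or (hA : A.LiesOverPrime q) (hp : (q : O) ∈ IsLocalRing.maximalIdeal O)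
    (hfix : ∀ τ ∈ A.inertiaSubgroupIn ℚ, ∀ x ∈ flatNew A q M hqM q, τ • x = x) :
    (∃ L : Submodule O (eigenspace MD[q, M].hecke θ),
      (∃ b : Basis (Fin 2) O (eigenspace MD[q, M].hecke θ), L = O ∙ b 0) ∧
      (∀ δ ∈ A.decompositionSubgroup ℚ, ∀ v ∈ L, MD[q, M].eigenAction ι θ δ v ∈ L) ∧
      (∀ τ ∈ A.inertiaSubgroupIn ℚ, ∀ v, MD[q, M].eigenAction ι θ τ v - v ∈ L) ∧
      ∀ σ, A.IsFrobeniusAt σ q → ∀ v,
        MD[q, M].eigenAction ι θ σ (MD[q, M].eigenAction ι θ σ v) - v ∈ L) ∨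
    ∀ τ ∈ A.inertiaSubgroupIn ℚ, ∀ i j : Fin 2,
      (q : O) ∣ MD[q, M].eigenMatrix ι θ τ i j - (1 : Matrix (Fin 2) (Fin 2) O) i j := by
  by_cases hbig : ∀ c : O, c ≠ 0 → ∃ v, c • v ∉ strictSpan A ι θ
  · exact Or.inl (exists_strictLine_of_not hA hp hbig)
  · push Not at hbig
    obtain ⟨c, hc, hall⟩ := hbig
    refine Or.inr fun τ hτ i j => ?_
    have := dvd_eigenMatrix_sub ι θ hqM hnew hsep hA hp hc hall (e := 1)
      (fun x hx => by rw [one_zsmul]; exact hfix τ hτ x hx) i j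
    simpa using this

end Fermat.Agent.OrdinaryAtP

end
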