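import Fermat.Agent.OrdinaryAtP.Flat.Basics
import Fermat.Agent.OrdinaryAtP.Flat.Proj

/-!
# The threshold

A flat class with approximate roots has a section `φ` with `f φ ^ q ≡ 1` modulo `λ ^ q`,
`|λ| ^ (q - 1) = |q|`.
-/

set_option autoImplicit false
set_option maxHeartbeats 1000000
set_option linter.unusedSectionVars false

noncomputable section

namespace Fermat.Agent.OrdinaryAtP

open AlgebraicCurve ModularCurve Semistable
open Arith (QBar)

variable {A : ValuationSubring QBar} {q : ℕ} [hq : Fact q.Prime]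
  {M : ℕ} [NeZero M] [CharP (Res A) q] [FF.IsFunctionField (Res A) (KM A M)]
  (h : Setup A M q)
include h

theorem one_mem_HN (n : ℕ) : (1 : FB (q * M)) ∈ HN M q n := by
  rw [RedTorsion.mem_polesSpace]
  intro v
  refine FF.ordGe_anti v ?_ (FF.mem_ordGe_of_le v (n := 0) (by rw [v.ord_one]))
  have : (0 : ℤ) ≤ FF.poles QBar (upF M q (jM M)) v := by
    rw [FF.poles_apply]; exact le_max_left _ _
  nlinarith [Int.natCast_nonneg n]

/-- A pair whose `q`-th power is a reduction of level `q n` is a reduction of level `n`. -/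
theorem mem_glued_of_pow (hRoot : ∀ z : LaurentSeries (Res A), z ^ q ∈ KM A M → z ∈ KM A M)
    {n : ℕ} {w : Fin 2 → LaurentSeries (Res A)} (hw : (fun s => w s ^ q) ∈ glued h 1 (q * n)) :
    w ∈ glued h 1 n := by
  obtain ⟨a, b, ha, hb, e, hab⟩ := h.mem_glued.mp hw
  have e0 : w 0 ^ q = serR A M a := congrFun e 0
  have e1 : w 1 ^ q = serR A M b := congrFun e 1
  have h0 : w 0 ∈ KM A M := hRoot _ (e0 ▸ (a : KM A M).2)
  have h1 : w 1 ∈ KM A M := hRoot _ (e1 ▸ (b : KM A M).2)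
  have p0 : (⟨w 0, h0⟩ : KM A M) ^ q = (a : KM A M) := Subtype.ext (by
    rw [SubmonoidClass.coe_pow]; exact e0)
  have p1 : (⟨w 1, h1⟩ : KM A M) ^ q = (b : KM A M) := Subtype.ext (by
    rw [SubmonoidClass.coe_pow]; exact e1)
  have m0 : (⟨w 0, h0⟩ : KM A M) ∈ Hk A M n := root_mem_polesSpace hq.out.ne_zero (p0 ▸ ha)
  have m1 : (⟨w 1, h1⟩ : KM A M) ∈ Hk A M (q * n) := root_mem_polesSpace hq.out.ne_zero (p1 ▸ hb)
  refine h.mem_glued.mpr ⟨⟨⟨w 0, h0⟩, n, m0⟩, ⟨⟨w 1, h1⟩, q * n, m1⟩, m0, m1, ?_, fun χ => ?_⟩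
  · funext s; fin_cases s <;> rfl
  · have hab' := hab χ
    rw [show a = (⟨⟨w 0, h0⟩, n, m0⟩ : Rk A M) ^ q from Subtype.ext p0.symm,
      show b = (⟨⟨w 1, h1⟩, q * n, m1⟩ : Rk A M) ^ q from Subtype.ext p1.symm, map_pow, map_pow,
      Pi.one_apply, one_mul] at hab'
    rw [Pi.one_apply, one_mul]
    exact frobenius_inj (Res A) q hab'

/-- **Threshold**: some section improves a flat new Kummer function to the threshold. -/
theorem exists_threshold_of_approx
    (hRoot : ∀ z : LaurentSeries (Res A), z ^ q ∈ KM A M → z ∈ KM A M)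
    {lam : QBar} (hlam : A.valuation (lam ^ (q - 1)) = A.valuation (q : QBar))
    {D : Divisor QBar (FB (q * M))} {f : FB (q * M)} (hord : ∀ v, v.ord f = (q : ℤ) * D v)
    (hf : HasUnitRed A M q h.hqM f) {γ : QBar} (hγ : A.valuation γ ≤ A.valuation (lam ^ q))
    (hG : ∃ G : Fin 2 → LSer, ∀ s, ∃ hG : G s ∈ locS A, redL A ⟨G s, hG⟩ = 1 ∧
      IsSmall A γ (iota2 M q h.hqM s f - G s ^ q)) :
    ∃ (n : ℕ) (φ : FB (q * M)), φ ∈ HD M q D n ∧
      ∀ s, IsSmall A (lam ^ q) (iota2 M q h.hqM s (f * φ ^ q) - 1) := by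
  classical
  obtain ⟨G, hG⟩ := hG
  choose hGl hGr hGe using hG
  choose hTl hTr using fun s => inv_mem_locS (hGl s) (by rw [hGr s]; exact one_ne_zero)
  set T : Fin 2 → LSer := fun s => (G s)⁻¹ with hT
  have hG0 : ∀ s, G s ≠ 0 := fun s h0 => by
    have := hGr s
    rw [redL_congr _ (zero_mem _) h0] at this
    exact one_ne_zero (this.symm.trans (map_zero _))
  have hlA : lam ∈ A := Arith.mem_of_mem_nonunits (mem_nonunits_of_valuation_pow h.hA hlam)
  obtain ⟨n₀, hn₀⟩ := exists_LD_eq h hord hf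
  set n := n₀ + 1 with hn
  set V := (HD M q D n).map (embLin (iota2 M q h.hqM)) with hV
  have hVf : ∀ x ∈ V, ∀ s, x s ∈ fracS A := by
    rintro _ ⟨x, -, rfl⟩ s
    exact iota2_fracS M q h.hqM s x
  obtain ⟨v, hvV, hvl, hbest⟩ := exists_bestApprox h.hA V hVf hTl
  obtain ⟨φ, hφ, rfl⟩ := hvV
  refine ⟨n, φ, hφ, ?_⟩
  have hφl : ∀ s, iota2 M q h.hqM s φ ∈ locS A := hvl
  -- the contribution of the approximation error of the root
  have hmain : ∀ (s : Fin 2) (κ : QBar), A.valuation γ ≤ A.valuation κ →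
      IsSmall A κ (G s ^ q * iota2 M q h.hqM s φ ^ q - 1) →
      IsSmall A κ (iota2 M q h.hqM s (f * φ ^ q) - 1) := by
    intro s κ hκ hs
    rw [map_mul, map_pow, show iota2 M q h.hqM s f * iota2 M q h.hqM s φ ^ q - 1 =
      (iota2 M q h.hqM s f - G s ^ q) * iota2 M q h.hqM s φ ^ q +
        (G s ^ q * iota2 M q h.hqM s φ ^ q - 1) by ring]
    exact (((hGe s).mono hκ).mul_mem_locS (pow_mem (hφl s) q)).add hs
  by_cases hex : (fun s => T s - iota2 M q h.hqM s φ) = 0
  · intro s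
    refine hmain s _ hγ ?_
    rw [← sub_eq_zero.mp (congrFun hex s), hT, inv_pow,
      mul_inv_cancel₀ (pow_ne_zero _ (hG0 s)), sub_self]
    exact isSmall_zero _
  obtain ⟨μ, z, hμ0, hμz, hz, s₀, hs₀⟩ := exists_pairScale h.hA
    (fun s => sub_mem (locS_le_fracS (hTl s)) (iota2_fracS M q h.hqM s φ)) hex
  -- the error is small
  have hμn : μ ∈ A.nonunits := by
    by_contra hμ
    have hμi : μ⁻¹ ∈ A := by
      rw [← A.valuation_le_one_iff, map_inv₀]
      rw [ValuationSubring.mem_nonunits_iff, not_lt] at hμ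
      exact inv_le_one_of_one_le₀ hμ
    refine hs₀ (hbest μ z hz hμ0 hμz ?_ s₀)
    have hone : (1 : Fin 2 → LaurentSeries (Res A)) ∈ redImage A V := by
      show (1 : Fin 2 → LaurentSeries (Res A)) ∈ LD A h.hqM D n
      rw [(hn₀ n (by omega)).1, ← (hn₀ n (by omega)).2]
      exact mem_redSub.mpr ⟨1, one_mem_HN h n, map_one _⟩
    have hφr : (fun s => redL A ⟨iota2 M q h.hqM s φ, hφl s⟩) ∈ redImage A V :=
      mem_redImage.mpr ⟨_, ⟨φ, hφ, rfl⟩, hφl, rfl⟩
    convert Submodule.smul_mem _ (IsLocalRing.residue A ⟨μ⁻¹, hμi⟩) (sub_mem hone hφr) using 1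
    funext s
    obtain ⟨h', e'⟩ := redL_const_mul hμi (sub_mem (hTl s) (hφl s))
    have hz' : z s = algebraMap QBar LSer μ⁻¹ * (T s - iota2 M q h.hqM s φ) := by
      rw [hμz s, ← mul_assoc, ← map_mul, inv_mul_cancel₀ hμ0, map_one, one_mul]
    rw [redL_congr _ h' hz', e', show (⟨T s - iota2 M q h.hqM s φ, sub_mem (hTl s) (hφl s)⟩ :
      locS A) = ⟨T s, hTl s⟩ - ⟨iota2 M q h.hqM s φ, hφl s⟩ from rfl, map_sub, hTr s, hGr s,
      inv_one, Pi.smul_apply, ← HahnSeries.C_mul_eq_smul, algebraMap_laurentSeries_eq_single]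
    rfl
  have hμA : μ ∈ A := Arith.mem_of_mem_nonunits hμn
  -- the expansion
  set y : Fin 2 → LSer := fun s => -(G s * z s) with hy
  have hyl : ∀ s, y s ∈ locS A := fun s => neg_mem (mul_mem (hGl s) (hz s))
  have hexp : ∀ s, G s ^ q * iota2 M q h.hqM s φ ^ q =
      (1 + algebraMap QBar LSer μ * y s) ^ q := fun s => by
    rw [← mul_pow, show iota2 M q h.hqM s φ = T s - algebraMap QBar LSer μ * z s by
      rw [← hμz s, sub_sub_cancel], hT, hy]
    congr 1
    rw [mul_sub, mul_inv_cancel₀ (hG0 s)]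
    ring
  rcases le_or_gt (A.valuation μ) (A.valuation lam) with hle | hgt
  · intro s
    refine hmain s _ hγ ?_
    rw [hexp]
    have hqμ : A.valuation ((q : QBar) * μ) ≤ A.valuation (lam ^ q) := by
      rw [← valuation_natCast_mul_eq hlam, map_mul, map_mul]
      exact mul_le_mul' le_rfl hle
    have h1 : IsSmall A (lam ^ q) ((1 + algebraMap QBar LSer μ * y s) ^ q -
        (1 + algebraMap QBar LSer ((q : QBar) * μ) * y s +
          algebraMap QBar LSer (μ ^ q) * y s ^ q)) :=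
      (isSmall_one_add_pow hμA (hyl s)).mono (le_trans (by
        rw [sq, ← mul_assoc, map_mul _ _ μ]
        exact mul_le_of_le_one_right' ((A.valuation_le_one_iff μ).mpr hμA)) hqμ)
    have h2 : IsSmall A (lam ^ q) (algebraMap QBar LSer ((q : QBar) * μ) * y s) :=
      (isSmall_mul_left (hyl s)).mono hqμ
    have h3 : IsSmall A (lam ^ q) (algebraMap QBar LSer (μ ^ q) * y s ^ q) :=
      (isSmall_mul_left (pow_mem (hyl s) q)).mono (by
        rw [map_pow, map_pow]; exact pow_le_pow_left' hle q)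
    convert (h1.add h2).add h3 using 1
    ring
  exfalso
  -- the error is a `q`-th root of a reduction
  have hqμ : A.valuation ((q : QBar) * μ) < A.valuation (μ ^ q) := by
    have hpos : 0 < A.valuation μ := zero_lt_iff.mpr ((Valuation.ne_zero_iff _).mpr hμ0)
    rw [map_mul, ← hlam, map_pow, map_pow]
    conv_rhs => rw [← Nat.sub_add_cancel hq.out.pos, pow_succ]
    exact mul_lt_mul_of_pos_right
      (pow_lt_pow_left₀ hgt zero_le (by have := hq.out.two_le; omega)) hpos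
  obtain ⟨κ, hκ, hκγ, hκq⟩ : ∃ κ : QBar, A.valuation κ < A.valuation (μ ^ q) ∧
      A.valuation γ ≤ A.valuation κ ∧ A.valuation ((q : QBar) * μ) ≤ A.valuation κ := by
    rcases le_total (A.valuation γ) (A.valuation ((q : QBar) * μ)) with hc | hc
    · exact ⟨_, hqμ, hc, le_rfl⟩
    · refine ⟨γ, lt_of_le_of_lt hγ ?_, le_rfl, hc⟩
      rw [map_pow, map_pow]
      exact pow_lt_pow_left₀ hgt zero_le hq.out.ne_zero
  have hμq : μ ^ q ≠ 0 := pow_ne_zero _ hμ0
  have hres : ∀ s, IsSmall A κ (iota2 M q h.hqM s (f * φ ^ q) - 1 -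
      algebraMap QBar LSer (μ ^ q) * y s ^ q) := by
    intro s
    have h1 : IsSmall A κ ((1 + algebraMap QBar LSer μ * y s) ^ q -
        (1 + algebraMap QBar LSer ((q : QBar) * μ) * y s +
          algebraMap QBar LSer (μ ^ q) * y s ^ q)) :=
      (isSmall_one_add_pow hμA (hyl s)).mono (le_trans (by
        rw [sq, ← mul_assoc, map_mul _ _ μ]
        exact mul_le_of_le_one_right' ((A.valuation_le_one_iff μ).mpr hμA)) hκq)
    have h2 : IsSmall A κ (algebraMap QBar LSer ((q : QBar) * μ) * y s) :=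
      (isSmall_mul_left (hyl s)).mono hκq
    have h3 : IsSmall A κ ((iota2 M q h.hqM s f - G s ^ q) * iota2 M q h.hqM s φ ^ q) :=
      ((hGe s).mono hκγ).mul_mem_locS (pow_mem (hφl s) q)
    convert (h1.add h2).add h3 using 1
    rw [map_mul, map_pow, ← hexp s]
    ring
  have hκn : κ / μ ^ q ∈ A.nonunits := by
    rw [ValuationSubring.mem_nonunits_iff, map_div₀,
      div_lt_one₀ (zero_lt_iff.mpr ((Valuation.ne_zero_iff _).mpr hμq))]
    exact hκ
  set δ : FB (q * M) := algebraMap QBar _ (μ ^ q)⁻¹ * (f * φ ^ q - 1) with hδ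
  have hδs : ∀ s, IsSmall A (κ / μ ^ q) (iota2 M q h.hqM s δ - y s ^ q) := fun s => by
    have := (hres s).const_mul (μ ^ q)⁻¹
    rw [inv_mul_eq_div] at this
    convert this using 1
    rw [hδ, map_mul, AlgHom.commutes, map_sub _ (f * φ ^ q), map_one, mul_sub _ _ (_ * y s ^ q),
      ← mul_assoc _ _ (y s ^ q), ← map_mul, inv_mul_cancel₀ hμq, map_one, one_mul]
  have hδl : δ ∈ loc2 A (iota2 M q h.hqM) := (mem_loc2 _).mpr fun s => by
    have := add_mem ((hδs s).mem_locS (Arith.mem_of_mem_nonunits hκn)) (pow_mem (hyl s) q)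
    rwa [sub_add_cancel] at this
  have hδmem : δ ∈ HN M q (q * n) := by
    rw [hδ, ← Algebra.smul_def]
    refine Submodule.smul_mem _ _ (sub_mem ?_ (one_mem_HN h _))
    rw [mul_comm f]
    exact pow_mul_mem_HN hφ hord
  have hδr : red2 A (iota2 M q h.hqM) ⟨δ, hδl⟩ = fun s => redL A ⟨y s, hyl s⟩ ^ q := by
    funext s
    rw [red2_apply, ← map_pow]
    exact (hδs s).redL_eq hκn _ _
  have hqn : n₀ ≤ q * n := le_trans (by omega) (Nat.le_mul_of_pos_left n hq.out.pos)
  have hw : (fun s => redL A ⟨y s, hyl s⟩) ∈ glued h 1 n := by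
    refine mem_glued_of_pow h hRoot ?_
    rw [← hδr, ← (hn₀ _ hqn).2]
    exact mem_redSub.mpr ⟨⟨δ, hδl⟩, hδmem, rfl⟩
  refine hs₀ (hbest μ z hz hμ0 hμz ?_ s₀)
  show (fun s => redL A ⟨z s, hz s⟩) ∈ LD A h.hqM D n
  rw [(hn₀ n (by omega)).1]
  convert neg_mem hw using 1
  funext s
  rw [Pi.neg_apply, ← map_neg]
  refine Eq.trans ?_ (congrArg (redL A) (show (⟨G s, hGl s⟩ * ⟨z s, hz s⟩ : locS A) =
    -⟨y s, hyl s⟩ from Subtype.ext (by push_cast; rw [hy]; ring)))
  rw [map_mul, hGr s, one_mul]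

end Fermat.Agent.OrdinaryAtP

end
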